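import Fermat.Agent.ESJ.Cong.LevelGen
import Fermat.Agent.S28.StepCore
import Fermat.Agent.S28.Kummer.Lin
import Fermat.Prelude.Def_ModularCurve_HeckeOperator

/-!
# The Atkin–Lehner involution `w_ℓ` of the level `N ℓ` function field, `ℓ ∤ N` prime (algebraic)

`L ⊇ ℚ` a field with a primitive `ℓ`-th root of unity, `F_N = L(J(q^d) : d ∣ N)`.  There is an
`L`-algebra automorphism `W` of `F_{Nℓ}` with `W ∘ α = β`, `W ∘ β = α`, `W ∘ W = id`, where
`α : F_N ⊆ F_{Nℓ}` is the inclusion and `β : F_N → F_{Nℓ}` is `q ↦ q^ℓ`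
(`W (J(q^d)) = J(q^(dℓ))`, `W (J(q^(dℓ))) = J(q^d)` for `d ∣ N`).

Construction: `F_{Nℓ} = β(F_N)(J(q))` (S28 `RouteT.generation`), `J(q)` is a root of the
polynomial `Φ_ℓ(X, J(q^ℓ))` of degree `ℓ + 1` over `β(F_N)`, which is its minimal polynomial
(`StepCore.step_core`, `Kummer.Jd_not_mem_FF_field`); so `β(f) ↦ f`, `J(q) ↦ J(q^ℓ)` extends to a
field homomorphism `w` (`J(q^ℓ)` is a root of `Φ_ℓ(X, J(q))`).  The values `w (J(q^d)) = J(q^(dℓ))`
follow from the root list of the modular equation.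
-/

set_option autoImplicit false

noncomputable section

namespace Fermat.Agent.ESJ.Cong.AtkinLehner

open ModularCurve AlgebraicCurve Fermat.Agent.S28 Polynomial IntermediateField
open Fermat.Agent.ESJ.Cong.LevelGen

/-- Lifting a pair `(ψ, ρ)` along the simple extension `i(K₀)(θ)`. -/
theorem exists_lift {K₀ Ω₁ Ω₂ : Type*} [Field K₀] [Field Ω₁] [Field Ω₂]
    (i : K₀ →+* Ω₁) (ψ : K₀ →+* Ω₂) (θ : Ω₁) (P : Polynomial K₀) (hPm : P.Monic)
    (hθ : P.eval₂ i θ = 0)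
    (hmin : ∀ q : Polynomial K₀, q.degree < P.degree → q.eval₂ i θ = 0 → q = 0)
    (ρ : Ω₂) (hρ : P.eval₂ ψ ρ = 0) :
    ∃ (M : Subfield Ω₁) (w : M →+* Ω₂), M = Subfield.closure (Set.range i ∪ {θ}) ∧
      (∀ a (h : i a ∈ M), w ⟨i a, h⟩ = ψ a) ∧ (∀ h : θ ∈ M, w ⟨θ, h⟩ = ρ) := by
  let : Algebra K₀ Ω₁ := i.toAlgebra
  let : Algebra K₀ Ω₂ := ψ.toAlgebra
  have hint : IsIntegral K₀ θ := ⟨P, hPm, hθ⟩
  have hminpoly : minpoly K₀ θ = P := by
    refine (minpoly.unique' K₀ θ hPm hθ (fun q hq => ?_)).symm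
    by_cases h0 : q = 0
    · exact Or.inl h0
    · exact Or.inr (fun h => h0 (hmin q hq h))
  let pb := IntermediateField.adjoin.powerBasis hint
  have hρ' : Polynomial.aeval ρ (minpoly K₀ pb.gen) = 0 := by
    rw [IntermediateField.adjoin.powerBasis_gen, IntermediateField.minpoly_gen, hminpoly]
    exact hρ
  let w₀ : K₀⟮θ⟯ →ₐ[K₀] Ω₂ := pb.lift ρ hρ'
  refine ⟨(K₀⟮θ⟯).toSubfield, w₀.toRingHom, ?_, ?_, ?_⟩
  · rw [IntermediateField.adjoin_toSubfield]
    rfl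
  · intro a h
    exact w₀.commutes a
  · intro h
    have := pb.lift_gen ρ hρ'
    rw [IntermediateField.adjoin.powerBasis_gen] at this
    exact this

/-! ### A root of `Φ(X, J(q^(m p)))` which is a series in `q^p` -/

/-- Over a field with a primitive `p`-th root of unity and for `p ∤ m`: the only root of
`Φ(X, J(q^(m p)))` which is a series in `q^p` is `J(q^(m p²))`. -/
theorem root_eq_of_mem_range_of_not_dvd {L : Type*} [Field L] {p : ℕ} (hp : 1 < p)
    (D : TD.ModEq p) {ζ : Lˣ} (hζ : IsPrimitiveRoot ζ p) (m : ℕ) [NeZero m] [NeZero p]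
    (hpm : ¬ p ∣ m) {α : LaurentSeries L} (hα : α ∈ Set.range (qExpand L p))
    (h0 : (TD.polyAt D.Φ (TD.Jd L (m * p))).eval α = 0) : α = TD.Jd L (m * p * p) := by
  have hJ : TD.Jd L (m * p) = Kummer.JJ ((1 : Lˣ) ^ p) (m * p) := by
    rw [one_pow, Kummer.JJ_one, TD.Jd_eq_jqNModC]
  rw [StepCore.polyAt_eq_specialize, hJ, ← StepCore.toKummer_Φ D,
    (StepCore.toKummer D).specialize_eq_prod hp hζ (1 : Lˣ) m, Polynomial.eval_prod,
    Finset.prod_eq_zero_iff] at h0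
  obtain ⟨i, -, hi⟩ := h0
  rw [Polynomial.eval_sub, Polynomial.eval_X, Polynomial.eval_C, sub_eq_zero] at hi
  rcases i with _ | b
  · rw [hi]
    show Kummer.JJ (((1 : Lˣ) ^ p) ^ p) (m * p * p) = _
    rw [one_pow, one_pow, Kummer.JJ_one, TD.Jd_eq_jqNModC]
  · exfalso
    have hi' : α = Kummer.JJ (ζ ^ (b : ℕ) * 1) m := hi
    obtain ⟨f, rfl⟩ := hα
    have hnd : ¬ ((p : ℕ) : ℤ) ∣ (-(m : ℤ)) := by
      rw [Int.dvd_neg, Int.natCast_dvd_natCast]
      exact hpm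
    have h1 := qExpand_coeff_of_not_dvd p f hnd
    rw [hi', Kummer.JJ_coeff_neg] at h1
    exact Units.ne_zero _ h1

/-! ### The Atkin–Lehner conjugation -/

section AL

variable (L : Type) [Field L] [Algebra ℚ L]

/-- **The Atkin–Lehner conjugation** of `F_{Nℓ}`, `ℓ ∤ N`: a ring homomorphism `w` defined on a
subfield `M ⊇ F_{Nℓ}` of `L((q))` with `w (f(q^ℓ)) = f` and `w f = f(q^ℓ)` for `f ∈ F_N`, mapping
`F_{Nℓ}` into `F_N(J(q^ℓ))`. -/
theorem exists_AL (N ℓ : ℕ) [NeZero ℓ] (hN : N ≠ 0) (hℓ : ℓ.Prime) (hℓN : ¬ ℓ ∣ N)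
    (ζ : Lˣ) (hζ : IsPrimitiveRoot ζ ℓ) :
    ∃ (M : Subfield (LaurentSeries L)) (w : M →+* LaurentSeries L),
      (∀ x ∈ TD.FF L (N * ℓ) 1, x ∈ M) ∧
      (∀ f ∈ TD.FF L N 1, ∃ h : qExpand L ℓ f ∈ M, w ⟨_, h⟩ = f) ∧
      (∀ f ∈ TD.FF L N 1, ∃ h : f ∈ M, w ⟨f, h⟩ = qExpand L ℓ f) ∧
      (∀ x ∈ TD.FF L (N * ℓ) 1, ∃ h : x ∈ M, w ⟨x, h⟩ ∈
        IntermediateField.adjoin L ((TD.FF L N 1 : Set (LaurentSeries L)) ∪ {TD.Jd L ℓ})) := by
  classical
  have : NeZero N := ⟨hN⟩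
  have hchar0 : CharZero L := charZero_of_injective_algebraMap (algebraMap ℚ L).injective
  obtain ⟨D⟩ := modEq_prime ℓ hℓ
  have hBC : TD.BaseCase ℓ := baseCase_prime ℓ hℓ
  set E := TD.FF L N 1 with hE
  have hJE : TD.Jd L 1 ∈ E := by
    have := TD.Jd_mem_FF L (N := N) (m := 1) (one_dvd N)
    rwa [mul_one] at this
  let jE : E := ⟨TD.Jd L 1, hJE⟩
  let i : E →+* LaurentSeries L := (qExpand L ℓ).comp (algebraMap E (LaurentSeries L))
  let ψ : E →+* LaurentSeries L := algebraMap E (LaurentSeries L)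
  let P : Polynomial E := TD.polyAt D.Φ jE
  have hPm : P.Monic := TD.polyAt_monic D.monic jE
  have hPdeg : P.natDegree = ℓ + 1 := by rw [TD.polyAt_natDegree D.monic, D.natDegree_eq]
  have hi_j : i jE = TD.Jd L ℓ := by
    show qExpand L ℓ (TD.Jd L 1) = _
    rw [TD.qExpand_Jd L ℓ 1 one_ne_zero, mul_one]
  have hθ : P.eval₂ i (TD.Jd L 1) = 0 := by
    rw [← Polynomial.eval_map, TD.polyAt_map, hi_j]
    have := D.rel₁' hℓ.ne_zero L 1 one_ne_zero
    rwa [one_mul] at this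
  have hρ : P.eval₂ ψ (TD.Jd L ℓ) = 0 := by
    rw [← Polynomial.eval_map, TD.polyAt_map]
    have := D.rel₂' hℓ.ne_zero L 1 one_ne_zero
    rwa [one_mul] at this
  have hnot : TD.Jd L ℓ ∉ TD.FF L N 1 :=
    Kummer.Jd_not_mem_FF_field L ℓ N hℓ hN hℓN
      (by exact_mod_cast (Nat.mul_ne_zero hℓ.ne_zero hN))
      (fun r hr _ => modEq_prime r hr) hBC
  have hmin : ∀ q : Polynomial E, q.degree < P.degree → q.eval₂ i (TD.Jd L 1) = 0 → q = 0 := by
    intro q hq hq0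
    by_contra hne
    have hqd : q.natDegree < ℓ + 1 := by
      rw [← hPdeg]
      exact Polynomial.natDegree_lt_natDegree hne hq
    rw [Polynomial.eval₂_eq_sum_range' i hqd,
      ← Fin.sum_univ_eq_sum_range (fun t => i (q.coeff t) * TD.Jd L 1 ^ t) (ℓ + 1)] at hq0
    have hc := StepCore.step_core L N ℓ 1 hN one_ne_zero hℓ (by exact_mod_cast hℓ.ne_zero) D hnot
      (fun t : Fin (ℓ + 1) => i (q.coeff t)) (fun t => by
        rw [one_mul, ← StepCore.FF_map_one L hN ℓ]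
        exact ⟨(q.coeff t : LaurentSeries L), (q.coeff t).2, rfl⟩) hq0
    apply hne
    apply Polynomial.ext
    intro t
    by_cases ht : t < ℓ + 1
    · have h1 := hc ⟨t, ht⟩
      rw [Polynomial.coeff_zero]
      exact i.injective (by rw [h1, map_zero])
    · rw [Polynomial.coeff_eq_zero_of_natDegree_lt (by omega), Polynomial.coeff_zero]
  obtain ⟨M, w, hM, hwi, hwθ⟩ := exists_lift i ψ (TD.Jd L 1) P hPm hθ hmin (TD.Jd L ℓ) hρ
  have hiM : ∀ a : E, i a ∈ M := fun a => by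
    rw [hM]
    exact Subfield.subset_closure (Or.inl ⟨a, rfl⟩)
  have hθM : TD.Jd L 1 ∈ M := by
    rw [hM]
    exact Subfield.subset_closure (Or.inr rfl)
  have hcongr : ∀ {x y : LaurentSeries L} (hxy : x = y) (hx : x ∈ M) (hy : y ∈ M),
      w ⟨x, hx⟩ = w ⟨y, hy⟩ := by
    intro x y hxy hx hy
    subst hxy
    rfl
  -- constants
  have hconst : ∀ c : L, ∃ h : algebraMap L (LaurentSeries L) c ∈ M,
      w ⟨_, h⟩ = algebraMap L (LaurentSeries L) c := by
    intro c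
    have hc : i (algebraMap L E c) = algebraMap L (LaurentSeries L) c :=
      Kummer.qExpand_algebraMap' ℓ c
    have hmem : algebraMap L (LaurentSeries L) c ∈ M := hc ▸ hiM _
    refine ⟨hmem, ?_⟩
    rw [hcongr hc.symm hmem (hiM _), hwi]
    rfl
  -- `w (f(q^ℓ)) = f`
  have hwq : ∀ f ∈ TD.FF L N 1, ∃ h : qExpand L ℓ f ∈ M, w ⟨_, h⟩ = f := by
    intro f hf
    exact ⟨hiM ⟨f, hf⟩, hwi ⟨f, hf⟩ (hiM _)⟩
  -- `F_{Nℓ} ⊆ M`
  let M' : IntermediateField L (LaurentSeries L) :=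
    M.toIntermediateField (fun c => (hconst c).1)
  have hKM : IntermediateField.adjoin L
      ((TD.FF L N ℓ : Set (LaurentSeries L)) ∪ {TD.Jd L 1}) ≤ M' := by
    rw [IntermediateField.adjoin_le_iff]
    rintro s (hs | hs)
    · have hs' : s ∈ TD.FF L N ℓ := hs
      rw [← StepCore.FF_map_one L hN ℓ] at hs'
      obtain ⟨z, hz, rfl⟩ := hs'
      exact hiM ⟨z, hz⟩
    · rw [Set.mem_singleton_iff] at hs
      rw [hs]
      exact hθM
  have hE'M : ∀ x ∈ TD.FF L (N * ℓ) 1, x ∈ M := fun x hx =>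
    hKM (FF_mul_le_adjoin_rev L N ℓ hN hℓ hx)
  -- the values of `w` on the generators `J(q^d)`, `d ∣ N`
  have hwJ : ∀ d : ℕ, d ∣ N → ∃ h : TD.Jd L d ∈ M, w ⟨_, h⟩ = TD.Jd L (d * ℓ) := by
    intro d hd
    have hd0 : d ≠ 0 := fun h => hN (by rw [h] at hd; exact zero_dvd_iff.mp hd)
    have : NeZero d := ⟨hd0⟩
    have hdE : TD.Jd L d ∈ E := by
      have := TD.Jd_mem_FF L (N := N) (m := 1) hd
      rwa [one_mul] at this
    have hx : TD.Jd L d ∈ M := by
      apply hE'M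
      have := TD.Jd_mem_FF L (N := N * ℓ) (m := 1) (hd.trans (dvd_mul_right N ℓ))
      rwa [one_mul] at this
    have hyi : i ⟨TD.Jd L d, hdE⟩ = TD.Jd L (d * ℓ) := by
      show qExpand L ℓ (TD.Jd L d) = _
      rw [TD.qExpand_Jd L ℓ d hd0, mul_comm]
    have hy : TD.Jd L (d * ℓ) ∈ M := hyi ▸ hiM _
    refine ⟨hx, ?_⟩
    -- the relation inside `M`
    have hrel : (TD.polyAt D.Φ (⟨TD.Jd L (d * ℓ), hy⟩ : M)).eval (⟨TD.Jd L d, hx⟩ : M) = 0 := by
      apply M.subtype.injective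
      rw [TD.map_eval_polyAt, map_zero]
      exact D.rel₁' hℓ.ne_zero L d hd0
    have h1 := congrArg w hrel
    rw [TD.map_eval_polyAt, map_zero, hcongr hyi.symm hy (hiM _), hwi] at h1
    -- `h1 : Φ(w x, J(q^d)) = 0`
    have h2 := congrArg (qExpand L ℓ) h1
    rw [TD.map_eval_polyAt, map_zero] at h2
    have h3 : qExpand L ℓ (ψ ⟨TD.Jd L d, hdE⟩) = TD.Jd L (d * ℓ) := hyi
    rw [h3] at h2
    have hdℓ : ¬ ℓ ∣ d := fun h => hℓN (h.trans hd)
    have h4 := root_eq_of_mem_range_of_not_dvd hℓ.one_lt D hζ d hdℓ ⟨_, rfl⟩ h2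
    apply qExpand_injective ℓ
    rw [h4, TD.qExpand_Jd L ℓ (d * ℓ) (Nat.mul_ne_zero hd0 hℓ.ne_zero)]
    congr 1
    ring
  -- `w f = f(q^ℓ)` on `F_N`
  have hwE : ∀ f, f ∈ IntermediateField.adjoin L ((fun d => TD.Jd L (1 * d)) '' {d | d ∣ N}) →
      ∃ h : f ∈ M, w ⟨f, h⟩ = qExpand L ℓ f := by
    intro f hf'
    induction hf' using IntermediateField.adjoin_induction with
    | mem x hx =>
        obtain ⟨d, hd, rfl⟩ := hx
        obtain ⟨h, e⟩ := hwJ d hd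
        have hd0 : d ≠ 0 := fun h => hN (by
          have hd' : d ∣ N := hd
          rw [h] at hd'; exact zero_dvd_iff.mp hd')
        have h1 : TD.Jd L (1 * d) = TD.Jd L d := by rw [one_mul]
        show ∃ h : TD.Jd L (1 * d) ∈ M, w ⟨_, h⟩ = qExpand L ℓ (TD.Jd L (1 * d))
        have hmem : TD.Jd L (1 * d) ∈ M := by rw [h1]; exact h
        refine ⟨hmem, ?_⟩
        rw [hcongr h1 hmem h, e, h1, TD.qExpand_Jd L ℓ d hd0, mul_comm]
    | algebraMap c =>
        obtain ⟨h, e⟩ := hconst c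
        exact ⟨h, by rw [e, Kummer.qExpand_algebraMap']⟩
    | add x y _ _ hx hy =>
        obtain ⟨h1, e1⟩ := hx
        obtain ⟨h2, e2⟩ := hy
        refine ⟨add_mem h1 h2, ?_⟩
        rw [show (⟨x + y, add_mem h1 h2⟩ : M) = ⟨x, h1⟩ + ⟨y, h2⟩ from rfl, map_add, e1, e2,
          map_add]
    | inv x _ hx =>
        obtain ⟨h1, e1⟩ := hx
        refine ⟨inv_mem h1, ?_⟩
        rw [show (⟨x⁻¹, inv_mem h1⟩ : M) = (⟨x, h1⟩ : M)⁻¹ from rfl, map_inv₀, e1, map_inv₀]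
    | mul x y _ _ hx hy =>
        obtain ⟨h1, e1⟩ := hx
        obtain ⟨h2, e2⟩ := hy
        refine ⟨mul_mem h1 h2, ?_⟩
        rw [show (⟨x * y, mul_mem h1 h2⟩ : M) = ⟨x, h1⟩ * ⟨y, h2⟩ from rfl, map_mul, e1, e2,
          map_mul]
  -- `w` maps `F_{Nℓ}` into `F_N(J(q^ℓ))`
  have hwG : ∀ x, x ∈ IntermediateField.adjoin L
      ((TD.FF L N ℓ : Set (LaurentSeries L)) ∪ {TD.Jd L 1}) → ∃ h : x ∈ M, w ⟨x, h⟩ ∈
        IntermediateField.adjoin L ((TD.FF L N 1 : Set (LaurentSeries L)) ∪ {TD.Jd L ℓ}) := by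
    intro x hx'
    induction hx' using IntermediateField.adjoin_induction with
    | mem s hs =>
        rcases hs with hs | hs
        · have hs' : s ∈ TD.FF L N ℓ := hs
          rw [← StepCore.FF_map_one L hN ℓ] at hs'
          obtain ⟨z, hz, rfl⟩ := hs'
          obtain ⟨h, e⟩ := hwq z hz
          change ∃ h : qExpand L ℓ z ∈ M, w ⟨qExpand L ℓ z, h⟩ ∈ _
          refine ⟨h, ?_⟩
          rw [e]
          exact IntermediateField.subset_adjoin L _ (Or.inl hz)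
        · rw [Set.mem_singleton_iff] at hs
          subst hs
          refine ⟨hθM, ?_⟩
          rw [hwθ]
          exact IntermediateField.subset_adjoin L _ (Or.inr rfl)
    | algebraMap c =>
        obtain ⟨h, e⟩ := hconst c
        exact ⟨h, by rw [e]; exact IntermediateField.algebraMap_mem _ c⟩
    | add x y _ _ hx hy =>
        obtain ⟨h1, e1⟩ := hx
        obtain ⟨h2, e2⟩ := hy
        refine ⟨add_mem h1 h2, ?_⟩
        rw [show (⟨x + y, add_mem h1 h2⟩ : M) = ⟨x, h1⟩ + ⟨y, h2⟩ from rfl, map_add]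
        exact add_mem e1 e2
    | inv x _ hx =>
        obtain ⟨h1, e1⟩ := hx
        refine ⟨inv_mem h1, ?_⟩
        rw [show (⟨x⁻¹, inv_mem h1⟩ : M) = (⟨x, h1⟩ : M)⁻¹ from rfl, map_inv₀]
        exact inv_mem e1
    | mul x y _ _ hx hy =>
        obtain ⟨h1, e1⟩ := hx
        obtain ⟨h2, e2⟩ := hy
        refine ⟨mul_mem h1 h2, ?_⟩
        rw [show (⟨x * y, mul_mem h1 h2⟩ : M) = ⟨x, h1⟩ * ⟨y, h2⟩ from rfl, map_mul]
        exact mul_mem e1 e2
  exact ⟨M, w, hE'M, hwq, fun f hf => hwE f hf,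
    fun x hx => hwG x (FF_mul_le_adjoin_rev L N ℓ hN hℓ hx)⟩

/-- The Atkin–Lehner conjugation as a ring endomorphism of `F_{Nℓ}` exchanging `α` and `β`. -/
theorem exists_ringHom_swap (N ℓ : ℕ) [NeZero N] [NeZero ℓ] (hℓ : ℓ.Prime) (hℓN : ¬ ℓ ∣ N)
    (ζ : Lˣ) (hζ : IsPrimitiveRoot ζ ℓ) :
    ∃ W : laurentBaseChange L (modularFunctionFieldFull (N * ℓ)) →+*
        laurentBaseChange L (modularFunctionFieldFull (N * ℓ)),
      (∀ x, W (heckeAlphaBar L N ℓ x) = heckeBetaBar L N ℓ x) ∧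
      (∀ x, W (heckeBetaBar L N ℓ x) = heckeAlphaBar L N ℓ x) := by
  obtain ⟨M, w, hM1, hwq, hwE, hwG⟩ := exists_AL L N ℓ (NeZero.ne N) hℓ hℓN ζ hζ
  have hF' : ∀ x : laurentBaseChange L (modularFunctionFieldFull (N * ℓ)),
      (x : LaurentSeries L) ∈ TD.FF L (N * ℓ) 1 := fun x => by
    rw [← laurentBaseChange_full_eq]; exact x.2
  have hF : ∀ x : laurentBaseChange L (modularFunctionFieldFull N),
      (x : LaurentSeries L) ∈ TD.FF L N 1 := fun x => by
    rw [← laurentBaseChange_full_eq]; exact x.2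
  have hmem : ∀ x : laurentBaseChange L (modularFunctionFieldFull (N * ℓ)),
      (x : LaurentSeries L) ∈ M := fun x => hM1 _ (hF' x)
  -- the values of `w` lie in `F_{Nℓ}`
  have hGle : IntermediateField.adjoin L ((TD.FF L N 1 : Set (LaurentSeries L)) ∪ {TD.Jd L ℓ}) ≤
      laurentBaseChange L (modularFunctionFieldFull (N * ℓ)) := by
    rw [laurentBaseChange_full_eq, IntermediateField.adjoin_le_iff]
    rintro s (hs | hs)
    · have hs' : s ∈ TD.FF L N 1 := hs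
      have hle : TD.FF L N 1 ≤ TD.FF L (N * ℓ) 1 := by
        unfold TD.FF
        apply IntermediateField.adjoin.mono
        rintro _ ⟨d, hd, rfl⟩
        exact ⟨d, Dvd.dvd.mul_right hd ℓ, rfl⟩
      exact hle hs'
    · rw [Set.mem_singleton_iff] at hs
      rw [hs]
      have := TD.Jd_mem_FF L (N := N * ℓ) (m := 1) (dvd_mul_left ℓ N)
      rwa [one_mul] at this
  have hval : ∀ x : laurentBaseChange L (modularFunctionFieldFull (N * ℓ)),
      w ⟨(x : LaurentSeries L), hmem x⟩ ∈ laurentBaseChange L (modularFunctionFieldFull (N * ℓ)) :=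
    fun x => by
      obtain ⟨h, hh⟩ := hwG _ (hF' x)
      exact hGle hh
  -- the ring homomorphism
  let W₀ : laurentBaseChange L (modularFunctionFieldFull (N * ℓ)) →+* LaurentSeries L :=
    w.comp (RingHom.codRestrict
      ((laurentBaseChange L (modularFunctionFieldFull (N * ℓ))).val :
        laurentBaseChange L (modularFunctionFieldFull (N * ℓ)) →+* LaurentSeries L) M hmem)
  have hW₀ : ∀ x, W₀ x = w ⟨(x : LaurentSeries L), hmem x⟩ := fun x => rfl
  have hW₀mem : ∀ x, W₀ x ∈ laurentBaseChange L (modularFunctionFieldFull (N * ℓ)) :=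
    fun x => by rw [hW₀]; exact hval x
  refine ⟨RingHom.codRestrict W₀ (laurentBaseChange L (modularFunctionFieldFull (N * ℓ))) hW₀mem,
    fun x => ?_, fun x => ?_⟩
  · apply Subtype.ext
    rw [RingHom.codRestrict_apply, hW₀, coe_heckeBetaBar]
    obtain ⟨h, e⟩ := hwE _ (hF x)
    rw [← e]
    have e2 : (⟨((heckeAlphaBar L N ℓ x : laurentBaseChange L (modularFunctionFieldFull (N * ℓ))) :
        LaurentSeries L), hmem _⟩ : M) = ⟨(x : LaurentSeries L), h⟩ :=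
      Subtype.ext (coe_heckeAlphaBar N ℓ x)
    rw [e2]
  · apply Subtype.ext
    rw [RingHom.codRestrict_apply, hW₀, coe_heckeAlphaBar]
    obtain ⟨h, e⟩ := hwq _ (hF x)
    exact e

/-- **The Atkin–Lehner involution** `w_ℓ` of `F_{Nℓ}` (`ℓ ∤ N` prime) over a field `L ⊇ ℚ` with a
primitive `ℓ`-th root of unity: an `L`-algebra automorphism exchanging the two degeneracy maps. -/
theorem exists_atkinLehner (N ℓ : ℕ) [NeZero N] [NeZero ℓ] (hℓ : ℓ.Prime) (hℓN : ¬ ℓ ∣ N)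
    (ζ : Lˣ) (hζ : IsPrimitiveRoot ζ ℓ) :
    ∃ W : laurentBaseChange L (modularFunctionFieldFull (N * ℓ)) ≃ₐ[L]
        laurentBaseChange L (modularFunctionFieldFull (N * ℓ)),
      (∀ x, W (heckeAlphaBar L N ℓ x) = heckeBetaBar L N ℓ x) ∧
      (∀ x, W (heckeBetaBar L N ℓ x) = heckeAlphaBar L N ℓ x) ∧ ∀ z, W (W z) = z := by
  obtain ⟨W₁, hα, hβ⟩ := exists_ringHom_swap L N ℓ hℓ hℓN ζ hζ
  have hinv : ∀ z, W₁ (W₁ z) = z := by
    intro z
    have hle : Subfield.closure (Set.range (heckeAlphaBar L N ℓ) ∪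
        {heckeBetaBar L N ℓ (jLevel L N)}) ≤ (W₁.comp W₁).eqLocusField (RingHom.id _) := by
      rw [Subfield.closure_le]
      rintro y (⟨x, rfl⟩ | hy)
      · show W₁ (W₁ (heckeAlphaBar L N ℓ x)) = heckeAlphaBar L N ℓ x
        rw [hα, hβ]
      · rw [Set.mem_singleton_iff] at hy
        rw [hy]
        show W₁ (W₁ (heckeBetaBar L N ℓ (jLevel L N))) = heckeBetaBar L N ℓ (jLevel L N)
        rw [hβ, hα]
    rw [closure_range_heckeAlphaBar_union L N ℓ hℓ hℓN] at hle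
    exact hle (Subfield.mem_top z)
  have hcomm : ∀ c : L, W₁ (algebraMap L _ c) = algebraMap L _ c := by
    intro c
    rw [← (heckeAlphaBar L N ℓ).commutes c, hα, (heckeBetaBar L N ℓ).commutes c,
      (heckeAlphaBar L N ℓ).commutes c]
  refine ⟨{ toFun := W₁, invFun := W₁, left_inv := hinv, right_inv := hinv,
            map_mul' := map_mul W₁, map_add' := map_add W₁, commutes' := hcomm }, hα, hβ, hinv⟩

end AL

end Fermat.Agent.ESJ.Cong.AtkinLehner
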