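import Fermat.Agent.ESJ.Cong.ConjAnalytic
import Fermat.Agent.S24.DegTop
import Fermat.Agent.S24.DegNormCore
import Fermat.Agent.S20.IndexGamma0
import Fermat.Agent.S28.Kummer.Twist

/-!
# ES-CONG, CONG-D (analytic route): degree of `F_{Nℓ}/F_N` and the norm of `f(q^ℓ)`

For a prime `ℓ ∤ N`, with `α : F_N → F_{Nℓ}` the inclusion and `β` the substitution `q ↦ q^ℓ`:

* `finrank_alpha`: `[F_{Nℓ} : α F_N] = ℓ + 1`;
* `qExpand_norm_heckeBeta`: for a primitive `ℓ`-th root of unity `ζ` of `ℚ̄` and `y ∈ F_N`,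
  `Nm_{F_{Nℓ}/F_N}(β y)(t^ℓ) = y(t^(ℓ²)) · ∏_{b < ℓ} y(ζ^b t)` in `ℚ̄((t))`.
-/

set_option autoImplicit false
set_option linter.unusedSectionVars false

open UpperHalfPlane ModularForm Filter Function
open scoped MatrixGroups Manifold Topology IntermediateField

namespace Fermat.Agent.ESJ.Cong.ConjAnalytic

open ModularCurve Fermat.Agent.S24 Fermat.Agent.S24.QExp Fermat.Agent.S28.Chain Fermat.Agent.S28
open AlgebraicCurve

noncomputable section

/-! ### The degree -/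

theorem card_XN_mul (N ℓ : ℕ) [NeZero N] [NeZero ℓ] (hℓ : ℓ.Prime) (hℓN : ¬ ℓ ∣ N) :
    Nat.card (XN (N * ℓ)) = (ℓ + 1) * Nat.card (XN N) := by
  haveI : Fact ℓ.Prime := ⟨hℓ⟩
  have h1 := Subgroup.relIndex_mul_index
    (Fermat.Agent.S20.Count.Index.Gamma0_mul_le N ℓ (NeZero.ne (N * ℓ)))
  rw [Fermat.Agent.S20.Count.Index.relIndex_Gamma0_mul N ℓ (NeZero.ne N), if_neg hℓN] at h1
  exact h1.symm

theorem alpha_jBar (N ℓ : ℕ) [NeZero N] [NeZero ℓ] :
    heckeAlphaBar KQ N ℓ (jBar N) = jBar (N * ℓ) := by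
  apply Subtype.ext
  rw [coe_heckeAlphaBar]
  show (jFormal N ⟨1, one_dvd N⟩ : LaurentSeries KQ) =
    (jFormal (N * ℓ) ⟨1, one_dvd (N * ℓ)⟩ : LaurentSeries KQ)
  rw [coe_jFormal, coe_jFormal]

theorem card_XN_pos (N : ℕ) [NeZero N] : 0 < Nat.card (XN N) := by
  have h := finrank_jBar N
  haveI := finiteDimensional_jBar N
  rw [← h]
  exact Module.finrank_pos

/-- Abstract tower computation: for `α : A →ₐ[k] B` and `a : A`, if `[A : k(a)] = n > 0` and
`[B : k(α a)] = m > 0` then `B` is finite over `A` (along `α`) and `n · [B : A] = m`. -/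
theorem finite_and_finrank_along {k A B : Type*} [Field k] [Field A] [Field B] [Algebra k A]
    [Algebra k B] (α : A →ₐ[k] B) (a : A) (n m : ℕ)
    (hA : Module.finrank k⟮a⟯ A = n) (hB : Module.finrank k⟮α a⟯ B = m) (hm : 0 < m) :
    letI := algebraAlong α
    Module.Finite A B ∧ n * Module.finrank A B = m := by
  letI := algebraAlong α
  letI algKB : Algebra k⟮a⟯ B :=
    ((algebraMap A B).comp (algebraMap k⟮a⟯ A)).toAlgebra
  haveI : IsScalarTower k⟮a⟯ A B := IsScalarTower.of_algebraMap_eq (fun _ => rfl)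
  have hmap : (k⟮a⟯).map α = k⟮α a⟯ := by
    rw [IntermediateField.adjoin_map, Set.image_singleton]
  let i : k⟮a⟯ ≃+* k⟮α a⟯ :=
    ((IntermediateField.equivMap k⟮a⟯ α).trans (IntermediateField.equivOfEq hmap)).toRingEquiv
  have hc : (algebraMap k⟮α a⟯ B).comp i.toRingHom =
      (RingEquiv.refl B).toRingHom.comp (algebraMap k⟮a⟯ B) := by
    apply RingHom.ext
    intro x
    rfl
  have hfr : Module.finrank k⟮a⟯ B = m :=
    (Algebra.finrank_eq_of_equiv_equiv i (RingEquiv.refl _) hc).trans hB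
  have hpos : 0 < Module.finrank k⟮a⟯ B := by rw [hfr]; exact hm
  haveI hfinK : Module.Finite k⟮a⟯ B := Module.finite_of_finrank_pos hpos
  have hfinA : Module.Finite A B := Module.Finite.of_restrictScalars_finite k⟮a⟯ A B
  refine ⟨hfinA, ?_⟩
  have htower := Module.finrank_mul_finrank k⟮a⟯ A B
  rw [hfr, hA] at htower
  exact htower

/-- `[F_{Nℓ} : F_N] = ℓ + 1` along `α`, for a prime `ℓ ∤ N`. -/
theorem finite_and_finrank_alpha (N ℓ : ℕ) [NeZero N] [NeZero ℓ] (hℓ : ℓ.Prime) (hℓN : ¬ ℓ ∣ N) :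
    letI := algebraAlong (heckeAlphaBar KQ N ℓ)
    Module.Finite (FN N) (FN (N * ℓ)) ∧ Module.finrank (FN N) (FN (N * ℓ)) = ℓ + 1 := by
  have hB : Module.finrank KQ⟮heckeAlphaBar KQ N ℓ (jBar N)⟯ (FN (N * ℓ)) =
      Nat.card (XN (N * ℓ)) := by
    rw [alpha_jBar]
    exact finrank_jBar (N * ℓ)
  have key := finite_and_finrank_along (heckeAlphaBar KQ N ℓ) (jBar N) _ _ (finrank_jBar N) hB
    (card_XN_pos (N * ℓ))
  refine ⟨key.1, ?_⟩
  have h2 := key.2
  rw [card_XN_mul N ℓ hℓ hℓN, mul_comm] at h2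
  exact Nat.eq_of_mul_eq_mul_right (card_XN_pos N) h2

/-! ### The norm as a product over embeddings -/

/-- Abstract norm formula along `α : A →ₐ[k] B`: a family of `[B : A]` distinct ring homs
`σ q : B → L` with `σ q ∘ α = ι` computes `ι (Nm f) = ∏ σ q f`. -/
theorem norm_eq_prod_along {k A B L : Type*} [Field k] [Field A] [Field B] [Field L] [CharZero A]
    [Algebra k A] [Algebra k B] (α : A →ₐ[k] B) (ι : A →+* L) {X : Type*} [Fintype X]
    (σ : X → (B →+* L)) (hσ : ∀ q x, σ q (α x) = ι x) (hinj : Function.Injective σ)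
    (hfin : letI := algebraAlong α; Module.Finite A B)
    (hcard : letI := algebraAlong α; Module.finrank A B = Fintype.card X) (f : B) :
    letI := algebraAlong α
    ι (Algebra.norm A f) = ∏ q, σ q f := by
  letI := algebraAlong α
  letI : Algebra A L := ι.toAlgebra
  haveI : FiniteDimensional A B := hfin
  let σ' : X → (B →ₐ[A] L) := fun q => { σ q with commutes' := fun x => hσ q x }
  have hinj' : Function.Injective σ' := by
    intro q q' h
    apply hinj
    ext y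
    exact congrArg (fun φ : B →ₐ[A] L => φ y) h
  exact DegNorm.algebraMap_norm_eq_prod σ' hinj' hcard f

theorem coe_jBar (N : ℕ) [NeZero N] : (jBar N : LaurentSeries KQ) = jqModC KQ := by
  show (jFormal N ⟨1, one_dvd N⟩ : LaurentSeries KQ) = _
  rw [coe_jFormal, TD.Jd_one]

/-- **CONG-D, norm formula** (analytic route, unconditional): for a prime `ℓ ∤ N`, a primitive
`ℓ`-th root of unity `ζ ∈ ℚ̄` and `y ∈ F_N`,
`Nm_{F_{Nℓ}/F_N}(y(q^ℓ))(t^ℓ) = y(t^(ℓ²)) · ∏_{b < ℓ} y(ζ^b t)`. -/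
theorem qExpand_norm_heckeBeta (N ℓ : ℕ) [NeZero N] [NeZero ℓ] (hℓ : ℓ.Prime) (hℓN : ¬ ℓ ∣ N)
    (ζ : KQˣ) (hζ : IsPrimitiveRoot ζ ℓ) (y : modularFunctionFieldBar N) :
    letI := algebraAlong (heckeAlphaBar KQ N ℓ)
    qExpand KQ ℓ ((Algebra.norm (modularFunctionFieldBar N) (heckeBetaBar KQ N ℓ y) :
      modularFunctionFieldBar N) : LaurentSeries KQ) =
    qExpand KQ (ℓ * ℓ) (y : LaurentSeries KQ) *
      ∏ b ∈ Finset.range ℓ, rot (ζ ^ b) (y : LaurentSeries KQ) := by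
  have hex : ∀ b : Fin ℓ, ∃ τ : modularFunctionFieldBar (N * ℓ) →+* LaurentSeries KQ,
      (∀ x : modularFunctionFieldBar N,
        τ (heckeAlphaBar KQ N ℓ x) = qExpand KQ ℓ (x : LaurentSeries KQ)) ∧
      (∀ x : modularFunctionFieldBar N,
        τ (heckeBetaBar KQ N ℓ x) = rot (ζ ^ b.1) (x : LaurentSeries KQ)) := fun b =>
    exists_conj N ℓ hℓ hℓN (ζ ^ b.1) (by rw [← pow_mul, mul_comm, pow_mul, hζ.pow_eq_one, one_pow])
  choose τ hτα hτβ using hex
  let ι : modularFunctionFieldBar N →+* LaurentSeries KQ :=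
    (qExpand KQ ℓ).comp (modularFunctionFieldBar N).val.toRingHom
  let τinf : modularFunctionFieldBar (N * ℓ) →+* LaurentSeries KQ :=
    (qExpand KQ ℓ).comp (modularFunctionFieldBar (N * ℓ)).val.toRingHom
  let σ : Option (Fin ℓ) → (modularFunctionFieldBar (N * ℓ) →+* LaurentSeries KQ) :=
    fun o => o.elim τinf τ
  have hσ : ∀ o x, σ o (heckeAlphaBar KQ N ℓ x) = ι x := by
    intro o x
    cases o with
    | none =>
      show qExpand KQ ℓ ((heckeAlphaBar KQ N ℓ x : modularFunctionFieldBar (N * ℓ)) :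
        LaurentSeries KQ) = qExpand KQ ℓ (x : LaurentSeries KQ)
      rw [coe_heckeAlphaBar]
    | some b => exact hτα b x
  have hℓ2 : ¬ ((ℓ : ℤ) ∣ -1) := by
    intro h
    have h1 : (ℓ : ℤ) ∣ 1 := (dvd_neg.mp h)
    have h2 : ℓ ∣ 1 := Int.natCast_dvd_natCast.mp (by exact_mod_cast h1)
    exact hℓ.one_lt.ne' (Nat.dvd_one.mp h2)
  have hnone : (σ none (heckeBetaBar KQ N ℓ (jBar N))).coeff (-1) = 0 := by
    show (qExpand KQ ℓ ((heckeBetaBar KQ N ℓ (jBar N) : modularFunctionFieldBar (N * ℓ)) :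
        LaurentSeries KQ)).coeff (-1) = 0
    exact qExpand_coeff_of_not_dvd (R := KQ) (N := ℓ) _ hℓ2
  have hsome : ∀ b : Fin ℓ, (σ (some b) (heckeBetaBar KQ N ℓ (jBar N))).coeff (-1) =
      (((ζ ^ b.1)⁻¹ : KQˣ) : KQ) := by
    intro b
    show (τ b (heckeBetaBar KQ N ℓ (jBar N))).coeff (-1) = _
    rw [hτβ b, coe_jBar, rot_jqModC_coeff_neg_one]
  have hinj : Function.Injective σ := by
    intro o o' h
    have hc := congrArg (fun φ : modularFunctionFieldBar (N * ℓ) →+* LaurentSeries KQ =>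
      (φ (heckeBetaBar KQ N ℓ (jBar N))).coeff (-1)) h
    cases o with
    | none =>
      cases o' with
      | none => rfl
      | some b' =>
        rw [hnone, hsome] at hc
        exact absurd hc.symm (Units.ne_zero _)
    | some b =>
      cases o' with
      | none =>
        rw [hnone, hsome] at hc
        exact absurd hc (Units.ne_zero _)
      | some b' =>
        rw [hsome, hsome] at hc
        have h1 : (ζ ^ b.1)⁻¹ = (ζ ^ b'.1)⁻¹ := Units.ext hc
        have h2 : ζ ^ b.1 = ζ ^ b'.1 := inv_injective h1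
        have h3 : b.1 = b'.1 := hζ.pow_inj b.2 b'.2 h2
        rw [Fin.ext h3]
  have hfr := finite_and_finrank_alpha N ℓ hℓ hℓN
  have hcard : Fintype.card (Option (Fin ℓ)) = ℓ + 1 := by
    rw [Fintype.card_option, Fintype.card_fin]
  have key := norm_eq_prod_along (heckeAlphaBar KQ N ℓ) ι σ hσ hinj hfr.1
    (hfr.2.trans hcard.symm) (heckeBetaBar KQ N ℓ y)
  have hι : ∀ x : modularFunctionFieldBar N, ι x = qExpand KQ ℓ (x : LaurentSeries KQ) :=
    fun x => rfl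
  rw [hι] at key
  rw [key, Fintype.prod_option]
  have h1 : σ none (heckeBetaBar KQ N ℓ y) = qExpand KQ (ℓ * ℓ) (y : LaurentSeries KQ) := by
    show qExpand KQ ℓ ((heckeBetaBar KQ N ℓ y : modularFunctionFieldBar (N * ℓ)) :
        LaurentSeries KQ) = _
    rw [coe_heckeBetaBar, qExpand_qExpand]
  have h2 : ∀ b : Fin ℓ, σ (some b) (heckeBetaBar KQ N ℓ y) =
      rot (ζ ^ b.1) (y : LaurentSeries KQ) := fun b => hτβ b y
  rw [h1]
  congr 1
  rw [Finset.prod_congr rfl (fun b _ => h2 b)]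
  exact Fin.prod_univ_eq_prod_range (fun b => rot (ζ ^ b) (y : LaurentSeries KQ)) ℓ

theorem finrank_alpha (N ℓ : ℕ) [NeZero N] [NeZero ℓ] (hℓ : ℓ.Prime) (hℓN : ¬ ℓ ∣ N) :
    letI := algebraAlong (heckeAlphaBar KQ N ℓ)
    Module.finrank (FN N) (FN (N * ℓ)) = ℓ + 1 :=
  (finite_and_finrank_alpha N ℓ hℓ hℓN).2

theorem finiteAlong_alpha (N ℓ : ℕ) [NeZero N] [NeZero ℓ] (hℓ : ℓ.Prime) (hℓN : ¬ ℓ ∣ N) :
    FiniteAlong KQ (heckeAlphaBar KQ N ℓ) :=
  (finite_and_finrank_alpha N ℓ hℓ hℓN).1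

theorem kummerTwist_eq_rot {K : Type*} [CommRing K] (c : Kˣ) (f : LaurentSeries K) :
    Fermat.Agent.S28.Kummer.twist c f = rot c f := by
  ext n
  rfl

/-- The norm formula with `Kummer.twist` in place of `rot` (the same substitution `t ↦ c t`). -/
theorem qExpand_norm_heckeBeta_twist (N ℓ : ℕ) [NeZero N] [NeZero ℓ] (hℓ : ℓ.Prime)
    (hℓN : ¬ ℓ ∣ N) (ζ : KQˣ) (hζ : IsPrimitiveRoot ζ ℓ) (y : modularFunctionFieldBar N) :
    letI := algebraAlong (heckeAlphaBar KQ N ℓ)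
    qExpand KQ ℓ ((Algebra.norm (modularFunctionFieldBar N) (heckeBetaBar KQ N ℓ y) :
      modularFunctionFieldBar N) : LaurentSeries KQ) =
    qExpand KQ (ℓ * ℓ) (y : LaurentSeries KQ) *
      ∏ b ∈ Finset.range ℓ, Fermat.Agent.S28.Kummer.twist (ζ ^ b) (y : LaurentSeries KQ) := by
  have h := qExpand_norm_heckeBeta N ℓ hℓ hℓN ζ hζ y
  rw [h]
  exact congrArg _ (Finset.prod_congr rfl (fun b _ => (kummerTwist_eq_rot _ _).symm))

end

end Fermat.Agent.ESJ.Cong.ConjAnalytic
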