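import Fermat.Agent.S28.RouteT.Gen
import Fermat.Agent.S28.ModEqX.Main
import Fermat.Agent.S28.Char0Bridge
import Fermat.Agent.S28.BaseCaseA
import Fermat.Prelude.Def_ModularCurve_HeckeOperator

/-!
# ES-CONG: generation of the level `N ℓ` function field over the level `N` one

For a prime `ℓ ∤ N` and any field `L ⊇ ℚ`, with `F_N = L(J(q^d) : d ∣ N)`
(`= laurentBaseChange L (modularFunctionFieldFull N) = TD.FF L N 1`):

* `FF_mul_le_adjoin_fwd` : `F_{Nℓ} ⊆ F_N(J(q^ℓ))` (gcd trick of S28);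
* `FF_mul_le_adjoin_rev` : `F_{Nℓ} ⊆ F_N^{(ℓ)}(J(q))` (S28 `RouteT.generation`);
* `closure_range_heckeAlphaBar_union` : `F_{Nℓ}` is generated, as a field, by `α(F_N)` and `β(J)`;
* `aeval_heckeBetaBar_jLevel` : `β(J) = J(q^ℓ)` is a root of `Φ_ℓ(X, J)` over `α(F_N)`;
* `modEq_prime`, `baseCase_prime` : the S28 inputs for every prime.
-/

set_option autoImplicit false

noncomputable section

namespace Fermat.Agent.ESJ.Cong.LevelGen

open ModularCurve AlgebraicCurve Fermat.Agent.S28 Polynomial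

/-- Every prime level has a modular equation (S28). -/
theorem modEq_prime (r : ℕ) (hr : r.Prime) : Nonempty (TD.ModEq r) := by
  have : NeZero r := ⟨hr.ne_zero⟩
  obtain ⟨D⟩ := ModEqX.exists_modEqData r hr
  exact ⟨Char0Bridge.modEqDataToTD D⟩

/-- The base case of every prime level: `J(q^r) ∉ K(J(q))` whenever `r ≠ 0` in `K` (S28). -/
theorem baseCase_prime (r : ℕ) (hr : r.Prime) : TD.BaseCase r := by
  have : NeZero r := ⟨hr.ne_zero⟩
  obtain ⟨D⟩ := ModEqX.exists_modEqData r hr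
  intro K _ hK
  have h := BaseCaseA.not_mem_adjoin_of_modEqData (K := K) hr D hK
  rw [TD.Jd_eq_jqNModC K r, TD.Jd_one]
  exact h

/-! ### Base change of the modular function fields from `ℚ` to `L` -/

section BaseChange

variable (L : Type*) [Field L] [Algebra ℚ L]

theorem coeffEmb_Jd (d : ℕ) : coeffEmb L (TD.Jd ℚ d) = TD.Jd L d :=
  TD.coeffMap_Jd (algebraMap ℚ L) d

theorem coeffEmb_algebraMap (c : ℚ) :
    coeffEmb L (algebraMap ℚ (LaurentSeries ℚ) c) =
      algebraMap L (LaurentSeries L) (algebraMap ℚ L c) := by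
  rw [algebraMap_laurentSeries_eq_single, algebraMap_laurentSeries_eq_single, coeffEmb,
    coeffMap_single]

variable {L} in
/-- Membership transfers along `coeffEmb`. -/
theorem coeffEmb_mem_of_mem_adjoin {S : Set (LaurentSeries ℚ)}
    (M : IntermediateField L (LaurentSeries L)) (hS : ∀ s ∈ S, coeffEmb L s ∈ M)
    {x : LaurentSeries ℚ} (hx : x ∈ IntermediateField.adjoin ℚ S) : coeffEmb L x ∈ M := by
  induction hx using IntermediateField.adjoin_induction with
  | mem x hx => exact hS x hx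
  | algebraMap c =>
      rw [coeffEmb_algebraMap]
      exact M.algebraMap_mem _
  | add x y _ _ hx hy => rw [map_add]; exact add_mem hx hy
  | inv x _ hx => rw [map_inv₀]; exact inv_mem hx
  | mul x y _ _ hx hy => rw [map_mul]; exact mul_mem hx hy

theorem coeffEmb_mem_FF {N m : ℕ} {x : LaurentSeries ℚ} (hx : x ∈ TD.FF ℚ N m) :
    coeffEmb L x ∈ TD.FF L N m := by
  refine coeffEmb_mem_of_mem_adjoin (TD.FF L N m) ?_ hx
  rintro _ ⟨d, hd, rfl⟩
  show coeffEmb L (TD.Jd ℚ (m * d)) ∈ _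
  rw [coeffEmb_Jd]
  exact TD.Jd_mem_FF L hd

/-- The base change of the full modular function field is `TD.FF L N 1`. -/
theorem laurentBaseChange_full_eq (N : ℕ) [NeZero N] :
    laurentBaseChange L (modularFunctionFieldFull N) = TD.FF L N 1 := by
  apply le_antisymm
  · rw [laurentBaseChange, IntermediateField.adjoin_le_iff]
    rintro _ ⟨x, hx, rfl⟩
    rw [← TD.FF_rat_one N] at hx
    exact coeffEmb_mem_FF L hx
  · unfold TD.FF
    rw [IntermediateField.adjoin_le_iff]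
    rintro _ ⟨d, hd, rfl⟩
    have hd' : d ∣ N := hd
    have hd0 : d ≠ 0 := fun h => NeZero.ne N (by rw [h] at hd'; exact zero_dvd_iff.mp hd')
    have : NeZero d := ⟨hd0⟩
    show TD.Jd L (1 * d) ∈ _
    rw [one_mul, ← coeffEmb_Jd L, TD.Jd_rat]
    exact coeffEmb_mem_laurentBaseChange L (jqd_mem_full N hd')

/-- The gcd trick over `ℚ`: `J(q^(d ℓ)) ∈ F_N(J(q^ℓ))` for `d ∣ N`, `ℓ ∤ N` prime. -/
theorem Jd_mul_mem_adjoin_rat (N ℓ : ℕ) (hN : N ≠ 0) (hℓ : ℓ.Prime) (hℓN : ¬ ℓ ∣ N) :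
    ∀ d : ℕ, d ∣ N → TD.Jd ℚ (d * ℓ) ∈
      IntermediateField.adjoin ℚ ((TD.FF ℚ N 1 : Set (LaurentSeries ℚ)) ∪ {TD.Jd ℚ ℓ}) := by
  intro d
  induction d using Nat.strong_induction_on with
  | _ d ih =>
    intro hd
    have : NeZero ℓ := ⟨hℓ.ne_zero⟩
    by_cases h1 : d = 1
    · subst h1
      rw [one_mul]
      exact IntermediateField.subset_adjoin ℚ _ (Or.inr rfl)
    · obtain ⟨r, hr, hrd⟩ := Nat.exists_prime_and_dvd h1
      obtain ⟨e, rfl⟩ := hrd
      have he0 : e ≠ 0 := fun h => hN (by rw [h, mul_zero] at hd; exact zero_dvd_iff.mp hd)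
      have : NeZero e := ⟨he0⟩
      have : NeZero r := ⟨hr.ne_zero⟩
      have hrN : r ∣ N := (dvd_mul_right r e).trans hd
      have heN : e ∣ N := (dvd_mul_left e r).trans hd
      have hne : ℓ ≠ r := fun h => hℓN (h ▸ hrN)
      obtain ⟨Dℓ⟩ := modEq_prime ℓ hℓ
      obtain ⟨Dr⟩ := modEq_prime r hr
      have hpair := Char0.qExpand_mem_adjoin_pair hℓ.one_lt hr.one_lt hne
        (RouteT.char0ModEqData_of_TD hℓ.one_lt Dℓ) (RouteT.char0ModEqData_of_TD hr.one_lt Dr) e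
      have hrw : TD.Jd ℚ (r * e * ℓ) = qExpand ℚ (e * ℓ * r) jq := by
        have : NeZero (e * ℓ * r) :=
          ⟨Nat.mul_ne_zero (Nat.mul_ne_zero he0 hℓ.ne_zero) hr.ne_zero⟩
        rw [show r * e * ℓ = e * ℓ * r by ring, TD.Jd_rat]
      rw [hrw]
      refine (IntermediateField.adjoin_le_iff.mpr ?_) hpair
      rintro s (rfl | hs)
      · -- `J(q^(e r))`
        have : NeZero (e * r) := ⟨Nat.mul_ne_zero he0 hr.ne_zero⟩
        have hmem : TD.Jd ℚ (1 * (r * e)) ∈ TD.FF ℚ N 1 := TD.Jd_mem_FF ℚ hd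
        rw [one_mul, show r * e = e * r by ring, TD.Jd_rat] at hmem
        exact IntermediateField.subset_adjoin ℚ _ (Or.inl hmem)
      · -- `J(q^(e ℓ))`
        rw [Set.mem_singleton_iff] at hs
        have : NeZero (e * ℓ) := ⟨Nat.mul_ne_zero he0 hℓ.ne_zero⟩
        have hlt : e < r * e := by
          have := hr.two_le
          have he1 : 0 < e := Nat.pos_of_ne_zero he0
          nlinarith
        have h2 := ih e hlt heN
        rw [TD.Jd_rat (e * ℓ)] at h2
        rw [hs]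
        exact h2

/-- Generation over `L`: `F_{Nℓ} ⊆ F_N(J(q^ℓ))`. -/
theorem FF_mul_le_adjoin_fwd (N ℓ : ℕ) (hN : N ≠ 0) (hℓ : ℓ.Prime) (hℓN : ¬ ℓ ∣ N) :
    TD.FF L (N * ℓ) 1 ≤
      IntermediateField.adjoin L ((TD.FF L N 1 : Set (LaurentSeries L)) ∪ {TD.Jd L ℓ}) := by
  set G := IntermediateField.adjoin L ((TD.FF L N 1 : Set (LaurentSeries L)) ∪ {TD.Jd L ℓ})
    with hG
  have h2 : TD.FF L (N * ℓ) 1 =
      IntermediateField.adjoin L ((fun d => TD.Jd L (1 * d)) '' {d | d ∣ N * ℓ}) := rfl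
  rw [h2, IntermediateField.adjoin_le_iff]
  rintro _ ⟨d, hd, rfl⟩
  have hd' : d ∣ N * ℓ := hd
  show TD.Jd L (1 * d) ∈ G
  rw [one_mul]
  by_cases hℓd : ℓ ∣ d
  · obtain ⟨d', rfl⟩ := hℓd
    have hd'N : d' ∣ N := by
      rw [mul_comm ℓ d'] at hd'
      exact Nat.dvd_of_mul_dvd_mul_right hℓ.pos hd'
    rw [mul_comm ℓ d', ← coeffEmb_Jd L]
    refine coeffEmb_mem_of_mem_adjoin G ?_ (Jd_mul_mem_adjoin_rat N ℓ hN hℓ hℓN d' hd'N)
    rintro s (hs | hs)
    · exact IntermediateField.subset_adjoin L _ (Or.inl (coeffEmb_mem_FF L hs))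
    · rw [Set.mem_singleton_iff] at hs
      rw [hs, coeffEmb_Jd]
      exact IntermediateField.subset_adjoin L _ (Or.inr rfl)
  · have hcop : Nat.Coprime d ℓ := (Nat.coprime_comm.mp ((Nat.Prime.coprime_iff_not_dvd hℓ).mpr hℓd))
    have hdN : d ∣ N := hcop.dvd_of_dvd_mul_right hd'
    have hmem : TD.Jd L (1 * d) ∈ TD.FF L N 1 := TD.Jd_mem_FF L hdN
    rw [one_mul] at hmem
    exact IntermediateField.subset_adjoin L _ (Or.inl hmem)

/-- Reverse generation over `L`: `F_{Nℓ} ⊆ F_N^{(ℓ)}(J(q))`. -/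
theorem FF_mul_le_adjoin_rev (N ℓ : ℕ) (hN : N ≠ 0) (hℓ : ℓ.Prime) :
    TD.FF L (N * ℓ) 1 ≤
      IntermediateField.adjoin L ((TD.FF L N ℓ : Set (LaurentSeries L)) ∪ {TD.Jd L 1}) := by
  set G := IntermediateField.adjoin L ((TD.FF L N ℓ : Set (LaurentSeries L)) ∪ {TD.Jd L 1})
    with hG
  have key : ∀ d : ℕ, d ∣ N * ℓ → TD.Jd L (1 * d) ∈ G := by
    intro d hd
    have h1 : TD.Jd ℚ (1 * d) ∈ TD.FF ℚ (N * ℓ) 1 := TD.Jd_mem_FF ℚ hd
    rw [RouteT.generation N ℓ 1 hN one_ne_zero hℓ (fun r hr _ => modEq_prime r hr)] at h1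
    rw [← coeffEmb_Jd L]
    refine coeffEmb_mem_of_mem_adjoin G ?_ h1
    rintro s (hs | hs)
    · refine IntermediateField.subset_adjoin L _ (Or.inl ?_)
      have := coeffEmb_mem_FF L hs
      rwa [one_mul] at this
    · rw [Set.mem_singleton_iff] at hs
      rw [hs, coeffEmb_Jd]
      exact IntermediateField.subset_adjoin L _ (Or.inr rfl)
  have h2 : TD.FF L (N * ℓ) 1 =
      IntermediateField.adjoin L ((fun d => TD.Jd L (1 * d)) '' {d | d ∣ N * ℓ}) := rfl
  rw [h2, IntermediateField.adjoin_le_iff]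
  rintro _ ⟨d, hd, rfl⟩
  exact key d hd

variable (N ℓ : ℕ) [NeZero N] [NeZero ℓ]

/-- `J(q)` as an element of the level `N` function field over `L`. -/
def jLevel : laurentBaseChange L (modularFunctionFieldFull N) :=
  ⟨TD.Jd L 1, by
    rw [laurentBaseChange_full_eq]
    have := TD.Jd_mem_FF L (N := N) (m := 1) (one_dvd N)
    rwa [mul_one] at this⟩

theorem coe_jLevel : ((jLevel L N : laurentBaseChange L (modularFunctionFieldFull N)) :
    LaurentSeries L) = TD.Jd L 1 := rfl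

theorem coe_heckeBetaBar_jLevel :
    ((heckeBetaBar L N ℓ (jLevel L N) : laurentBaseChange L (modularFunctionFieldFull (N * ℓ))) :
      LaurentSeries L) = TD.Jd L ℓ := by
  rw [coe_heckeBetaBar, coe_jLevel, TD.qExpand_Jd L ℓ 1 one_ne_zero, mul_one]

/-- `F_{Nℓ}` is generated over `α(F_N)` by `β(J) = J(q^ℓ)`. -/
theorem closure_range_heckeAlphaBar_union (hℓ : ℓ.Prime) (hℓN : ¬ ℓ ∣ N) :
    Subfield.closure (Set.range (heckeAlphaBar L N ℓ) ∪ {heckeBetaBar L N ℓ (jLevel L N)}) = ⊤ := by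
  have hα : ∀ z, z ∈ laurentBaseChange L (modularFunctionFieldFull N) → z ∈
      (Subfield.closure (Set.range (heckeAlphaBar L N ℓ) ∪
        {heckeBetaBar L N ℓ (jLevel L N)})).map
        ((laurentBaseChange L (modularFunctionFieldFull (N * ℓ))).val :
          laurentBaseChange L (modularFunctionFieldFull (N * ℓ)) →+* LaurentSeries L) := by
    intro z hz
    have h0 : heckeAlphaBar L N ℓ ⟨z, hz⟩ ∈
        Set.range (heckeAlphaBar L N ℓ) ∪ {heckeBetaBar L N ℓ (jLevel L N)} :=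
      Or.inl (Set.mem_range_self _)
    have h2 : ((heckeAlphaBar L N ℓ ⟨z, hz⟩ :
        laurentBaseChange L (modularFunctionFieldFull (N * ℓ))) : LaurentSeries L) = z :=
      coe_heckeAlphaBar N ℓ ⟨z, hz⟩
    exact Subfield.mem_map.mpr ⟨heckeAlphaBar L N ℓ ⟨z, hz⟩, Subfield.subset_closure h0, h2⟩
  have hconst : ∀ c : L, algebraMap L (LaurentSeries L) c ∈
      (Subfield.closure (Set.range (heckeAlphaBar L N ℓ) ∪
        {heckeBetaBar L N ℓ (jLevel L N)})).map
        ((laurentBaseChange L (modularFunctionFieldFull (N * ℓ))).val :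
          laurentBaseChange L (modularFunctionFieldFull (N * ℓ)) →+* LaurentSeries L) := fun c =>
    hα _ ((laurentBaseChange L (modularFunctionFieldFull N)).algebraMap_mem c)
  have hle : IntermediateField.adjoin L
      ((TD.FF L N 1 : Set (LaurentSeries L)) ∪ {TD.Jd L ℓ}) ≤
      Subfield.toIntermediateField _ hconst := by
    rw [IntermediateField.adjoin_le_iff]
    rintro z (hz | hz)
    · exact hα z (by rw [laurentBaseChange_full_eq]; exact hz)
    · rw [Set.mem_singleton_iff] at hz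
      rw [hz]
      have h0 : heckeBetaBar L N ℓ (jLevel L N) ∈
          Set.range (heckeAlphaBar L N ℓ) ∪ {heckeBetaBar L N ℓ (jLevel L N)} :=
        Or.inr (Set.mem_singleton _)
      have h2 : ((heckeBetaBar L N ℓ (jLevel L N) :
          laurentBaseChange L (modularFunctionFieldFull (N * ℓ))) : LaurentSeries L) = TD.Jd L ℓ :=
        coe_heckeBetaBar_jLevel L N ℓ
      exact Subfield.mem_map.mpr ⟨heckeBetaBar L N ℓ (jLevel L N), Subfield.subset_closure h0, h2⟩
  rw [eq_top_iff]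
  rintro ⟨x, hx⟩ -
  have hx' : x ∈ TD.FF L (N * ℓ) 1 := by
    rw [← laurentBaseChange_full_eq]; exact hx
  have hxT := hle (FF_mul_le_adjoin_fwd L N ℓ (NeZero.ne N) hℓ hℓN hx')
  obtain ⟨s, hs, hsx⟩ := Subfield.mem_map.mp hxT
  have hsx' : s = ⟨x, hx⟩ := Subtype.ext hsx
  rw [← hsx']
  exact hs

/-- `β(J) = J(q^ℓ)` is a root of `Φ_ℓ(X, J)` over `α(F_N)`. -/
theorem aeval_heckeBetaBar_jLevel (D : TD.ModEq ℓ) (hℓ0 : ℓ ≠ 0) :
    letI := algebraAlong (heckeAlphaBar L N ℓ)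
    Polynomial.aeval (heckeBetaBar L N ℓ (jLevel L N)) (TD.polyAt D.Φ (jLevel L N)) = 0 := by
  letI := algebraAlong (heckeAlphaBar L N ℓ)
  have h1 : Polynomial.aeval (heckeBetaBar L N ℓ (jLevel L N)) (TD.polyAt D.Φ (jLevel L N)) =
      (TD.polyAt D.Φ (heckeAlphaBar L N ℓ (jLevel L N))).eval
        (heckeBetaBar L N ℓ (jLevel L N)) := by
    rw [Polynomial.aeval_def, Polynomial.eval₂_eq_eval_map]
    congr 1
    exact TD.polyAt_map (heckeAlphaBar L N ℓ).toRingHom D.Φ (jLevel L N)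
  rw [h1]
  apply Subtype.val_injective
  have h2 := TD.map_eval_polyAt
    ((laurentBaseChange L (modularFunctionFieldFull (N * ℓ))).val :
      laurentBaseChange L (modularFunctionFieldFull (N * ℓ)) →+* LaurentSeries L) D.Φ
    (heckeBetaBar L N ℓ (jLevel L N)) (heckeAlphaBar L N ℓ (jLevel L N))
  have h3 : ((heckeAlphaBar L N ℓ (jLevel L N) :
      laurentBaseChange L (modularFunctionFieldFull (N * ℓ))) : LaurentSeries L) = TD.Jd L 1 :=
    coe_heckeAlphaBar N ℓ (jLevel L N)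
  have h4 : ((heckeBetaBar L N ℓ (jLevel L N) :
      laurentBaseChange L (modularFunctionFieldFull (N * ℓ))) : LaurentSeries L) = TD.Jd L ℓ :=
    coe_heckeBetaBar_jLevel L N ℓ
  have h5 := D.rel₂' hℓ0 L 1 one_ne_zero
  rw [one_mul] at h5
  have h6 : (((TD.polyAt D.Φ (heckeAlphaBar L N ℓ (jLevel L N))).eval
      (heckeBetaBar L N ℓ (jLevel L N)) :
      laurentBaseChange L (modularFunctionFieldFull (N * ℓ))) : LaurentSeries L) =
      (TD.polyAt D.Φ (TD.Jd L 1)).eval (TD.Jd L ℓ) := by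
    rw [← h3, ← h4]
    exact h2
  rw [h6, h5]
  rfl

end BaseChange

end Fermat.Agent.ESJ.Cong.LevelGen
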