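import Mathlib
import Fermat.Prelude.Def_ModularCurve_HeckeModule
import Fermat.Prelude.Thm_ModularCurve_coeffMap_qExpand
import Fermat.Agent.ESJ.Interfaces

/-!
# ES-CONG: the Hecke correspondences commute with the Galois action (CONG-COMM, part 1)

Abstract part: if two semilinear automorphisms `g` of `F` and `g'` of `F'` are intertwined by
an integral `K`-algebra map `φ : F → F'`, then restriction of places, ramification indices,
inertia degrees, pull-back and push-forward of divisors along `φ` are all equivariant.  Hence
a correspondence `ψ_* φ^*` commutes with the action on divisors and on `Pic0`.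

Concrete part: `heckeAlphaBar` and `heckeBetaBar` intertwine the coefficientwise Galois actions,
so `heckeOperatorBar N ℓ` commutes with `G_ℚ` on `JZero N`: `heckeGaloisCommute`.
-/

set_option autoImplicit false

noncomputable section

namespace Fermat.Agent.ESJ.Cong

open AlgebraicCurve ModularCurve
open scoped Pointwise

section Abstract

variable {K F F' : Type*} [Field K] [Field F] [Field F'] [Algebra K F] [Algebra K F']

theorem comm_mem_restrictAlong (φ : F →ₐ[K] F') (hφ : φ.toRingHom.IsIntegral)
    (w : Place K F') (x : F) :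
    x ∈ (w.restrictAlong φ hφ).toValuationSubring ↔ φ x ∈ w.toValuationSubring :=
  Iff.rfl

theorem comm_mem_smul_place (g : SemilinearAut K F) (v : Place K F) (x : F) :
    x ∈ (g • v).toValuationSubring ↔ g⁻¹ • x ∈ v.toValuationSubring := by
  rw [SemilinearAut.smul_toValuationSubring,
    ValuationSubring.mem_pointwise_smul_iff_inv_smul_mem]

variable (φ : F →ₐ[K] F') (hφ : φ.toRingHom.IsIntegral)
  {g : SemilinearAut K F} {g' : SemilinearAut K F'}

/-- Restriction of places is equivariant. -/
theorem comm_restrictAlong (h : SemilinearAut.IntertwinesAlong (φ : F →+* F') g g')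
    (w : Place K F') :
    (g' • w).restrictAlong φ hφ = g • w.restrictAlong φ hφ := by
  apply Place.ext
  ext x
  have hi := h.inv x
  rw [comm_mem_restrictAlong, comm_mem_smul_place, comm_mem_smul_place, comm_mem_restrictAlong]
  have hi' : g'⁻¹ • φ x = φ (g⁻¹ • x) := hi
  rw [hi']

/-- Orders along `φ` are equivariant. -/
theorem comm_ord_apply (h : SemilinearAut.IntertwinesAlong (φ : F →+* F') g g')
    (w : Place K F') (f : F) :
    (g' • w).ord (φ (g • f)) = w.ord (φ f) := by
  have h1 : g' • φ f = φ (g • f) := h f
  rw [← h1, SemilinearAut.ord_smul]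

/-- Ramification indices are invariant. -/
theorem comm_ramificationIndexAlong (h : SemilinearAut.IntertwinesAlong (φ : F →+* F') g g')
    (w : Place K F') :
    (g' • w).ramificationIndexAlong φ = w.ramificationIndexAlong φ := by
  have key : {n : ℕ | 0 < n ∧ ∃ f : F, f ≠ 0 ∧ (g' • w).ord (φ f) = n}
      = {n : ℕ | 0 < n ∧ ∃ f : F, f ≠ 0 ∧ w.ord (φ f) = n} := by
    ext n
    constructor
    · rintro ⟨hn, f, hf, hfn⟩
      refine ⟨hn, g⁻¹ • f, ?_, ?_⟩
      · intro h0
        apply hf
        have := congrArg (g • ·) h0
        simpa using this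
      · rw [← hfn, ← comm_ord_apply φ h w (g⁻¹ • f), smul_inv_smul]
    · rintro ⟨hn, f, hf, hfn⟩
      refine ⟨hn, g • f, ?_, ?_⟩
      · intro h0
        apply hf
        have := congrArg (g⁻¹ • ·) h0
        simpa using this
      · rw [← hfn, comm_ord_apply φ h w f]
  show sInf {n : ℕ | 0 < n ∧ ∃ f : F, f ≠ 0 ∧ (g' • w).ord (φ f) = n}
    = sInf {n : ℕ | 0 < n ∧ ∃ f : F, f ≠ 0 ∧ w.ord (φ f) = n}
  rw [key]

/-- The valuation rings of `w ∘ φ` and `(g' • w) ∘ φ` are identified by `g`. -/
def commRestrictEquiv (h : SemilinearAut.IntertwinesAlong (φ : F →+* F') g g')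
    (w : Place K F') :
    (w.restrictAlong φ hφ).toValuationSubring ≃+*
      ((g' • w).restrictAlong φ hφ).toValuationSubring where
  toFun x := ⟨g • (x : F), by
    rw [comm_mem_restrictAlong, comm_mem_smul_place]
    have h1 : g'⁻¹ • φ (g • (x : F)) = φ (x : F) := by
      have h2 : g' • φ (x : F) = φ (g • (x : F)) := h (x : F)
      rw [← h2, inv_smul_smul]
    rw [h1]
    exact (comm_mem_restrictAlong φ hφ w x).mp x.2⟩
  invFun y := ⟨g⁻¹ • (y : F), by
    rw [comm_mem_restrictAlong]
    have h1 := (comm_mem_restrictAlong φ hφ (g' • w) y).mp y.2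
    rw [comm_mem_smul_place] at h1
    have hi : g'⁻¹ • φ (y : F) = φ (g⁻¹ • (y : F)) := h.inv (y : F)
    rwa [hi] at h1⟩
  left_inv x := Subtype.ext (inv_smul_smul g (x : F))
  right_inv y := Subtype.ext (smul_inv_smul g (y : F))
  map_mul' x y := Subtype.ext (smul_mul' g (x : F) (y : F))
  map_add' x y := Subtype.ext (smul_add g (x : F) (y : F))

/-- Inertia degrees are invariant. -/
theorem comm_inertiaDegAlong (h : SemilinearAut.IntertwinesAlong (φ : F →+* F') g g')
    (w : Place K F') :
    (g' • w).inertiaDegAlong φ hφ = w.inertiaDegAlong φ hφ := by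
  let _ := algebraAlong φ
  have := isScalarTower_along φ
  have := isIntegral_along φ hφ
  show Module.finrank ((g' • w).restrict F).ResidueField (g' • w).ResidueField
    = Module.finrank (w.restrict F).ResidueField w.ResidueField
  symm
  let E : (w.restrict F).toValuationSubring ≃+* ((g' • w).restrict F).toValuationSubring :=
    commRestrictEquiv φ hφ h w
  refine Algebra.finrank_eq_of_equiv_equiv
    (IsLocalRing.ResidueField.mapEquiv E)
    (SemilinearAut.smulResidueRingEquiv g' w) ?_
  ext x
  obtain ⟨a, rfl⟩ := IsLocalRing.residue_surjective x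
  show Place.restrictResidueMap F (g' • w)
      (IsLocalRing.ResidueField.mapEquiv E (IsLocalRing.residue _ a))
    = IsLocalRing.ResidueField.mapEquiv
        (SemilinearAut.smulValuationSubringEquiv g' w.toValuationSubring)
        (Place.restrictResidueMap F w (IsLocalRing.residue _ a))
  rw [IsLocalRing.ResidueField.mapEquiv_apply, IsLocalRing.ResidueField.map_residue,
    Place.restrictResidueMap_residue, Place.restrictResidueMap_residue,
    IsLocalRing.ResidueField.mapEquiv_apply, IsLocalRing.ResidueField.map_residue]
  refine congrArg _ (Subtype.ext ?_)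
  exact (h (a : F)).symm

/-- Push-forward of divisors is equivariant. -/
theorem comm_pushforwardAlong (h : SemilinearAut.IntertwinesAlong (φ : F →+* F') g g')
    (D : Divisor K F') :
    Divisor.pushforwardAlong φ hφ (g' • D) = g • Divisor.pushforwardAlong φ hφ D := by
  induction D using Finsupp.induction with
  | zero => rw [smul_zero, map_zero, smul_zero]
  | single_add w n D _ _ ih =>
    rw [smul_add, map_add, map_add, smul_add, ih, SemilinearAut.smul_single,
      Divisor.pushforwardAlong_single, Divisor.pushforwardAlong_single,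
      SemilinearAut.smul_single, comm_restrictAlong φ hφ h, comm_inertiaDegAlong φ hφ h]

/-- Pull-back of divisors is equivariant. -/
theorem comm_pullbackAlong [HasPrincipalDivisors K F']
    (h : SemilinearAut.IntertwinesAlong (φ : F →+* F') g g') (D : Divisor K F) :
    Divisor.pullbackAlong φ hφ (g • D) = g' • Divisor.pullbackAlong φ hφ D := by
  ext w
  rw [Divisor.pullbackAlong_apply, SemilinearAut.divisor_smul_apply,
    SemilinearAut.divisor_smul_apply, Divisor.pullbackAlong_apply,
    comm_restrictAlong φ hφ h.inv, comm_ramificationIndexAlong φ h.inv]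

end Abstract

section Correspondence

variable {K F F' : Type*} [Field K] [Field F] [Field F'] [Algebra K F] [Algebra K F']
variable [HasPrincipalDivisors K F']
variable (φ ψ : F →ₐ[K] F') (hφ : φ.toRingHom.IsIntegral) (hψ : ψ.toRingHom.IsIntegral)
  {g : SemilinearAut K F} {g' : SemilinearAut K F'}

/-- A correspondence `ψ_* φ^*` commutes with a pair of intertwined semilinear automorphisms
(on divisors). -/
theorem comm_divisor_correspondence
    (h₁ : SemilinearAut.IntertwinesAlong (φ : F →+* F') g g')
    (h₂ : SemilinearAut.IntertwinesAlong (ψ : F →+* F') g g') (D : Divisor K F) :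
    Divisor.correspondence φ ψ hφ hψ (g • D) = g • Divisor.correspondence φ ψ hφ hψ D := by
  rw [Divisor.correspondence_apply, Divisor.correspondence_apply,
    comm_pullbackAlong φ hφ h₁, comm_pushforwardAlong ψ hψ h₂]

/-- A correspondence `ψ_* φ^*` commutes with a pair of intertwined semilinear automorphisms
(on `Pic0`). -/
theorem comm_pic0_correspondence
    (hFI : FundamentalIdentityAlong K φ hφ)
    (hfin : FiniteAlong K ψ) (hN : NormFormulaAlong K ψ hfin)
    (h₁ : SemilinearAut.IntertwinesAlong (φ : F →+* F') g g')
    (h₂ : SemilinearAut.IntertwinesAlong (ψ : F →+* F') g g') (x : Pic0 K F) :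
    Pic0.correspondence φ ψ hφ hψ hFI hfin hN (g • x)
      = g • Pic0.correspondence φ ψ hφ hψ hFI hfin hN x := by
  obtain ⟨D, rfl⟩ := Pic0.mk_surjective x
  rw [SemilinearAut.pic0_smul_mk, Pic0.correspondence_mk, Pic0.correspondence_mk,
    SemilinearAut.pic0_smul_mk]
  refine congrArg Pic0.mk (Subtype.ext ?_)
  rw [Pic0.coe_degZeroCorrespondence, SemilinearAut.coe_degZeroSMulHom,
    SemilinearAut.coe_degZeroSMulHom, Pic0.coe_degZeroCorrespondence]
  exact comm_divisor_correspondence φ ψ hφ hψ h₁ h₂ (D : Divisor K F)

end Correspondence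

section Concrete

variable {L : Type*} [Field L] [Algebra ℚ L] (N ℓ : ℕ) [NeZero N] [NeZero ℓ]

/-- `α` (inclusion of level `N` into level `N ℓ`) intertwines the coefficientwise actions. -/
theorem comm_intertwines_alpha (σ : L ≃ₐ[ℚ] L) :
    SemilinearAut.IntertwinesAlong
      ((heckeAlphaBar L N ℓ :
          laurentBaseChange L (modularFunctionFieldFull N) →ₐ[L]
            laurentBaseChange L (modularFunctionFieldFull (N * ℓ))) :
        laurentBaseChange L (modularFunctionFieldFull N) →+*
          laurentBaseChange L (modularFunctionFieldFull (N * ℓ)))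
      (arithmeticGalois (modularFunctionFieldFull N) σ)
      (arithmeticGalois (modularFunctionFieldFull (N * ℓ)) σ) := by
  intro x
  apply Subtype.ext
  rw [coe_arithmeticGalois_smul]
  show coeffMap (σ : L →+* L) ((heckeAlphaBar L N ℓ x :
        laurentBaseChange L (modularFunctionFieldFull (N * ℓ))) : LaurentSeries L)
    = ((heckeAlphaBar L N ℓ (arithmeticGalois (modularFunctionFieldFull N) σ • x) :
        laurentBaseChange L (modularFunctionFieldFull (N * ℓ))) : LaurentSeries L)
  rw [coe_heckeAlphaBar, coe_heckeAlphaBar, coe_arithmeticGalois_smul]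

omit [NeZero N] in
/-- `β` (`q ↦ q ^ ℓ`) intertwines the coefficientwise actions. -/
theorem comm_intertwines_beta (σ : L ≃ₐ[ℚ] L) :
    SemilinearAut.IntertwinesAlong
      ((heckeBetaBar L N ℓ :
          laurentBaseChange L (modularFunctionFieldFull N) →ₐ[L]
            laurentBaseChange L (modularFunctionFieldFull (N * ℓ))) :
        laurentBaseChange L (modularFunctionFieldFull N) →+*
          laurentBaseChange L (modularFunctionFieldFull (N * ℓ)))
      (arithmeticGalois (modularFunctionFieldFull N) σ)
      (arithmeticGalois (modularFunctionFieldFull (N * ℓ)) σ) := by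
  intro x
  apply Subtype.ext
  rw [coe_arithmeticGalois_smul]
  show coeffMap (σ : L →+* L) ((heckeBetaBar L N ℓ x :
        laurentBaseChange L (modularFunctionFieldFull (N * ℓ))) : LaurentSeries L)
    = ((heckeBetaBar L N ℓ (arithmeticGalois (modularFunctionFieldFull N) σ • x) :
        laurentBaseChange L (modularFunctionFieldFull (N * ℓ))) : LaurentSeries L)
  rw [coe_heckeBetaBar, coe_heckeBetaBar, coe_arithmeticGalois_smul,
    ModularCurve.coeffMap_qExpand]

/-- The Hecke correspondence `heckeOperatorAlong L N ℓ` commutes with the coefficientwise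
Galois action on `Pic0`, over any field `L ⊇ ℚ`. -/
theorem comm_heckeOperatorAlong (σ : L ≃ₐ[ℚ] L)
    (x : Pic0 L (laurentBaseChange L (modularFunctionFieldFull N))) :
    heckeOperatorAlong L N ℓ (σ • x) = σ • heckeOperatorAlong L N ℓ x := by
  by_cases h : HeckeInputsAlong L N ℓ
  · obtain ⟨hα, hβ, hP, hfin, hFI, hN⟩ := h
    have := hP
    rw [heckeOperatorAlong_eq hα hβ hFI hfin hN, galois_smul_pic0_def, galois_smul_pic0_def]
    exact comm_pic0_correspondence _ _ hβ hα hFI hfin hN
      (comm_intertwines_beta N ℓ σ) (comm_intertwines_alpha N ℓ σ) x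
  · rw [heckeOperatorAlong_of_not h, AddMonoidHom.zero_apply, AddMonoidHom.zero_apply,
      smul_zero]

end Concrete

/-- **HECKE-GAL** (deliverable C3 of the ESJ architecture): the Hecke correspondences on
`JZero N` commute with the coefficientwise Galois action. -/
theorem heckeGaloisCommute (N : ℕ) [NeZero N] : HeckeGaloisCommute N := by
  intro ℓ σ x
  have : NeZero (ℓ : ℕ) := ⟨ℓ.2.ne_zero⟩
  rw [heckeOperatorBar_apply, heckeOperatorBar_apply]
  exact comm_heckeOperatorAlong N ℓ σ x

end Fermat.Agent.ESJ.Cong

end
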