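import Fermat.Agent.ESJ.Cong.ConjNormAnalytic
import Fermat.Prelude.Def_FLTPrelim_Ramification
import Fermat.Prelude.Thm_ModularCurve_coeffMap_qExpand

/-!
# ES-CONG, CONG-D: the norm of `y(q^ℓ)` is integral and reduces to `ȳ(q^ℓ) · ȳ^ℓ`

For a prime `ℓ ∤ N`, a valuation ring `A` of `ℚ̄` over `ℓ` and `y ∈ A((q)) ∩ F_N`: the norm
`g := Nm_{F_{Nℓ}/F_N}(y(q^ℓ))` has coefficients in `A` and its reduction `ḡ` satisfies
`ḡ(t^ℓ) = ȳ(t^(ℓ²)) · ȳ(t)^ℓ` (`norm_beta_reduction`, the exact export of ES-CONG task 155).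
-/

set_option autoImplicit false
set_option linter.unusedSectionVars false

open scoped IntermediateField

namespace Fermat.Agent.ESJ.Cong.ConjAnalytic

open ModularCurve Fermat.Agent.S24 Fermat.Agent.S28.Chain Fermat.Agent.S28
open AlgebraicCurve

noncomputable section

/-! ### Generalities on valuation rings and Laurent series -/

theorem mem_valuationSubring_of_pow_eq_one {K : Type*} [Field K] (A : ValuationSubring K) {x : K}
    {n : ℕ} (hn : 0 < n) (hx : x ^ n = 1) : x ∈ A := by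
  rcases A.mem_or_inv_mem x with h | h
  · exact h
  · have hx0 : x ≠ 0 := by
      intro h0
      rw [h0, zero_pow hn.ne'] at hx
      exact zero_ne_one hx
    have h1 : x = (x⁻¹) ^ (n - 1) := by
      have h2 : x * x ^ (n - 1) = 1 := by
        rw [← pow_succ', Nat.sub_add_cancel hn, hx]
      rw [inv_pow]
      exact eq_inv_of_mul_eq_one_left h2
    rw [h1]
    exact pow_mem h _

/-- A Laurent series all of whose coefficients lie in the valuation ring `A` comes from
`A((q))`. -/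
theorem exists_coeffMap_subtype_eq {K : Type*} [Field K] (A : ValuationSubring K)
    (n : LaurentSeries K) (h : ∀ m, n.coeff m ∈ A) :
    ∃ g : LaurentSeries A, coeffMap A.subtype g = n := by
  refine ⟨⟨fun m => ⟨n.coeff m, h m⟩, n.isPWO_support.mono ?_⟩, ?_⟩
  · intro m hm
    simp only [Function.mem_support, ne_eq] at hm ⊢
    intro h0
    exact hm (Subtype.ext h0)
  · ext m
    rfl

theorem coeffMap_subtype_injective {K : Type*} [Field K] (A : ValuationSubring K) :
    Function.Injective (coeffMap A.subtype) := by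
  intro x y hxy
  ext m
  have := congrArg (fun s : LaurentSeries K => s.coeff m) hxy
  simp only [coeffMap_coeff] at this
  exact this

/-- In characteristic `ℓ` an `ℓ`-th root of unity is `1`. -/
theorem eq_one_of_pow_eq_one_of_charP {k : Type*} [Field k] (ℓ : ℕ) [Fact ℓ.Prime] [CharP k ℓ]
    {x : k} (hx : x ^ ℓ = 1) : x = 1 := by
  have h := frobenius_inj k ℓ
  apply h
  rw [frobenius_def, frobenius_def, hx, one_pow]

theorem charP_residueField_of_liesOver {L : Type*} [Field L] (A : ValuationSubring L) {ℓ : ℕ}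
    (hℓ : ℓ.Prime) (hA : A.LiesOverPrime ℓ) : CharP (IsLocalRing.ResidueField A) ℓ := by
  rw [CharP.charP_iff_prime_eq_zero hℓ]
  have h1 : ((ℓ : A) : L) ∈ A.nonunits := by
    have h2 : ((ℓ : A) : L) = (ℓ : L) := by push_cast; rfl
    rw [h2]
    exact hA
  have h3 : (ℓ : A) ∈ IsLocalRing.maximalIdeal A := ValuationSubring.coe_mem_nonunits_iff.mp h1
  have h4 : IsLocalRing.residue A (ℓ : A) = 0 := (IsLocalRing.residue_eq_zero_iff _).mpr h3
  rwa [map_natCast] at h4

/-! ### The reduction of the norm -/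

/-- **CONG-D** (`norm_beta_reduction`, the exact export of ES-CONG task 155). -/
theorem norm_beta_reduction (N ℓ : ℕ) [NeZero N] [NeZero ℓ] (hℓ : ℓ.Prime) (hℓN : ¬ ℓ ∣ N)
    (A : ValuationSubring KQ) (hA : A.LiesOverPrime ℓ) (y : LaurentSeries A)
    (hy : coeffMap A.subtype y ∈ modularFunctionFieldBar N) :
    ∃ (g : LaurentSeries A) (hg : coeffMap A.subtype g ∈ modularFunctionFieldBar N),
      (letI := algebraAlong (heckeAlphaBar KQ N ℓ);
        Algebra.norm (modularFunctionFieldBar N)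
          (heckeBetaBar KQ N ℓ ⟨coeffMap A.subtype y, hy⟩)) = ⟨coeffMap A.subtype g, hg⟩ ∧
      qExpand (IsLocalRing.ResidueField A) ℓ (coeffMap (IsLocalRing.residue A) g) =
        qExpand (IsLocalRing.ResidueField A) (ℓ * ℓ) (coeffMap (IsLocalRing.residue A) y) *
          (coeffMap (IsLocalRing.residue A) y) ^ ℓ := by
  haveI : Fact ℓ.Prime := ⟨hℓ⟩
  haveI : CharP (IsLocalRing.ResidueField A) ℓ := charP_residueField_of_liesOver A hℓ hA
  -- a primitive `ℓ`-th root of unity, as a unit of `A`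
  haveI : NeZero (ℓ : KQ) := ⟨Nat.cast_ne_zero.mpr hℓ.ne_zero⟩
  obtain ⟨ζ0, hζ0⟩ := HasEnoughRootsOfUnity.exists_primitiveRoot KQ ℓ
  have hζ0A : ζ0 ∈ A := mem_valuationSubring_of_pow_eq_one A hℓ.pos hζ0.pow_eq_one
  have hζ0A' : ζ0⁻¹ ∈ A :=
    mem_valuationSubring_of_pow_eq_one A hℓ.pos (by rw [inv_pow, hζ0.pow_eq_one, inv_one])
  have hζ00 : ζ0 ≠ 0 := hζ0.ne_zero hℓ.ne_zero
  let ζA : Aˣ := ⟨⟨ζ0, hζ0A⟩, ⟨ζ0⁻¹, hζ0A'⟩, Subtype.ext (mul_inv_cancel₀ hζ00),
    Subtype.ext (inv_mul_cancel₀ hζ00)⟩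
  let ζ : KQˣ := Units.map (A.subtype : A →* KQ) ζA
  have hζval : (ζ : KQ) = ζ0 := rfl
  have hζ : IsPrimitiveRoot ζ ℓ := IsPrimitiveRoot.coe_units_iff.mp (by rw [hζval]; exact hζ0)
  -- the product over the conjugates, over `A`
  let Gt : LaurentSeries A := qExpand A (ℓ * ℓ) y * ∏ b ∈ Finset.range ℓ, rot (ζA ^ b) y
  let n : modularFunctionFieldBar N :=
    (letI := algebraAlong (heckeAlphaBar KQ N ℓ);
      Algebra.norm (modularFunctionFieldBar N) (heckeBetaBar KQ N ℓ ⟨coeffMap A.subtype y, hy⟩))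
  have hnorm : qExpand KQ ℓ (n : LaurentSeries KQ) = coeffMap A.subtype Gt := by
    have h := qExpand_norm_heckeBeta N ℓ hℓ hℓN ζ hζ ⟨coeffMap A.subtype y, hy⟩
    show qExpand KQ ℓ (n : LaurentSeries KQ) = coeffMap A.subtype
      (qExpand A (ℓ * ℓ) y * ∏ b ∈ Finset.range ℓ, rot (ζA ^ b) y)
    rw [map_mul, map_prod, coeffMap_qExpand]
    refine h.trans ?_
    congr 1
    refine Finset.prod_congr rfl (fun b _ => ?_)
    rw [coeffMap_rot, map_pow]
  -- coefficients of the norm are in `A`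
  have hcoeff : ∀ m : ℤ, (n : LaurentSeries KQ).coeff m ∈ A := by
    intro m
    have h1 : (n : LaurentSeries KQ).coeff m = (qExpand KQ ℓ (n : LaurentSeries KQ)).coeff
        ((ℓ : ℤ) * m) := (qExpand_coeff_mul ℓ (n : LaurentSeries KQ) m).symm
    rw [h1, hnorm, coeffMap_coeff]
    exact (Gt.coeff _).2
  obtain ⟨g, hg⟩ := exists_coeffMap_subtype_eq A (n : LaurentSeries KQ) hcoeff
  have hgmem : coeffMap A.subtype g ∈ modularFunctionFieldBar N := by rw [hg]; exact n.2
  refine ⟨g, hgmem, Subtype.ext hg.symm, ?_⟩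
  -- the reduction
  have hgG : qExpand A ℓ g = Gt := by
    apply coeffMap_subtype_injective A
    rw [coeffMap_qExpand, hg, hnorm]
  have hres : Units.map (IsLocalRing.residue A : A →* IsLocalRing.ResidueField A) ζA = 1 := by
    apply Units.ext
    apply eq_one_of_pow_eq_one_of_charP ℓ
    have h1 : (ζA : A) ^ ℓ = 1 := Subtype.ext hζ0.pow_eq_one
    show (IsLocalRing.residue A (ζA : A)) ^ ℓ = 1
    rw [← map_pow, h1, map_one]
  have h2 := congrArg (coeffMap (IsLocalRing.residue A)) hgG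
  rw [coeffMap_qExpand] at h2
  rw [h2]
  show coeffMap (IsLocalRing.residue A)
      (qExpand A (ℓ * ℓ) y * ∏ b ∈ Finset.range ℓ, rot (ζA ^ b) y) = _
  rw [map_mul, map_prod, coeffMap_qExpand]
  congr 1
  have h3 : ∀ b ∈ Finset.range ℓ, coeffMap (IsLocalRing.residue A) (rot (ζA ^ b) y) =
      coeffMap (IsLocalRing.residue A) y := by
    intro b _
    rw [coeffMap_rot, map_pow, hres, one_pow, rot_one_apply]
  rw [Finset.prod_congr rfl h3, Finset.prod_const, Finset.card_range]

end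

end Fermat.Agent.ESJ.Cong.ConjAnalytic
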