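import Fermat.Agent.ESJ.Cong.ESCong
import Fermat.Agent.ESJ.Cong.NormRedAnalytic

/-!
# ES-CONG, CONG-F (final wiring): the Eichler–Shimura congruence on `reductionModL`

`reductionModL_heckeOperator`: `R (T_ℓ x) = Φ • R x + ℓ • Φ⁻¹ • R x` for `R = reductionModL A N`
and a prime `ℓ ∤ N`, with the norm input (CONG-D, `ConjAnalytic.norm_beta_reduction`) plugged
into `reductionModL_heckeOperator_of_norm` (CONG-F).  Remaining hypotheses: the function-field
inputs at level `N` (`HasPrincipalDivisors`, all places of degree one, `RRLite`), the reduction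
data `ReductionInputsModL A N` and the finite-extension inputs `HeckeInputsAlong`.
-/

set_option autoImplicit false

noncomputable section

namespace Fermat.Agent.ESJ.Cong.ConjAnalytic

open ModularCurve AlgebraicCurve Fermat.Agent.ESJ.Cong

set_option synthInstance.maxHeartbeats 400000

/-- **Eichler–Shimura congruence** on `reductionModL A N`, for a prime `ℓ ∤ N`. -/
theorem reductionModL_heckeOperator (N ℓ : ℕ) [NeZero N] [NeZero ℓ] (hℓ : ℓ.Prime)
    (hℓN : ¬ ℓ ∣ N) (A : ValuationSubring (AlgebraicClosure ℚ)) (hA : A.LiesOverPrime ℓ)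
    [HasPrincipalDivisors (AlgebraicClosure ℚ) (modularFunctionFieldBar N)]
    (hdeg : ∀ P : Place (AlgebraicClosure ℚ) (modularFunctionFieldBar N), P.deg = 1)
    (hRR : RRLite (AlgebraicClosure ℚ) (modularFunctionFieldBar N))
    (h : ReductionInputsModL A N) (hIn : HeckeInputsAlong (AlgebraicClosure ℚ) N ℓ)
    (τ : IsLocalRing.ResidueField A ≃+* IsLocalRing.ResidueField A) (hτ : ∀ x, τ x = x ^ ℓ)
    (x : JZero N) :
    reductionModL A N (heckeOperatorAlong (AlgebraicClosure ℚ) N ℓ x)
      = coeffAut (IsLocalRing.ResidueField A) N τ • reductionModL A N x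
        + ℓ • ((coeffAut (IsLocalRing.ResidueField A) N τ)⁻¹ • reductionModL A N x) :=
  reductionModL_heckeOperator_of_norm N ℓ hℓ A hA hdeg hRR
    (fun y hy => norm_beta_reduction N ℓ hℓ hℓN A hA y hy) h hIn τ hτ x

end Fermat.Agent.ESJ.Cong.ConjAnalytic

end
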