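import Mathlib
import Fermat.Prelude.Def_ModularCurve_HeckeModule
import Fermat.Prelude.Def_ModularCurve_ReductionModL

/-!
# ES-CONG: shared definitions

* `RRLite K F`: the consequence of Riemann's inequality used by the rigidity lemma: every divisor
  of degree `0` becomes linearly equivalent to an effective divisor after adding `g • P₀`.
* `coeffAut k N τ`: the coefficientwise action of a ring automorphism `τ` of `k` on the mod-`ℓ`
  modular function field `modularFunctionFieldFullC k N ⊆ k((q))`, as a
  `AlgebraicCurve.SemilinearAut`.  For `τ = (x ↦ x ^ ℓ)` this is the arithmetic Frobenius `Φ`.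
* `resAut A`: the action of the decomposition group of a valuation subring on its residue field.
-/

set_option autoImplicit false

noncomputable section

namespace Fermat.Agent.ESJ.Cong

open ModularCurve AlgebraicCurve HahnSeries IntermediateField

/-- Riemann's inequality in the only form ES-CONG needs. -/
def RRLite (K F : Type*) [Field K] [Field F] [Algebra K F] : Prop :=
  ∃ (g : ℕ) (P₀ : Place K F), ∀ D : Divisor K F, Divisor.degree D = 0 →
    ∃ f : F, f ≠ 0 ∧ ∀ P : Place K F, 0 ≤ P.ord f + (D + Finsupp.single P₀ (g : ℤ)) P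

section CoeffAut

variable (k : Type*) [Field k] (N : ℕ) [NeZero N]

theorem coeffMap_mem_fullC (τ : k →+* k) {x : LaurentSeries k}
    (hx : x ∈ modularFunctionFieldFullC k N) :
    coeffMap τ x ∈ modularFunctionFieldFullC k N := by
  unfold modularFunctionFieldFullC at hx
  induction hx using IntermediateField.adjoin_induction with
  | mem x hx =>
      obtain ⟨d, hd, hdvd, rfl⟩ := hx
      haveI := hd
      rw [coeffMap_qExpand, coeffMap_jqModC]
      exact jqModCd_mem_full k N hdvd
  | algebraMap c =>
      rw [coeffMap_algebraMap]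
      exact (modularFunctionFieldFullC k N).algebraMap_mem _
  | add x y _ _ hx hy => rw [map_add]; exact add_mem hx hy
  | inv x _ hx => rw [map_inv₀]; exact inv_mem hx
  | mul x y _ _ hx hy => rw [map_mul]; exact mul_mem hx hy

/-- Coefficientwise action of a ring automorphism of `k` on the mod-`ℓ` modular function field. -/
def coeffRingAut (τ : k ≃+* k) :
    modularFunctionFieldFullC k N ≃+* modularFunctionFieldFullC k N where
  toFun x := ⟨coeffMap (τ : k →+* k) (x : LaurentSeries k), coeffMap_mem_fullC k N _ x.2⟩
  invFun x := ⟨coeffMap (τ.symm : k →+* k) (x : LaurentSeries k), coeffMap_mem_fullC k N _ x.2⟩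
  left_inv x := Subtype.ext <| by
    show coeffMap (τ.symm : k →+* k) (coeffMap (τ : k →+* k) (x : LaurentSeries k))
      = (x : LaurentSeries k)
    rw [coeffMap_coeffMap,
      coeffMap_congr (g := RingHom.id k) (RingHom.ext fun a => τ.symm_apply_apply a)
        (x : LaurentSeries k), coeffMap_id]
  right_inv x := Subtype.ext <| by
    show coeffMap (τ : k →+* k) (coeffMap (τ.symm : k →+* k) (x : LaurentSeries k))
      = (x : LaurentSeries k)
    rw [coeffMap_coeffMap,
      coeffMap_congr (g := RingHom.id k) (RingHom.ext fun a => τ.apply_symm_apply a)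
        (x : LaurentSeries k), coeffMap_id]
  map_mul' x y :=
    Subtype.ext (map_mul (coeffMap (τ : k →+* k)) (x : LaurentSeries k) (y : LaurentSeries k))
  map_add' x y :=
    Subtype.ext (map_add (coeffMap (τ : k →+* k)) (x : LaurentSeries k) (y : LaurentSeries k))

@[simp]
theorem coe_coeffRingAut_apply (τ : k ≃+* k) (x : modularFunctionFieldFullC k N) :
    (coeffRingAut k N τ x : LaurentSeries k) = coeffMap (τ : k →+* k) (x : LaurentSeries k) :=
  rfl

theorem coeffRingAut_algebraMap (τ : k ≃+* k) (a : k) :
    coeffRingAut k N τ (algebraMap k (modularFunctionFieldFullC k N) a)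
      = algebraMap k (modularFunctionFieldFullC k N) (τ a) :=
  Subtype.ext (coeffMap_algebraMap (τ : k →+* k) a)

/-- The coefficientwise semilinear automorphism attached to a ring automorphism of `k`. -/
def coeffAut : (k ≃+* k) →* SemilinearAut k (modularFunctionFieldFullC k N) where
  toFun τ := ⟨(coeffRingAut k N τ, τ), fun a => coeffRingAut_algebraMap k N τ a⟩
  map_one' := by
    refine Subtype.ext (Prod.ext (RingEquiv.ext fun x => Subtype.ext ?_) rfl)
    show coeffMap ((1 : k ≃+* k) : k →+* k) (x : LaurentSeries k) = (x : LaurentSeries k)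
    rw [show ((1 : k ≃+* k) : k →+* k) = RingHom.id k from RingHom.ext fun _ => rfl,
      coeffMap_id]
  map_mul' σ τ := by
    refine Subtype.ext (Prod.ext (RingEquiv.ext fun x => Subtype.ext ?_) rfl)
    show coeffMap ((σ * τ : k ≃+* k) : k →+* k) (x : LaurentSeries k)
      = coeffMap (σ : k →+* k) (coeffMap (τ : k →+* k) (x : LaurentSeries k))
    rw [coeffMap_coeffMap]
    exact coeffMap_congr (RingHom.ext fun _ => rfl) _

@[simp]
theorem toRingAut_coeffAut (τ : k ≃+* k) :
    SemilinearAut.toRingAut (coeffAut k N τ) = coeffRingAut k N τ := rfl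

@[simp]
theorem baseAut_coeffAut (τ : k ≃+* k) :
    SemilinearAut.baseAut (coeffAut k N τ) = τ := rfl

theorem coe_coeffAut_smul (τ : k ≃+* k) (x : modularFunctionFieldFullC k N) :
    ((coeffAut k N τ • x : modularFunctionFieldFullC k N) : LaurentSeries k)
      = coeffMap (τ : k →+* k) (x : LaurentSeries k) :=
  rfl

end CoeffAut

section ResAut

variable {K L : Type*} [Field K] [Field L] [Algebra K L] (A : ValuationSubring L)

/-- The action of the decomposition group on the residue field, as ring automorphisms. -/
def resAut : (A.decompositionSubgroup K) →* RingAut (IsLocalRing.ResidueField A) :=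
  MulSemiringAction.toRingAut (A.decompositionSubgroup K) (IsLocalRing.ResidueField A)

theorem resAut_apply (σ : A.decompositionSubgroup K) (x : IsLocalRing.ResidueField A) :
    resAut A σ x = σ • x := rfl

theorem resAut_eq_one_of_mem_inertia {σ : L ≃ₐ[K] L} (hσ : σ ∈ A.inertiaSubgroupIn K) :
    ∃ hd : σ ∈ A.decompositionSubgroup K, resAut A ⟨σ, hd⟩ = 1 := by
  obtain ⟨τ, hτ, rfl⟩ := hσ
  exact ⟨τ.2, hτ⟩

theorem resAut_apply_of_isFrobeniusAt {σ : L ≃ₐ[K] L} {q : ℕ} (hσ : A.IsFrobeniusAt σ q)
    (x : IsLocalRing.ResidueField A) :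
    resAut A ⟨σ, hσ.mem_decompositionSubgroup⟩ x = x ^ q :=
  hσ.smul_residue_eq x

end ResAut

end Fermat.Agent.ESJ.Cong

end
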