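import Mathlib
import Fermat.Agent.ESJ.Cong.Defs

/-!
# ES-CONG, package B: rigidity

A homomorphism from the divisor group of a function field to a free abelian group `X →₀ ℤ`
which kills principal divisors and whose values on single places have uniformly bounded
coefficients is constant on places; in particular it vanishes on divisors of degree `0`.
The proof uses Riemann's inequality in the form `RRLite`.

As an application, a place-reduction map in the sense of the Prelude
(`ModularCurve.IsPlaceReductionAlong`) is determined by its values on integral principal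
divisors (no divisibility of `Pic0` needed).
-/

set_option autoImplicit false

noncomputable section

namespace Fermat.Agent.ESJ.Cong

open ModularCurve AlgebraicCurve

section Rigidity

variable {K F : Type*} [Field K] [Field F] [Algebra K F]

theorem degree_eq_sum_of_deg_one (hdeg : ∀ P : Place K F, P.deg = 1) (D : Divisor K F) :
    Divisor.degree D = ∑ P ∈ D.support, D P := by
  rw [Divisor.degree, Finsupp.liftAddHom_apply, Finsupp.sum]
  refine Finset.sum_congr rfl fun P _ => ?_
  simp [hdeg P]

variable {X : Type*}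

theorem map_eq_sum_single (δ : Divisor K F →+ (X →₀ ℤ)) (D : Divisor K F) :
    δ D = ∑ P ∈ D.support, D P • δ (Finsupp.single P 1) := by
  conv_lhs => rw [← Finsupp.sum_single D]
  rw [Finsupp.sum, map_sum]
  refine Finset.sum_congr rfl fun P _ => ?_
  rw [← map_zsmul, Finsupp.smul_single, smul_eq_mul, mul_one]

theorem abs_apply_le_of_effective (hdeg : ∀ P : Place K F, P.deg = 1)
    (δ : Divisor K F →+ (X →₀ ℤ)) (B : ℕ)
    (hB : ∀ (P : Place K F) (x : X), |δ (Finsupp.single P 1) x| ≤ B)
    (E : Divisor K F) (hE : ∀ P, 0 ≤ E P) (x : X) :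
    |δ E x| ≤ B * Divisor.degree E := by
  rw [map_eq_sum_single δ E, Finsupp.finset_sum_apply, degree_eq_sum_of_deg_one hdeg,
    Finset.mul_sum]
  refine (Finset.abs_sum_le_sum_abs _ _).trans (Finset.sum_le_sum fun P _ => ?_)
  rw [Finsupp.smul_apply, smul_eq_mul, abs_mul, abs_of_nonneg (hE P), mul_comm]
  exact mul_le_mul_of_nonneg_right (hB P x) (hE P)

/-- Rigidity, place form: the values on single places all coincide. -/
theorem rigidity_single [HasPrincipalDivisors K F]
    (hdeg : ∀ P : Place K F, P.deg = 1) (hRR : RRLite K F)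
    (δ : Divisor K F →+ (X →₀ ℤ))
    (hprin : ∀ D ∈ Divisor.principal (K := K) (F := F), δ D = 0)
    (B : ℕ) (hB : ∀ (P : Place K F) (x : X), |δ (Finsupp.single P 1) x| ≤ B)
    (P₁ P₂ : Place K F) :
    δ (Finsupp.single P₁ 1) = δ (Finsupp.single P₂ 1) := by
  classical
  obtain ⟨g, P₀, hg⟩ := hRR
  ext x
  set c : ℤ := δ (Finsupp.single P₁ 1) x - δ (Finsupp.single P₂ 1) x with hc
  suffices h : c = 0 by
    rw [hc] at h
    exact sub_eq_zero.mp h
  -- the bound `|n * c| ≤ 2 * g * B` for all `n`
  have key : ∀ n : ℕ, |(n : ℤ) * c| ≤ 2 * (g : ℤ) * B := by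
    intro n
    set Dn : Divisor K F := (n : ℤ) • (Finsupp.single P₁ 1 - Finsupp.single P₂ 1) with hDn
    have hdegDn : Divisor.degree Dn = 0 := by
      rw [hDn, map_zsmul, map_sub, Divisor.degree_single, Divisor.degree_single, hdeg, hdeg]
      simp
    obtain ⟨f, hf0, hf⟩ := hg Dn hdegDn
    obtain ⟨Df, hDf, hDfdeg⟩ := HasPrincipalDivisors.exists_divisor (K := K) f hf0
    set E : Divisor K F := Df + (Dn + Finsupp.single P₀ (g : ℤ)) with hE
    have hEeff : ∀ P, 0 ≤ E P := by
      intro P
      rw [hE, Finsupp.add_apply, hDf P]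
      exact hf P
    have hEdeg : Divisor.degree E = g := by
      rw [hE, map_add, map_add, hDfdeg, hdegDn, Divisor.degree_single, hdeg]
      simp
    have hδE : δ E x = (n : ℤ) * c + (g : ℤ) * δ (Finsupp.single P₀ 1) x := by
      have h1 : δ Df = 0 := hprin Df ⟨f, hf0, hDf⟩
      have h2 : (Finsupp.single P₀ (g : ℤ) : Divisor K F) = (g : ℤ) • Finsupp.single P₀ 1 := by
        rw [Finsupp.smul_single, smul_eq_mul, mul_one]
      rw [hE, map_add, map_add, h1, zero_add, hDn, map_zsmul, map_sub, h2, map_zsmul,
        Finsupp.add_apply, Finsupp.smul_apply, Finsupp.smul_apply, Finsupp.sub_apply,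
        smul_eq_mul, smul_eq_mul]
    have hb1 : |δ E x| ≤ B * (g : ℤ) := by
      have := abs_apply_le_of_effective hdeg δ B hB E hEeff x
      rwa [hEdeg] at this
    have hb2 : |(g : ℤ) * δ (Finsupp.single P₀ 1) x| ≤ (g : ℤ) * B := by
      rw [abs_mul, abs_of_nonneg (Int.natCast_nonneg g)]
      exact mul_le_mul_of_nonneg_left (hB P₀ x) (Int.natCast_nonneg g)
    have hnc : (n : ℤ) * c = δ E x - (g : ℤ) * δ (Finsupp.single P₀ 1) x := by
      rw [hδE]; ring
    rw [hnc]
    calc |δ E x - (g : ℤ) * δ (Finsupp.single P₀ 1) x|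
        ≤ |δ E x| + |(g : ℤ) * δ (Finsupp.single P₀ 1) x| := abs_sub _ _
      _ ≤ B * (g : ℤ) + (g : ℤ) * B := add_le_add hb1 hb2
      _ = 2 * (g : ℤ) * B := by ring
  -- conclude `c = 0`
  by_contra hne
  have hpos : 1 ≤ |c| := Int.one_le_abs hne
  have h := key (2 * g * B + 1)
  rw [abs_mul, abs_of_nonneg (Int.natCast_nonneg _)] at h
  have h3 : ((2 * g * B + 1 : ℕ) : ℤ) ≤ ((2 * g * B + 1 : ℕ) : ℤ) * |c| :=
    le_mul_of_one_le_right (Int.natCast_nonneg _) hpos
  push_cast at h h3
  omega

/-- **Rigidity.** -/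
theorem rigidity [HasPrincipalDivisors K F]
    (hdeg : ∀ P : Place K F, P.deg = 1) (hRR : RRLite K F)
    (δ : Divisor K F →+ (X →₀ ℤ))
    (hprin : ∀ D ∈ Divisor.principal (K := K) (F := F), δ D = 0)
    (B : ℕ) (hB : ∀ (P : Place K F) (x : X), |δ (Finsupp.single P 1) x| ≤ B) :
    ∀ D : Divisor K F, Divisor.degree D = 0 → δ D = 0 := by
  classical
  intro D hD
  rcases D.support.eq_empty_or_nonempty with hemp | ⟨P', _⟩
  · rw [Finsupp.support_eq_empty.mp hemp, map_zero]
  rw [map_eq_sum_single δ D]
  have : ∀ P ∈ D.support, D P • δ (Finsupp.single P 1) = D P • δ (Finsupp.single P' 1) :=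
    fun P _ => by rw [rigidity_single hdeg hRR δ hprin B hB P P']
  rw [Finset.sum_congr rfl this, ← Finset.sum_smul, ← degree_eq_sum_of_deg_one hdeg, hD,
    zero_smul]

end Rigidity

section Uniqueness

variable {L : Type*} [Field L] [Algebra ℚ L] {A : ValuationSubring L}
variable {k : Type*} [Field k] {π : A →+* k} {N : ℕ}

/-- A place-reduction map is determined by its values on integral principal divisors. -/
theorem eq_of_agree_of_rrLite
    [HasPrincipalDivisors L (laurentBaseChange L (modularFunctionFieldFull N))]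
    (hdeg : ∀ P : Place L (laurentBaseChange L (modularFunctionFieldFull N)), P.deg = 1)
    (hRR : RRLite L (laurentBaseChange L (modularFunctionFieldFull N)))
    {r₁ r₂ : Place L (laurentBaseChange L (modularFunctionFieldFull N)) →
      Place k (modularFunctionFieldFullC k N)}
    (hgen : PrincipalGeneratedByIntegral A π N)
    (hagree : ∀ D ∈ integralPrincipalDivisors A π N,
      Finsupp.mapDomain r₁ D = Finsupp.mapDomain r₂ D)
    (hnc : ∃ D ∈ Divisor.principal (K := L)
      (F := laurentBaseChange L (modularFunctionFieldFull N)),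
      Finsupp.mapDomain r₁ D ≠ 0) : r₁ = r₂ := by
  classical
  set δ : Divisor L (laurentBaseChange L (modularFunctionFieldFull N)) →+
      Divisor k (modularFunctionFieldFullC k N) :=
    Finsupp.mapDomain.addMonoidHom r₁ - Finsupp.mapDomain.addMonoidHom r₂ with hδ
  have hδapp : ∀ D, δ D = Finsupp.mapDomain r₁ D - Finsupp.mapDomain r₂ D := fun D => rfl
  have hδprin : ∀ D ∈ Divisor.principal (K := L)
      (F := laurentBaseChange L (modularFunctionFieldFull N)), δ D = 0 := by
    intro D hD
    have hD' := hgen hD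
    clear hD
    induction hD' using AddSubgroup.closure_induction with
    | mem E hE => rw [hδapp, hagree E hE, sub_self]
    | zero => exact map_zero δ
    | add E E' _ _ hE hE' => rw [map_add, hE, hE', add_zero]
    | neg E _ hE => rw [map_neg, hE, neg_zero]
  have hB : ∀ (P : Place L (laurentBaseChange L (modularFunctionFieldFull N)))
      (x : Place k (modularFunctionFieldFullC k N)), |δ (Finsupp.single P 1) x| ≤ (2 : ℕ) := by
    intro P x
    rw [hδapp, Finsupp.mapDomain_single, Finsupp.mapDomain_single, Finsupp.sub_apply,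
      Finsupp.single_apply, Finsupp.single_apply]
    split_ifs <;> simp
  have hconst := rigidity_single hdeg hRR δ hδprin 2 hB
  -- now the same endgame as in the Prelude's `eq_or_const_of_agree`
  by_contra hne
  obtain ⟨P₀, hP₀⟩ : ∃ P₀, r₁ P₀ ≠ r₂ P₀ := by
    by_contra hall
    push Not at hall
    exact hne (funext hall)
  have hr₁const : ∀ Q, r₁ Q = r₁ P₀ := by
    intro Q
    have h := congrArg (fun E => E (r₁ P₀)) (hconst Q P₀)
    simp only [hδapp, Finsupp.mapDomain_single, Finsupp.sub_apply, Finsupp.single_apply,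
      if_neg (Ne.symm hP₀)] at h
    by_contra hQ
    rw [if_neg hQ] at h
    split_ifs at h <;> omega
  obtain ⟨D, hDprin, hDne⟩ := hnc
  apply hDne
  have hmapconst : ∀ D : Divisor L (laurentBaseChange L (modularFunctionFieldFull N)),
      Finsupp.mapDomain r₁ D = Finsupp.single (r₁ P₀) (Divisor.degree D) := by
    intro D
    induction D using Finsupp.induction with
    | zero => simp
    | single_add P n D _ _ ih =>
      rw [Finsupp.mapDomain_add, ih, Finsupp.mapDomain_single, hr₁const P, map_add,
        Divisor.degree_single, hdeg, Nat.cast_one, mul_one, ← Finsupp.single_add]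
  obtain ⟨f, hf0, hDf⟩ := hDprin
  obtain ⟨Df, hDf', hDfdeg⟩ := HasPrincipalDivisors.exists_divisor (K := L) f hf0
  have hDeq : D = Df := Finsupp.ext fun v => by rw [hDf v, hDf' v]
  rw [hmapconst D, hDeq, hDfdeg, Finsupp.single_zero]

end Uniqueness

end Fermat.Agent.ESJ.Cong

end
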