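import Fermat.Agent.ESJ.Cong.Defs
import Fermat.Agent.ESJ.Cong.Rigidity
import Fermat.Agent.S24.PlaceOfVal

/-!
# ES-CONG, package C: the place reduction commutes with the decomposition group

Let `A` be a valuation subring of `ℚ̄`, `σ` in its decomposition group, `σ̄` the induced
automorphism of the residue field `k`.  If `r` is a place reduction in the sense of the Prelude
(`IsPlaceReductionAlong`), then so is `P ↦ σ̄⁻¹ • r (σ • P)`: the reduction of `σ y` is
`σ̄ (ȳ)` for an `A`-integral series `y`.  By the uniqueness of place reductions (rigidity,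
package B) the two agree: `r (σ • P) = σ̄ • r P`.
-/

set_option autoImplicit false

noncomputable section

namespace Fermat.Agent.ESJ.Cong

open ModularCurve AlgebraicCurve HahnSeries IntermediateField

/-! ### Coefficient maps -/

section CoeffMapAux

variable {R S : Type*} [CommRing R] [CommRing S]

theorem coeffMap_eq_zero_iff_of_injective (f : R →+* S) (hf : Function.Injective f)
    (x : LaurentSeries R) : coeffMap f x = 0 ↔ x = 0 := by
  constructor
  · intro h
    ext n
    have hn := congrArg (fun z : LaurentSeries S => z.coeff n) h
    simp only [coeffMap_coeff, HahnSeries.coeff_zero] at hn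
    rw [HahnSeries.coeff_zero]
    exact hf (by rw [hn, map_zero])
  · rintro rfl
    exact map_zero _

end CoeffMapAux

/-! ### The decomposition group acting on `A` and on its residue field -/

section Decomp

variable {K L : Type*} [Field K] [Field L] [Algebra K L] (A : ValuationSubring L)

/-- The restriction of an element of the decomposition group to `A`. -/
def decompRingHom (σ : A.decompositionSubgroup K) : A →+* A :=
  MulSemiringAction.toRingHom (A.decompositionSubgroup K) A σ

theorem coe_decompRingHom (σ : A.decompositionSubgroup K) (a : A) :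
    ((decompRingHom A σ a : A) : L) = (σ : L ≃ₐ[K] L) (a : L) := rfl

theorem subtype_comp_decompRingHom (σ : A.decompositionSubgroup K) :
    A.subtype.comp (decompRingHom A σ) = ((σ : L ≃ₐ[K] L) : L →+* L).comp A.subtype :=
  RingHom.ext fun _ => rfl

theorem residue_decompRingHom (σ : A.decompositionSubgroup K) (a : A) :
    IsLocalRing.residue A (decompRingHom A σ a) = resAut A σ (IsLocalRing.residue A a) :=
  IsLocalRing.ResidueField.residue_smul (A.decompositionSubgroup K) σ a

theorem residue_comp_decompRingHom (σ : A.decompositionSubgroup K) :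
    (IsLocalRing.residue A).comp (decompRingHom A σ) =
      ((resAut A σ : IsLocalRing.ResidueField A ≃+* IsLocalRing.ResidueField A) :
        IsLocalRing.ResidueField A →+* IsLocalRing.ResidueField A).comp (IsLocalRing.residue A) :=
  RingHom.ext fun a => residue_decompRingHom A σ a

theorem coeffMap_subtype_decompRingHom (σ : A.decompositionSubgroup K) (y : LaurentSeries A) :
    coeffMap A.subtype (coeffMap (decompRingHom A σ) y)
      = coeffMap (((σ : L ≃ₐ[K] L) : L →+* L)) (coeffMap A.subtype y) := by
  rw [coeffMap_coeffMap, coeffMap_coeffMap, subtype_comp_decompRingHom]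

theorem coeffMap_residue_decompRingHom (σ : A.decompositionSubgroup K) (y : LaurentSeries A) :
    coeffMap (IsLocalRing.residue A) (coeffMap (decompRingHom A σ) y)
      = coeffMap ((resAut A σ : IsLocalRing.ResidueField A ≃+* IsLocalRing.ResidueField A) :
          IsLocalRing.ResidueField A →+* IsLocalRing.ResidueField A)
        (coeffMap (IsLocalRing.residue A) y) := by
  rw [coeffMap_coeffMap, coeffMap_coeffMap, residue_comp_decompRingHom]

end Decomp

/-! ### The cusp `∞` of the mod-`ℓ` curve: a place where `j` has a pole -/

section Cusp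

variable (k : Type*) [Field k] (N : ℕ)

theorem order_jqModC : (jqModC k).order = -1 := by
  have hne : jqModC k ≠ 0 := jqModC_ne_zero_of_nontrivial k
  apply le_antisymm
  · exact HahnSeries.order_le_of_coeff_ne_zero (by rw [coeff_jqModC_neg_one]; exact one_ne_zero)
  · by_contra hlt
    rw [not_le] at hlt
    exact hne (HahnSeries.coeff_order_eq_zero.mp (coeff_jqModC_of_lt k hlt))

/-- There is a place of the mod-`ℓ` modular function field at which `j` is not a unit. -/
theorem exists_place_ord_jqModC_ne_zero :
    ∃ Q : Place k (modularFunctionFieldFullC k N),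
      Q.ord (⟨jqModC k, jqModC_mem_full k N⟩ : modularFunctionFieldFullC k N) ≠ 0 := by
  have hJ0 : (⟨jqModC k, jqModC_mem_full k N⟩ : modularFunctionFieldFullC k N) ≠ 0 :=
    fun h => jqModC_ne_zero_of_nontrivial k (congrArg Subtype.val h)
  obtain ⟨Q, e, he, hQ⟩ := Fermat.Agent.S24.PlaceOfVal.exists_place_of_val (K := k)
    (F := modularFunctionFieldFullC k N)
    (fun f => (f : LaurentSeries k).order)
    (fun f g hf hg => HahnSeries.order_mul (fun h => hf (Subtype.ext h))
      (fun h => hg (Subtype.ext h)))
    (fun f g _ _ hfg => HahnSeries.min_order_le_order_add (fun h => hfg (Subtype.ext h)))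
    (fun c hc => by
      show (algebraMap k (LaurentSeries k) c).order = 0
      rw [algebraMap_laurentSeries_eq_single]
      exact HahnSeries.order_single hc)
    ⟨_, hJ0, by
      show (jqModC k).order ≠ 0
      rw [order_jqModC]; decide⟩
  refine ⟨Q, fun h0 => ?_⟩
  have h := hQ _ hJ0
  rw [h0, mul_zero] at h
  have h' : (jqModC k).order = 0 := h
  rw [order_jqModC] at h'
  exact absurd h' (by decide)

end Cusp

/-! ### The twisted reduction agrees with the reduction on integral principal divisors -/

section Main

set_option synthInstance.maxHeartbeats 400000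

variable {L : Type*} [Field L] [Algebra ℚ L] (A : ValuationSubring L) (N : ℕ) [NeZero N]

omit [NeZero N] in
/-- Abstract form: if `S` and `g` are semilinear automorphisms upstairs and downstairs which are
compatible on `A`-integral series, the twisted reduction `P ↦ g⁻¹ • r (S • P)` agrees with `r` on
integral principal divisors. -/
theorem mapDomain_twist_eq_of_compat {k : Type*} [Field k] {π : A →+* k}
    {r : Place L (laurentBaseChange L (modularFunctionFieldFull N)) →
      Place k (modularFunctionFieldFullC k N)}
    (hr : IsPlaceReductionAlong A π N r)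
    (S : SemilinearAut L (laurentBaseChange L (modularFunctionFieldFull N)))
    (g : SemilinearAut k (modularFunctionFieldFullC k N))
    (hcompat : ∀ (y : LaurentSeries A)
      (hy : coeffMap A.subtype y ∈ laurentBaseChange L (modularFunctionFieldFull N))
      (hyk : coeffMap π y ∈ modularFunctionFieldFullC k N),
      ∃ y' : LaurentSeries A,
        coeffMap A.subtype y' = ((S • (⟨coeffMap A.subtype y, hy⟩ :
          laurentBaseChange L (modularFunctionFieldFull N)) :
            laurentBaseChange L (modularFunctionFieldFull N)) : LaurentSeries L) ∧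
        coeffMap π y' = ((g • (⟨coeffMap π y, hyk⟩ : modularFunctionFieldFullC k N) :
          modularFunctionFieldFullC k N) : LaurentSeries k))
    {D : Divisor L (laurentBaseChange L (modularFunctionFieldFull N))}
    (hD : D ∈ integralPrincipalDivisors A π N) :
    Finsupp.mapDomain (fun P => g⁻¹ • r (S • P)) D = Finsupp.mapDomain r D := by
  obtain ⟨y, hy, hyk, hne, hDy⟩ := hD
  obtain ⟨y', e1, e2⟩ := hcompat y hy hyk
  have hy' : coeffMap A.subtype y' ∈ laurentBaseChange L (modularFunctionFieldFull N) := by
    rw [e1]; exact Subtype.property _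
  have hyk' : coeffMap π y' ∈ modularFunctionFieldFullC k N := by
    rw [e2]; exact Subtype.property _
  have hSf : (⟨coeffMap A.subtype y', hy'⟩ : laurentBaseChange L (modularFunctionFieldFull N))
      = S • (⟨coeffMap A.subtype y, hy⟩ : laurentBaseChange L (modularFunctionFieldFull N)) :=
    Subtype.ext e1
  have hgf : (⟨coeffMap π y', hyk'⟩ : modularFunctionFieldFullC k N)
      = g • (⟨coeffMap π y, hyk⟩ : modularFunctionFieldFullC k N) :=
    Subtype.ext e2
  have hne' : coeffMap π y' ≠ 0 := by
    intro h0
    have h3 : g • (⟨coeffMap π y, hyk⟩ : modularFunctionFieldFullC k N) = 0 := by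
      rw [← hgf]; exact Subtype.ext h0
    rw [smul_eq_zero_iff_eq] at h3
    exact hne (congrArg Subtype.val h3)
  have hSD : ∀ P, (S • D) P
      = P.ord (⟨coeffMap A.subtype y', hy'⟩ : laurentBaseChange L (modularFunctionFieldFull N)) := by
    intro P
    rw [SemilinearAut.divisor_smul_apply, hDy, hSf]
    have h := SemilinearAut.ord_smul S (S⁻¹ • P)
      (⟨coeffMap A.subtype y, hy⟩ : laurentBaseChange L (modularFunctionFieldFull N))
    rw [smul_inv_smul] at h
    exact h.symm
  have h1 := hr.2 y' hy' hyk' hne' (S • D) hSD
  have h2 := hr.2 y hy hyk hne D hDy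
  have hcomp : Finsupp.mapDomain (fun P => g⁻¹ • r (S • P)) D
      = g⁻¹ • Finsupp.mapDomain r (S • D) := by
    rw [SemilinearAut.divisor_smul_def, SemilinearAut.divisor_smul_def,
      ← Finsupp.mapDomain_comp, ← Finsupp.mapDomain_comp]
    rfl
  ext Q
  rw [hcomp, SemilinearAut.divisor_smul_apply, inv_inv, h1, h2, hgf, SemilinearAut.ord_smul]

/-- The decomposition group acts compatibly on `A`-integral series upstairs and downstairs. -/
theorem galois_compat (σ : A.decompositionSubgroup ℚ) (y : LaurentSeries A)
    (hy : coeffMap A.subtype y ∈ laurentBaseChange L (modularFunctionFieldFull N))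
    (hyk : coeffMap (IsLocalRing.residue A) y ∈
      modularFunctionFieldFullC (IsLocalRing.ResidueField A) N) :
    ∃ y' : LaurentSeries A,
      coeffMap A.subtype y' = ((arithmeticGalois (modularFunctionFieldFull N) (σ : L ≃ₐ[ℚ] L) •
        (⟨coeffMap A.subtype y, hy⟩ : laurentBaseChange L (modularFunctionFieldFull N)) :
          laurentBaseChange L (modularFunctionFieldFull N)) : LaurentSeries L) ∧
      coeffMap (IsLocalRing.residue A) y' =
        ((coeffAut (IsLocalRing.ResidueField A) N (resAut A σ) •
          (⟨coeffMap (IsLocalRing.residue A) y, hyk⟩ :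
            modularFunctionFieldFullC (IsLocalRing.ResidueField A) N) :
          modularFunctionFieldFullC (IsLocalRing.ResidueField A) N) :
            LaurentSeries (IsLocalRing.ResidueField A)) :=
  ⟨coeffMap (decompRingHom A σ) y, coeffMap_subtype_decompRingHom A σ y,
    coeffMap_residue_decompRingHom A σ y⟩

omit [NeZero N] in
/-- A place reduction is not constant: the divisor of `j` has nonzero image. -/
theorem exists_principal_mapDomain_ne_zero
    [HasPrincipalDivisors L (laurentBaseChange L (modularFunctionFieldFull N))]
    {k : Type*} [Field k] {π : A →+* k}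
    {r : Place L (laurentBaseChange L (modularFunctionFieldFull N)) →
      Place k (modularFunctionFieldFullC k N)}
    (hr : IsPlaceReductionAlong A π N r) :
    ∃ D ∈ Divisor.principal (K := L) (F := laurentBaseChange L (modularFunctionFieldFull N)),
      Finsupp.mapDomain r D ≠ 0 := by
  have hJL : coeffMap A.subtype (jqModC A) ∈ laurentBaseChange L (modularFunctionFieldFull N) := by
    rw [coeffMap_jqModC, ← coeffMap_jqModC (algebraMap ℚ L)]
    exact coeffEmb_mem_laurentBaseChange L (jqModC_mem_full ℚ N)
  have hJk : coeffMap π (jqModC A) ∈ modularFunctionFieldFullC k N := by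
    rw [coeffMap_jqModC]; exact jqModC_mem_full k N
  have hJk0 : coeffMap π (jqModC A) ≠ 0 := by
    rw [coeffMap_jqModC]; exact jqModC_ne_zero_of_nontrivial k
  have hJL0 : (⟨coeffMap A.subtype (jqModC A), hJL⟩ :
      laurentBaseChange L (modularFunctionFieldFull N)) ≠ 0 := by
    intro h
    have h' : coeffMap A.subtype (jqModC A) = 0 := congrArg Subtype.val h
    rw [coeffMap_jqModC] at h'
    exact jqModC_ne_zero_of_nontrivial L h'
  obtain ⟨D, hD, -⟩ := HasPrincipalDivisors.exists_divisor (K := L) _ hJL0
  refine ⟨D, ⟨_, hJL0, hD⟩, fun h0 => ?_⟩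
  obtain ⟨Q, hQ⟩ := exists_place_ord_jqModC_ne_zero k N
  have h := hr.2 (jqModC A) hJL hJk hJk0 D hD Q
  rw [h0, Finsupp.zero_apply] at h
  apply hQ
  have hJeq : (⟨jqModC k, jqModC_mem_full k N⟩ : modularFunctionFieldFullC k N)
      = ⟨coeffMap π (jqModC A), hJk⟩ := Subtype.ext (coeffMap_jqModC π).symm
  rw [hJeq, ← h]

/-- **Galois equivariance of a place reduction** (general coefficient field). -/
theorem placeReductionAlong_galois
    [HasPrincipalDivisors L (laurentBaseChange L (modularFunctionFieldFull N))]
    (hdeg : ∀ P : Place L (laurentBaseChange L (modularFunctionFieldFull N)), P.deg = 1)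
    (hRR : RRLite L (laurentBaseChange L (modularFunctionFieldFull N)))
    {r : Place L (laurentBaseChange L (modularFunctionFieldFull N)) →
      Place (IsLocalRing.ResidueField A) (modularFunctionFieldFullC (IsLocalRing.ResidueField A) N)}
    (hr : IsPlaceReductionAlong A (IsLocalRing.residue A) N r)
    (hgen : PrincipalGeneratedByIntegral A (IsLocalRing.residue A) N)
    (σ : A.decompositionSubgroup ℚ)
    (P : Place L (laurentBaseChange L (modularFunctionFieldFull N))) :
    r (arithmeticGalois (modularFunctionFieldFull N) (σ : L ≃ₐ[ℚ] L) • P)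
      = coeffAut (IsLocalRing.ResidueField A) N (resAut A σ) • r P := by
  have key := eq_of_agree_of_rrLite hdeg hRR (r₁ := r)
    (r₂ := fun P => (coeffAut (IsLocalRing.ResidueField A) N (resAut A σ))⁻¹ •
      r (arithmeticGalois (modularFunctionFieldFull N) (σ : L ≃ₐ[ℚ] L) • P)) hgen
    (fun D hD => (mapDomain_twist_eq_of_compat A N hr _ _ (galois_compat A N σ) hD).symm)
    (exists_principal_mapDomain_ne_zero A N hr)
  have h := congrFun key P
  exact (eq_inv_smul_iff.mp h).symm

set_option maxHeartbeats 1000000 in
/-- **Galois equivariance of the reduction map on `Pic⁰`** (general coefficient field). -/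
theorem reductionAlong_galois
    [HasPrincipalDivisors L (laurentBaseChange L (modularFunctionFieldFull N))]
    (hdeg : ∀ P : Place L (laurentBaseChange L (modularFunctionFieldFull N)), P.deg = 1)
    (hRR : RRLite L (laurentBaseChange L (modularFunctionFieldFull N)))
    (h : ReductionInputsAlong A (IsLocalRing.residue A) N)
    (σ : A.decompositionSubgroup ℚ)
    (x : Pic0 L (laurentBaseChange L (modularFunctionFieldFull N))) :
    reductionAlong A (IsLocalRing.residue A) N
        (arithmeticGalois (modularFunctionFieldFull N) (σ : L ≃ₐ[ℚ] L) • x)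
      = coeffAut (IsLocalRing.ResidueField A) N (resAut A σ) •
          reductionAlong A (IsLocalRing.residue A) N x := by
  obtain ⟨D, rfl⟩ := Pic0.mk_surjective x
  have e2 := reductionAlong_mk h D
  have e3 := reductionAlong_mk h (SemilinearAut.degZeroSMulHom
    (arithmeticGalois (modularFunctionFieldFull N) (σ : L ≃ₐ[ℚ] L)) D)
  refine (e3.trans ?_).trans
    (congrArg (fun z => coeffAut (IsLocalRing.ResidueField A) N (resAut A σ) • z) e2).symm
  refine congrArg Pic0.mk (Subtype.ext ?_)
  show Finsupp.mapDomain h.choose
      (Finsupp.mapDomain (fun P => arithmeticGalois (modularFunctionFieldFull N) (σ : L ≃ₐ[ℚ] L) • P)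
        (D : Divisor L (laurentBaseChange L (modularFunctionFieldFull N))))
    = Finsupp.mapDomain (fun Q => coeffAut (IsLocalRing.ResidueField A) N (resAut A σ) • Q)
      (Finsupp.mapDomain h.choose
        (D : Divisor L (laurentBaseChange L (modularFunctionFieldFull N))))
  rw [← Finsupp.mapDomain_comp, ← Finsupp.mapDomain_comp]
  exact congrArg (fun f => Finsupp.mapDomain f
      (D : Divisor L (laurentBaseChange L (modularFunctionFieldFull N))))
    (funext fun P =>
      placeReductionAlong_galois A N hdeg hRR h.choose_spec.1 h.choose_spec.2 σ P)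

end Main

/-! ### The exported statements over `ℚ̄` -/

section Export

set_option synthInstance.maxHeartbeats 400000

variable (A : ValuationSubring (AlgebraicClosure ℚ)) (N : ℕ) [NeZero N]

/-- **CONG-C, place level.** The place reduction mod `ℓ` intertwines the decomposition group with
the coefficientwise action of its image in the automorphisms of the residue field. -/
theorem placeReductionModL_galois
    [HasPrincipalDivisors (AlgebraicClosure ℚ) (modularFunctionFieldBar N)]
    (hdeg : ∀ P : Place (AlgebraicClosure ℚ) (modularFunctionFieldBar N), P.deg = 1)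
    (hRR : RRLite (AlgebraicClosure ℚ) (modularFunctionFieldBar N))
    (h : ReductionInputsModL A N)
    (σ : AlgebraicClosure ℚ ≃ₐ[ℚ] AlgebraicClosure ℚ) (hσ : σ ∈ A.decompositionSubgroup ℚ)
    (P : Place (AlgebraicClosure ℚ) (modularFunctionFieldBar N)) :
    placeReductionModL h (arithmeticGalois (modularFunctionFieldFull N) σ • P)
      = coeffAut (IsLocalRing.ResidueField A) N (resAut A ⟨σ, hσ⟩) • placeReductionModL h P :=
  placeReductionAlong_galois A N hdeg hRR (isPlaceReductionModL_placeReductionModL h)
    h.choose_spec.2 ⟨σ, hσ⟩ P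

/-- **CONG-C, class level.** The reduction map `J₀(N) → J₀(N)_{𝔽̄_ℓ}` intertwines the
decomposition group with the coefficientwise action on the special fibre. -/
theorem reductionModL_galois
    [HasPrincipalDivisors (AlgebraicClosure ℚ) (modularFunctionFieldBar N)]
    (hdeg : ∀ P : Place (AlgebraicClosure ℚ) (modularFunctionFieldBar N), P.deg = 1)
    (hRR : RRLite (AlgebraicClosure ℚ) (modularFunctionFieldBar N))
    (h : ReductionInputsModL A N)
    (σ : AlgebraicClosure ℚ ≃ₐ[ℚ] AlgebraicClosure ℚ) (hσ : σ ∈ A.decompositionSubgroup ℚ)
    (x : JZero N) :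
    reductionModL A N (σ • x)
      = coeffAut (IsLocalRing.ResidueField A) N (resAut A ⟨σ, hσ⟩) • reductionModL A N x :=
  reductionAlong_galois A N hdeg hRR h ⟨σ, hσ⟩ x

end Export

end Fermat.Agent.ESJ.Cong

end
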