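import Mathlib
import Fermat.Agent.ESJ.Interfaces
import Fermat.Agent.ESJ.Cong.Defs
import Fermat.Agent.Lib.FrobeniusExists

/-!
# ES-CONG: `LocalESData` from the layer outputs

`localESData_of` produces the chief architect's interface predicate
`Fermat.Agent.ESJ.LocalESData N p ℓ hℓ A` (with `X := JZeroC (ResidueField A) N`,
`red := reductionModL A N`, `Φ :=` the coefficientwise Frobenius) from

* `hInj`  : injectivity of `reductionModL` on prime-to-`ℓ` torsion (S18 / RED),
* `hGal`  : Galois equivariance of `reductionModL` for the decomposition group (CONG-C),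
* `hES`   : the Eichler–Shimura congruence `R ∘ T_ℓ = Φ R + ℓ Φ⁻¹ R` (CONG-F).
-/

set_option autoImplicit false

noncomputable section

namespace Fermat.Agent.ESJ.Cong

open ModularCurve AlgebraicCurve

local notation "Qb" => AlgebraicClosure ℚ

theorem localESData_of (N p ℓ : ℕ) [NeZero N] (hℓ : ℓ.Prime) (hℓNp : ¬ ℓ ∣ N * p)
    (A : ValuationSubring Qb) (hA : A.LiesOverPrime ℓ)
    (hInj : ∀ m : ℕ, ¬ ℓ ∣ m → ∀ z : JZero N, m • z = 0 → reductionModL A N z = 0 → z = 0)
    (hGal : ∀ (σ : Qb ≃ₐ[ℚ] Qb) (hσ : σ ∈ A.decompositionSubgroup ℚ) (x : JZero N),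
        reductionModL A N (σ • x)
          = coeffAut (IsLocalRing.ResidueField A) N (resAut A ⟨σ, hσ⟩) • reductionModL A N x)
    (hES : ∀ (τ : IsLocalRing.ResidueField A ≃+* IsLocalRing.ResidueField A),
        (∀ x, τ x = x ^ ℓ) → ∀ x : JZero N,
        reductionModL A N (heckeOperatorBar N ⟨ℓ, hℓ⟩ x)
          = coeffAut (IsLocalRing.ResidueField A) N τ • reductionModL A N x
            + ℓ • ((coeffAut (IsLocalRing.ResidueField A) N τ)⁻¹ • reductionModL A N x)) :
    LocalESData N p ℓ hℓ A := by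
  have hℓp : ¬ ℓ ∣ p := fun h => hℓNp (Dvd.dvd.mul_left h N)
  obtain ⟨σ0, hσ0⟩ :=
    Fermat.Agent.Lib.FrobeniusExists.exists_isFrobeniusAt_of_liesOverPrime hℓ A hA
  set k := IsLocalRing.ResidueField A
  set R : JZero N →+ JZeroC k N := reductionModL A N with hR
  set τ : k ≃+* k := resAut A ⟨σ0, hσ0.mem_decompositionSubgroup⟩ with hτdef
  have hτ : ∀ x, τ x = x ^ ℓ := fun x => resAut_apply_of_isFrobeniusAt A hσ0 x
  set Φ := coeffAut k N τ with hΦ
  refine ⟨JZeroC k N, inferInstance, R, DistribSMul.toAddMonoidHom (JZeroC k N) Φ,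
    ?_, ?_, ?_, ?_⟩
  · intro σ hσ x
    obtain ⟨hd, h1⟩ := resAut_eq_one_of_mem_inertia A hσ
    rw [hGal σ hd x, h1, map_one, one_smul]
  · intro σ hσ x
    have e : resAut A ⟨σ, hσ.mem_decompositionSubgroup⟩ = τ := by
      refine RingEquiv.ext fun y => ?_
      rw [resAut_apply_of_isFrobeniusAt A hσ y, hτ y]
    rw [hGal σ hσ.mem_decompositionSubgroup x, e]
    rfl
  · rintro x ⟨n, hn⟩ hx
    exact hInj (p ^ n) (fun h => hℓp (hℓ.dvd_of_dvd_pow h)) x hn hx
  · intro x
    change Φ • R (heckeOperatorBar N ⟨ℓ, hℓ⟩ x) = Φ • (Φ • R x) + ℓ • R x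
    rw [hES τ hτ x, smul_add, smul_comm Φ ℓ, smul_inv_smul]

end Fermat.Agent.ESJ.Cong

end
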