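import Mathlib
import Fermat.Agent.ESJ.LevelPullback
import Fermat.Agent.ESJ.LevelDesc.Pic0Pull
import Fermat.Agent.ESJ.HeckeInputs
import Fermat.Agent.ESJ.Cong.ConjNormAnalytic
import Fermat.Agent.ESJ.Cong.LevelGen
import Fermat.Agent.Lib.FF.Setting
import Fermat.Agent.Lib.FF.RRApprox

/-!
# ES-CONG: the level pull-back `J₀(N) → J₀(N q)` (task 266, CONG-LEVEL)

`levelPullback_mul_prime`: for a prime `q ∤ N`, pull-back of divisor classes along the
inclusion `F_N ⊆ F_{N q}` (`heckeAlphaBar Qb N q`) is Galois-equivariant, commutes with every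
Hecke operator `T_ℓ`, `ℓ ∤ N q`, and its kernel is killed by `q + 1 = [F_{N q} : F_N]`.

Consumer: `Fermat.Agent.ESJ.localESData_of_red_of_levelPullback` — at `ℓ ∈ {2, 3}` the local
Eichler–Shimura data at level `N` are obtained from the reduction layer at the auxiliary level
`N · aux`, without descending the place reduction.

Proof of the Hecke clause: `LevelDesc.pic0Pull_correspondence` (base change for divisors along
the square `F_N ⊆ F_{Nℓ}`, `F_{Nq} ⊆ F_{Nqℓ}`), with norm compatibility from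
`F_{Nℓ} = F_N(J(q^ℓ))`, `F_{Nqℓ} = F_{Nq}(J(q^ℓ))` and `[F_{Nqℓ} : F_{Nq}] = ℓ + 1 =
[F_{Nℓ} : F_N]`.
-/

set_option autoImplicit false
set_option linter.style.haveILetI false

noncomputable section

namespace Fermat.Agent.ESJ.Cong

open AlgebraicCurve ModularCurve IntermediateField
open Fermat.Agent.S24 Fermat.Agent.ESJ.HeckeInputs Fermat.Agent.ESJ.LevelDesc
open Fermat.Agent.ESJ.Cong.LevelGen (jLevel coe_heckeBetaBar_jLevel closure_range_heckeAlphaBar_union)

namespace LevelPull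

local notation "Qb" => AlgebraicClosure ℚ

section Incl

variable (N q ℓ : ℕ) [NeZero N] [NeZero q] [NeZero ℓ]

theorem le_mul_mul : modularFunctionFieldBar (N * ℓ) ≤ modularFunctionFieldBar (N * q * ℓ) := by
  have hdvd : N * ℓ ∣ N * q * ℓ := ⟨q, by ring⟩
  have h0 := full_degeneracy_le hdvd
  show laurentBaseChange Qb (modularFunctionFieldFull (N * ℓ))
    ≤ laurentBaseChange Qb (modularFunctionFieldFull (N * q * ℓ))
  rw [laurentBaseChange, IntermediateField.adjoin_le_iff]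
  rintro _ ⟨y, hy, rfl⟩
  exact coeffEmb_mem_laurentBaseChange Qb (h0 hy)

/-- The inclusion `F_{Nℓ} ⊆ F_{Nqℓ}`. -/
def incl : FN (N * ℓ) →ₐ[Qb] FN (N * q * ℓ) :=
  IntermediateField.inclusion (le_mul_mul N q ℓ)

@[simp]
theorem coe_incl (x : FN (N * ℓ)) :
    ((incl N q ℓ x : FN (N * q * ℓ)) : LaurentSeries Qb) = (x : LaurentSeries Qb) :=
  IntermediateField.coe_inclusion _ x

theorem finiteAlong_incl : FiniteAlong Qb (incl N q ℓ) :=
  haveI := finiteDimensional_jBar (N * q * ℓ)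
  finiteAlong _ (transcendental_jBar (N * ℓ)) (jBar (N * q * ℓ))

theorem isIntegral_incl : (incl N q ℓ).toRingHom.IsIntegral :=
  isIntegral_of_finiteAlong _ (finiteAlong_incl N q ℓ)

theorem alpha_comp_alpha :
    (heckeAlphaBar Qb (N * q) ℓ).comp (heckeAlphaBar Qb N q)
      = (incl N q ℓ).comp (heckeAlphaBar Qb N ℓ) := by
  refine AlgHom.ext fun x => Subtype.ext ?_
  rw [AlgHom.comp_apply, AlgHom.comp_apply, coe_heckeAlphaBar, coe_heckeAlphaBar, coe_incl,
    coe_heckeAlphaBar]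

theorem beta_comp_alpha :
    (heckeBetaBar Qb (N * q) ℓ).comp (heckeAlphaBar Qb N q)
      = (incl N q ℓ).comp (heckeBetaBar Qb N ℓ) := by
  refine AlgHom.ext fun x => Subtype.ext ?_
  rw [AlgHom.comp_apply, AlgHom.comp_apply, coe_heckeBetaBar, coe_heckeAlphaBar, coe_incl,
    coe_heckeBetaBar]

theorem incl_beta_jLevel :
    incl N q ℓ (heckeBetaBar Qb N ℓ (jLevel Qb N))
      = heckeBetaBar Qb (N * q) ℓ (jLevel Qb (N * q)) := by
  apply Subtype.ext
  rw [coe_incl, coe_heckeBetaBar_jLevel, coe_heckeBetaBar_jLevel]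

/-- Norm compatibility for the square `F_N ⊆ F_{Nℓ}`, `F_{Nq} ⊆ F_{Nqℓ}`. -/
theorem norm_incl (hℓ : ℓ.Prime) (hℓNq : ¬ ℓ ∣ N * q) (f : FN (N * ℓ)) :
    (letI := algebraAlong (heckeAlphaBar Qb (N * q) ℓ);
      Algebra.norm (FN (N * q)) (incl N q ℓ f))
      = heckeAlphaBar Qb N q
          (letI := algebraAlong (heckeAlphaBar Qb N ℓ); Algebra.norm (FN N) f) := by
  have hℓN : ¬ ℓ ∣ N := fun h => hℓNq (Dvd.dvd.mul_right h q)
  have hdeg : finrankAlong Qb (heckeAlphaBar Qb (N * q) ℓ)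
      = finrankAlong Qb (heckeAlphaBar Qb N ℓ) :=
    (ConjAnalytic.finrank_alpha (N * q) ℓ hℓ hℓNq).trans
      (ConjAnalytic.finrank_alpha N ℓ hℓ hℓN).symm
  refine norm_along_of_closure_eq_top (heckeAlphaBar Qb N q) (heckeAlphaBar Qb N ℓ)
    (heckeAlphaBar Qb (N * q) ℓ) (incl N q ℓ) (alpha_comp_alpha N q ℓ)
    (finiteAlong_heckeAlphaBar N ℓ) hdeg (heckeBetaBar Qb N ℓ (jLevel Qb N))
    (closure_range_heckeAlphaBar_union Qb N ℓ hℓ hℓN) ?_ f
  rw [incl_beta_jLevel]
  exact closure_range_heckeAlphaBar_union Qb (N * q) ℓ hℓ hℓNq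

end Incl

section WA

variable (M : ℕ) [NeZero M]

/-- Weak approximation in `F_M`: a function of order `1` at `P` and order `0` at the places
of a finite set not containing `P`. -/
theorem exists_ord_eq_one (P : Place Qb (FN M)) (S : Finset (Place Qb (FN M))) (hP : P ∉ S) :
    ∃ f : FN M, f ≠ 0 ∧ P.ord f = 1 ∧ ∀ Q ∈ S, Q.ord f = 0 := by
  classical
  haveI := finiteDimensional_jBar M
  have hFF := Fermat.Agent.Lib.FF.isFF1_of_charZero (jBar M) (transcendental_jBar M)
  obtain ⟨f, hf0, hf⟩ := hFF.exists_ord_eq' (insert P S) (fun v => if v = P then 1 else 0)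
  refine ⟨f, hf0, ?_, fun Q hQ => ?_⟩
  · rw [hf P (Finset.mem_insert_self P S), if_pos rfl]
  · rw [hf Q (Finset.mem_insert_of_mem hQ), if_neg]
    rintro rfl
    exact hP hQ

end WA

end LevelPull

open LevelPull

local notation "Qb" => AlgebraicClosure ℚ

set_option synthInstance.maxHeartbeats 400000 in
set_option maxHeartbeats 1000000 in
/-- **CONG-LEVEL** (task 266): for a prime `q ∤ N`, the pull-back of divisor classes
`J₀(N) → J₀(N q)` is Galois-equivariant, commutes with `T_ℓ` for every prime `ℓ ∤ N q`, and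
its kernel is killed by `q + 1`. -/
theorem levelPullback_mul_prime (N q : ℕ) [NeZero N] (hq : q.Prime) (hqN : ¬ q ∣ N) :
    haveI : NeZero (N * q) := ⟨Nat.mul_ne_zero (NeZero.ne N) hq.ne_zero⟩
    Fermat.Agent.ESJ.LevelPullback N (N * q) (q + 1) := by
  haveI : NeZero q := ⟨hq.ne_zero⟩
  haveI : NeZero (N * q) := ⟨Nat.mul_ne_zero (NeZero.ne N) hq.ne_zero⟩
  haveI hPq := hasPrincipalDivisors_bar (N * q)
  have hFIa : FundamentalIdentityAlong Qb (heckeAlphaBar Qb N q) (heckeAlphaBarIntegral N q) :=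
    fundamentalIdentityAlong_heckeAlphaBar N q
  refine ⟨pic0Pull (heckeAlphaBar Qb N q) (heckeAlphaBarIntegral N q) hFIa, ?_, ?_, ?_⟩
  · -- Galois equivariance
    intro σ x
    rw [galois_smul_pic0_def, galois_smul_pic0_def]
    exact pic0Pull_smul (heckeAlphaBar Qb N q) (heckeAlphaBarIntegral N q) hFIa
      (comm_intertwines_alpha N q σ) x
  · -- Hecke equivariance
    intro ℓ hℓ x
    haveI : NeZero (ℓ : ℕ) := ⟨ℓ.2.ne_zero⟩
    have hℓN : ¬ (ℓ : ℕ) ∣ N := fun h => hℓ (Dvd.dvd.mul_right h q)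
    rw [heckeOperatorBar_apply, heckeOperatorBar_apply]
    obtain ⟨hα, hβ, hP, hfin, hFI, hN⟩ := heckeInputsAlong_bar N ℓ
    obtain ⟨hα', hβ', hP', hfin', hFI', hN'⟩ := heckeInputsAlong_bar (N * q) ℓ
    haveI := hP
    haveI := hP'
    have e1 := heckeOperatorAlong_eq hα hβ hFI hfin hN
    have e2 := heckeOperatorAlong_eq hα' hβ' hFI' hfin' hN'
    rw [e1, e2]
    exact pic0Pull_correspondence (heckeAlphaBar Qb N q) (heckeAlphaBar Qb N ℓ)
      (heckeBetaBar Qb N ℓ) (heckeAlphaBar Qb (N * q) ℓ) (heckeBetaBar Qb (N * q) ℓ)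
      (incl N q ℓ) (heckeAlphaBarIntegral N q) hα hβ hα' hβ' (isIntegral_incl N q ℓ)
      hFIa hFI hfin hN hFI' hfin' hN' (alpha_comp_alpha N q ℓ) (beta_comp_alpha N q ℓ)
      (norm_incl N q ℓ ℓ.2 hℓ) (exists_ord_eq_one (N * ℓ)) x
  · -- the kernel is killed by the degree
    intro x hx
    have hS : SumRamInertiaAlong (heckeAlphaBar Qb N q) (heckeAlphaBarIntegral N q) := by
      letI := algebraAlong (heckeAlphaBar Qb N q)
      haveI := isScalarTower_along (heckeAlphaBar Qb N q)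
      haveI := isIntegral_along (heckeAlphaBar Qb N q) (heckeAlphaBarIntegral N q)
      haveI : FiniteDimensional (FN N) (FN (N * q)) := finiteAlong_heckeAlphaBar N q
      haveI := isAlgebraic_bar N
      haveI := isAlgebraic_bar (N * q)
      exact Fermat.Agent.Lib.FF.ExtNorm.sumRamificationInertia (jBar N) (jBar (N * q))
    have hN : NormFormulaAlong Qb (heckeAlphaBar Qb N q) (finiteAlong_heckeAlphaBar N q) := by
      haveI := isAlgebraic_bar N
      haveI := isAlgebraic_bar (N * q)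
      exact normFormulaAlong _ _ (jBar N) (jBar (N * q))
    have h1 := nsmul_eq_zero_of_pic0Pull_eq_zero (heckeAlphaBar Qb N q)
      (heckeAlphaBarIntegral N q) hFIa (finiteAlong_heckeAlphaBar N q) hN hS x hx
    have h2 : finrankAlong Qb (heckeAlphaBar Qb N q) = q + 1 :=
      ConjAnalytic.finrank_alpha N q hq hqN
    rwa [h2] at h1

/-- `LocalESData` at level `N` from R1 + R2 at the level `N q` (`q` a prime not dividing `N`,
`q + 1` prime to `p`). -/
theorem localESData_of_red_mul_prime (N q p ℓ : ℕ) [NeZero N] [NeZero (N * q)] (hq : q.Prime)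
    (hqN : ¬ q ∣ N) (hℓ : ℓ.Prime) (hℓNq : ¬ ℓ ∣ N * q) (hℓp : ¬ ℓ ∣ p)
    (hcop : Nat.Coprime (q + 1) p)
    (A : ValuationSubring (AlgebraicClosure ℚ)) (hA : A.LiesOverPrime ℓ)
    (hR2 : ReductionInputsModL A (N * q)) (hR1 : RedTorsionInjective (N * q) ℓ A) :
    LocalESData N p ℓ hℓ A :=
  localESData_of_red_of_levelPullback N (N * q) p (q + 1) ℓ hℓ hℓNq hℓp hcop A hA
    (levelPullback_mul_prime N q hq hqN) hR2 hR1

/-- `LocalESData` at `ℓ = 2` and level `N` (`3 ∤ N`) from R1 + R2 at level `3 N`. -/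
theorem localESData_two_of_red (N p : ℕ) [NeZero N] [NeZero (N * 3)] (hN3 : ¬ 3 ∣ N)
    (h2 : ¬ 2 ∣ N * p)
    (A : ValuationSubring (AlgebraicClosure ℚ)) (hA : A.LiesOverPrime 2)
    (hR2 : ReductionInputsModL A (N * 3)) (hR1 : RedTorsionInjective (N * 3) 2 A) :
    LocalESData N p 2 Nat.prime_two A := by
  have h2N : ¬ 2 ∣ N := fun h => h2 (Dvd.dvd.mul_right h p)
  have h2p : ¬ 2 ∣ p := fun h => h2 (Dvd.dvd.mul_left h N)
  refine localESData_of_red_mul_prime N 3 p 2 Nat.prime_three hN3 Nat.prime_two ?_ h2p ?_ A hA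
    hR2 hR1
  · intro h
    rcases (Nat.Prime.dvd_mul Nat.prime_two).mp h with h | h
    · exact h2N h
    · omega
  · have h4 : (3 + 1 : ℕ) = 2 ^ 2 := by norm_num
    rw [h4]
    exact Nat.Coprime.pow_left 2 ((Nat.Prime.coprime_iff_not_dvd Nat.prime_two).mpr h2p)

/-- `LocalESData` at `ℓ = 3` and level `N` (`2 ∤ N`) from R1 + R2 at level `2 N`. -/
theorem localESData_three_of_red (N p : ℕ) [NeZero N] [NeZero (N * 2)] (hN2 : ¬ 2 ∣ N)
    (h3 : ¬ 3 ∣ N * p)
    (A : ValuationSubring (AlgebraicClosure ℚ)) (hA : A.LiesOverPrime 3)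
    (hR2 : ReductionInputsModL A (N * 2)) (hR1 : RedTorsionInjective (N * 2) 3 A) :
    LocalESData N p 3 Nat.prime_three A := by
  have h3N : ¬ 3 ∣ N := fun h => h3 (Dvd.dvd.mul_right h p)
  have h3p : ¬ 3 ∣ p := fun h => h3 (Dvd.dvd.mul_left h N)
  refine localESData_of_red_mul_prime N 2 p 3 Nat.prime_two hN2 Nat.prime_three ?_ h3p ?_ A hA
    hR2 hR1
  · intro h
    rcases (Nat.Prime.dvd_mul Nat.prime_three).mp h with h | h
    · exact h3N h
    · omega
  · exact (Nat.Prime.coprime_iff_not_dvd Nat.prime_three).mpr h3p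

end Fermat.Agent.ESJ.Cong

end
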