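import Mathlib
import Fermat.Agent.ESJ.Cong.LevelPull
import Fermat.Agent.ESJ.LevelDesc.Pic0Push
import Fermat.Agent.ESJ.Cong.AtkinLehner

/-!
# ES-CONG / BAD: the level push-forwards `J₀(N q) → J₀(N)` commute with the Hecke operators

For a prime `q ∤ N`, the push-forwards of divisor classes along the two degeneracy maps
`α_q` (inclusion `F_N ⊆ F_{N q}`) and `β_q` (`q ↦ q^q`),

  `levelPushAlpha N q, levelPushBeta N q : JZero (N * q) →+ JZero N`,

commute with every Hecke operator `T_ℓ`, `ℓ ∤ N q` (`levelPushAlpha_hecke`,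
`levelPushBeta_hecke`) — on all of `JZero (N * q)`, at the level of divisors — and with the
Galois action (`levelPushAlpha_smul`, `levelPushBeta_smul`).

Proof: `LevelDesc.pic0Push_correspondence` (functoriality of push-forward + base change for
divisors in the `β_ℓ`-square), with norm compatibility from generation statements:
`F_{Nqℓ} = F_{Nℓ}(J(q^{qℓ}))` (α-case) and `F_{Nqℓ} = F_{Nℓ}^{(q)}(J(q^ℓ))` (β-case; uses the
Atkin–Lehner conjugation for `J(q) ∈ ℚ̄(J(q^q), J(q^ℓ), J(q^{qℓ}))`).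
-/

set_option autoImplicit false
set_option linter.style.haveILetI false

noncomputable section

namespace Fermat.Agent.ESJ.Cong

open AlgebraicCurve ModularCurve IntermediateField
open Fermat.Agent.S24 Fermat.Agent.S28 Fermat.Agent.ESJ.HeckeInputs Fermat.Agent.ESJ.LevelDesc
open Fermat.Agent.ESJ.Cong.LevelGen Fermat.Agent.ESJ.Cong.LevelPull

namespace LevelPush

local notation "Qb" => AlgebraicClosure ℚ

section Tower

variable {K F F' F'' : Type*} [Field K] [Field F] [Field F'] [Field F'']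
  [Algebra K F] [Algebra K F'] [Algebra K F'']

/-- The tower law for `finrankAlong`. -/
theorem finrankAlong_comp (φ : F →ₐ[K] F') (ψ : F' →ₐ[K] F'') :
    finrankAlong K (ψ.comp φ) = finrankAlong K φ * finrankAlong K ψ := by
  letI i1 : Algebra F F' := algebraAlong φ
  letI i2 : Algebra F' F'' := algebraAlong ψ
  letI i3 : Algebra F F'' := algebraAlong (ψ.comp φ)
  haveI : IsScalarTower F F' F'' := IsScalarTower.of_algebraMap_eq (fun _ => rfl)
  exact (Module.finrank_mul_finrank F F' F'').symm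

end Tower

section Gen

/-- `FF` is monotone in the level. -/
theorem FF_le_FF_of_dvd {M M' : ℕ} (h : M ∣ M') (m : ℕ) : TD.FF Qb M m ≤ TD.FF Qb M' m := by
  unfold TD.FF
  apply IntermediateField.adjoin.mono
  rintro _ ⟨d, hd, rfl⟩
  exact ⟨d, Dvd.dvd.trans hd h, rfl⟩

theorem Jd_mem_FF_one {M d : ℕ} (hd : d ∣ M) : TD.Jd Qb d ∈ TD.FF Qb M 1 := by
  have := TD.Jd_mem_FF Qb (N := M) (m := 1) hd
  rwa [one_mul] at this

/-- `FF q m` for a prime `q` is generated by `J(q^m)` and `J(q^(m q))`. -/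
theorem FF_prime_le {q : ℕ} (hq : q.Prime) (m : ℕ)
    (G : IntermediateField Qb (LaurentSeries Qb)) (h1 : TD.Jd Qb m ∈ G)
    (h2 : TD.Jd Qb (m * q) ∈ G) : TD.FF Qb q m ≤ G := by
  unfold TD.FF
  rw [IntermediateField.adjoin_le_iff]
  rintro _ ⟨d, hd, rfl⟩
  rcases (Nat.dvd_prime hq).mp hd with rfl | rfl
  · show TD.Jd Qb (m * 1) ∈ G
    rwa [mul_one]
  · exact h2

/-- A criterion for a set of elements of `F_M` to generate it as a field: the Laurent series of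
a generating set of `F_M` are among the closure. -/
theorem closure_eq_top_of_adjoin {M : ℕ} [NeZero M] (T : Set (FN M))
    (hc : ∀ c : Qb, algebraMap Qb (FN M) c ∈ Subfield.closure T)
    (X : Set (LaurentSeries Qb))
    (hX : ∀ z ∈ X, ∃ h : z ∈ modularFunctionFieldBar M, (⟨z, h⟩ : FN M) ∈ Subfield.closure T)
    (hgen : TD.FF Qb M 1 ≤ IntermediateField.adjoin Qb X) :
    Subfield.closure T = ⊤ := by
  set S' : Subfield (LaurentSeries Qb) :=
    (Subfield.closure T).map ((modularFunctionFieldBar M).val :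
      FN M →+* LaurentSeries Qb) with hS'
  have hconst : ∀ c : Qb, algebraMap Qb (LaurentSeries Qb) c ∈ S' := fun c =>
    Subfield.mem_map.mpr ⟨algebraMap Qb (FN M) c, hc c, rfl⟩
  have hle : IntermediateField.adjoin Qb X ≤ Subfield.toIntermediateField S' hconst := by
    rw [IntermediateField.adjoin_le_iff]
    intro z hz
    obtain ⟨h, hmem⟩ := hX z hz
    exact Subfield.mem_map.mpr ⟨⟨z, h⟩, hmem, rfl⟩
  rw [eq_top_iff]
  rintro ⟨x, hx⟩ -
  have hx' : x ∈ TD.FF Qb M 1 := by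
    rw [← laurentBaseChange_full_eq]; exact hx
  obtain ⟨s, hs, hsx⟩ := Subfield.mem_map.mp (hle (hgen hx'))
  have hsx' : s = ⟨x, hx⟩ := Subtype.ext hsx
  rw [← hsx']
  exact hs

theorem mem_bar_of_mem_FF {M : ℕ} [NeZero M] {z : LaurentSeries Qb} (hz : z ∈ TD.FF Qb M 1) :
    z ∈ modularFunctionFieldBar M := by
  show z ∈ laurentBaseChange Qb (modularFunctionFieldFull M)
  rw [laurentBaseChange_full_eq]; exact hz

theorem mem_FF_of_mem_bar {M : ℕ} [NeZero M] (x : FN M) :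
    (x : LaurentSeries Qb) ∈ TD.FF Qb M 1 := by
  rw [← laurentBaseChange_full_eq]; exact x.2

end Gen

section Alpha

variable (N q ℓ : ℕ) [NeZero N] [NeZero q] [NeZero ℓ]

/-- `[F_{Nqℓ} : F_{Nℓ}] = q + 1`. -/
theorem finrank_incl (hq : q.Prime) (hqN : ¬ q ∣ N) (hℓ : ℓ.Prime) (hℓNq : ¬ ℓ ∣ N * q) :
    finrankAlong Qb (incl N q ℓ) = q + 1 := by
  have hℓN : ¬ ℓ ∣ N := fun h => hℓNq (Dvd.dvd.mul_right h q)
  have h1 := finrankAlong_comp (heckeAlphaBar Qb N q) (heckeAlphaBar Qb (N * q) ℓ)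
  have h2 := finrankAlong_comp (heckeAlphaBar Qb N ℓ) (incl N q ℓ)
  have e1 : finrankAlong Qb (heckeAlphaBar Qb N q) = q + 1 :=
    ConjAnalytic.finrank_alpha N q hq hqN
  have e2 : finrankAlong Qb (heckeAlphaBar Qb (N * q) ℓ) = ℓ + 1 :=
    ConjAnalytic.finrank_alpha (N * q) ℓ hℓ hℓNq
  have e3 : finrankAlong Qb (heckeAlphaBar Qb N ℓ) = ℓ + 1 :=
    ConjAnalytic.finrank_alpha N ℓ hℓ hℓN
  rw [alpha_comp_alpha N q ℓ, h2, e1, e2, e3] at h1
  have h3 : 0 < ℓ + 1 := Nat.succ_pos ℓ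
  have h4 : (ℓ + 1) * finrankAlong Qb (incl N q ℓ) = (ℓ + 1) * (q + 1) := by
    rw [h1, mul_comm]
  exact Nat.eq_of_mul_eq_mul_left h3 h4

/-- `F_{Nqℓ}` is generated over `F_{Nℓ}` by `J(q^{qℓ})`. -/
theorem closure_range_incl_union (hq : q.Prime) (hqN : ¬ q ∣ N) (hℓ : ℓ.Prime)
    (hℓNq : ¬ ℓ ∣ N * q) :
    Subfield.closure (Set.range (incl N q ℓ) ∪
      {heckeBetaBar Qb (N * q) ℓ (heckeBetaBar Qb N q (jLevel Qb N))}) = ⊤ := by
  have hN0 : N ≠ 0 := NeZero.ne N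
  have hNq0 : N * q ≠ 0 := Nat.mul_ne_zero hN0 hq.ne_zero
  have hθ : ((heckeBetaBar Qb (N * q) ℓ (heckeBetaBar Qb N q (jLevel Qb N)) :
      FN (N * q * ℓ)) : LaurentSeries Qb) = TD.Jd Qb (ℓ * q) := by
    rw [coe_heckeBetaBar, coe_heckeBetaBar_jLevel, TD.qExpand_Jd Qb ℓ q hq.ne_zero]
  refine closure_eq_top_of_adjoin _ (fun c => ?_)
    ((TD.FF Qb (N * ℓ) 1 : Set (LaurentSeries Qb)) ∪ {TD.Jd Qb (ℓ * q)}) ?_ ?_
  · rw [← (incl N q ℓ).commutes c]
    exact Subfield.subset_closure (Or.inl (Set.mem_range_self _))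
  · rintro z (hz | hz)
    · have hz' : z ∈ TD.FF Qb (N * ℓ) 1 := hz
      have hzb : z ∈ modularFunctionFieldBar (N * ℓ) := mem_bar_of_mem_FF hz'
      refine ⟨le_mul_mul N q ℓ hzb, Subfield.subset_closure (Or.inl ⟨⟨z, hzb⟩, ?_⟩)⟩
      exact Subtype.ext (coe_incl N q ℓ ⟨z, hzb⟩)
    · rw [Set.mem_singleton_iff] at hz
      subst hz
      refine ⟨hθ ▸ (heckeBetaBar Qb (N * q) ℓ (heckeBetaBar Qb N q (jLevel Qb N))).2, ?_⟩
      refine Subfield.subset_closure (Or.inr ?_)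
      rw [Set.mem_singleton_iff]
      exact Subtype.ext hθ.symm
  · set G := IntermediateField.adjoin Qb
      ((TD.FF Qb (N * ℓ) 1 : Set (LaurentSeries Qb)) ∪ {TD.Jd Qb (ℓ * q)}) with hG
    have hGF : TD.FF Qb (N * ℓ) 1 ≤ G := fun z hz =>
      IntermediateField.subset_adjoin Qb _ (Or.inl hz)
    have hGθ : TD.Jd Qb (ℓ * q) ∈ G := IntermediateField.subset_adjoin Qb _ (Or.inr rfl)
    have hJℓ : TD.Jd Qb ℓ ∈ G := hGF (Jd_mem_FF_one (dvd_mul_left ℓ N))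
    have hJ1 : TD.Jd Qb 1 ∈ G := hGF (Jd_mem_FF_one (one_dvd _))
    -- `J(q^q) ∈ G` by the reverse generation at level `q ℓ`
    have hJq : TD.Jd Qb q ∈ G := by
      have h1 : TD.Jd Qb q ∈ TD.FF Qb (q * ℓ) 1 := Jd_mem_FF_one (dvd_mul_right q ℓ)
      have h2 := FF_mul_le_adjoin_rev Qb q ℓ hq.ne_zero hℓ h1
      refine (IntermediateField.adjoin_le_iff.mpr ?_) h2
      rintro s (hs | hs)
      · exact FF_prime_le hq ℓ G hJℓ hGθ hs
      · rw [Set.mem_singleton_iff] at hs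
        rw [hs]; exact hJ1
    -- `F_{Nq} ⊆ G`
    have hNq : TD.FF Qb (N * q) 1 ≤ G := by
      refine (FF_mul_le_adjoin_fwd Qb N q hN0 hq hqN).trans
        (IntermediateField.adjoin_le_iff.mpr ?_)
      rintro s (hs | hs)
      · exact hGF (FF_le_FF_of_dvd (dvd_mul_right N ℓ) 1 hs)
      · rw [Set.mem_singleton_iff] at hs
        rw [hs]; exact hJq
    refine (FF_mul_le_adjoin_fwd Qb (N * q) ℓ hNq0 hℓ hℓNq).trans
      (IntermediateField.adjoin_le_iff.mpr ?_)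
    rintro s (hs | hs)
    · exact hNq hs
    · rw [Set.mem_singleton_iff] at hs
      rw [hs]; exact hJℓ

/-- Norm compatibility for the square `β_ℓ ∘ α_q = incl ∘ β_ℓ`. -/
theorem norm_beta_incl (hq : q.Prime) (hqN : ¬ q ∣ N) (hℓ : ℓ.Prime) (hℓNq : ¬ ℓ ∣ N * q)
    (f : FN (N * q)) :
    (letI := algebraAlong (incl N q ℓ);
      Algebra.norm (FN (N * ℓ)) (heckeBetaBar Qb (N * q) ℓ f))
      = heckeBetaBar Qb N ℓ
          (letI := algebraAlong (heckeAlphaBar Qb N q); Algebra.norm (FN N) f) := by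
  have hdeg : finrankAlong Qb (incl N q ℓ) = finrankAlong Qb (heckeAlphaBar Qb N q) :=
    (finrank_incl N q ℓ hq hqN hℓ hℓNq).trans (ConjAnalytic.finrank_alpha N q hq hqN).symm
  exact norm_along_of_closure_eq_top (heckeBetaBar Qb N ℓ) (heckeAlphaBar Qb N q)
    (incl N q ℓ) (heckeBetaBar Qb (N * q) ℓ) (beta_comp_alpha N q ℓ).symm
    (finiteAlong_heckeAlphaBar N q) hdeg (heckeBetaBar Qb N q (jLevel Qb N))
    (closure_range_heckeAlphaBar_union Qb N q hq hqN)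
    (closure_range_incl_union N q ℓ hq hqN hℓ hℓNq) f

theorem normFormulaAlong_alpha (N ℓ : ℕ) [NeZero N] [NeZero ℓ] :
    NormFormulaAlong Qb (heckeAlphaBar Qb N ℓ) (finiteAlong_heckeAlphaBar N ℓ) := by
  haveI := isAlgebraic_bar N
  haveI := isAlgebraic_bar (N * ℓ)
  haveI := hasPrincipalDivisors_bar (N * ℓ)
  exact normFormulaAlong _ _ (jBar N) (jBar (N * ℓ))

theorem normFormulaAlong_incl :
    NormFormulaAlong Qb (incl N q ℓ) (finiteAlong_incl N q ℓ) := by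
  haveI := isAlgebraic_bar (N * ℓ)
  haveI := isAlgebraic_bar (N * q * ℓ)
  haveI := hasPrincipalDivisors_bar (N * q * ℓ)
  exact normFormulaAlong _ _ (jBar (N * ℓ)) (jBar (N * q * ℓ))

end Alpha

section Beta

variable (N q ℓ : ℕ) [NeZero N] [NeZero q] [NeZero ℓ]

omit [NeZero N] [NeZero q] [NeZero ℓ] in
theorem bar_mul_right_comm :
    modularFunctionFieldBar (N * ℓ * q) = modularFunctionFieldBar (N * q * ℓ) := by
  rw [mul_right_comm]

/-- The substitution `q ↦ q^q` as an embedding `F_{Nℓ} → F_{Nqℓ}`. -/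
def inclBeta : FN (N * ℓ) →ₐ[Qb] FN (N * q * ℓ) :=
  (IntermediateField.inclusion (le_of_eq (bar_mul_right_comm N q ℓ))).comp
    (heckeBetaBar Qb (N * ℓ) q)

@[simp]
theorem coe_inclBeta (x : FN (N * ℓ)) :
    ((inclBeta N q ℓ x : FN (N * q * ℓ)) : LaurentSeries Qb)
      = qExpand Qb q (x : LaurentSeries Qb) :=
  rfl

theorem finiteAlong_inclBeta : FiniteAlong Qb (inclBeta N q ℓ) :=
  haveI := finiteDimensional_jBar (N * q * ℓ)
  finiteAlong _ (transcendental_jBar (N * ℓ)) (jBar (N * q * ℓ))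

theorem isIntegral_inclBeta : (inclBeta N q ℓ).toRingHom.IsIntegral :=
  isIntegral_of_finiteAlong _ (finiteAlong_inclBeta N q ℓ)

theorem normFormulaAlong_inclBeta :
    NormFormulaAlong Qb (inclBeta N q ℓ) (finiteAlong_inclBeta N q ℓ) := by
  haveI := isAlgebraic_bar (N * ℓ)
  haveI := isAlgebraic_bar (N * q * ℓ)
  haveI := hasPrincipalDivisors_bar (N * q * ℓ)
  exact normFormulaAlong _ _ (jBar (N * ℓ)) (jBar (N * q * ℓ))

theorem alpha_comp_beta :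
    (heckeAlphaBar Qb (N * q) ℓ).comp (heckeBetaBar Qb N q)
      = (inclBeta N q ℓ).comp (heckeAlphaBar Qb N ℓ) := by
  refine AlgHom.ext fun x => Subtype.ext ?_
  rw [AlgHom.comp_apply, AlgHom.comp_apply, coe_heckeAlphaBar, coe_heckeBetaBar, coe_inclBeta,
    coe_heckeAlphaBar]

theorem beta_comp_beta :
    (heckeBetaBar Qb (N * q) ℓ).comp (heckeBetaBar Qb N q)
      = (inclBeta N q ℓ).comp (heckeBetaBar Qb N ℓ) := by
  refine AlgHom.ext fun x => Subtype.ext ?_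
  rw [AlgHom.comp_apply, AlgHom.comp_apply, coe_heckeBetaBar, coe_heckeBetaBar, coe_inclBeta,
    coe_heckeBetaBar, qExpand_qExpand, qExpand_qExpand]
  exact qExpand_congr (mul_comm ℓ q) _

/-- `[F_{Nqℓ} : F_{Nℓ}^{(q)}] = [F_{Nq} : F_N^{(q)}]`. -/
theorem finrank_inclBeta (hℓ : ℓ.Prime) (hℓNq : ¬ ℓ ∣ N * q) :
    finrankAlong Qb (inclBeta N q ℓ) = finrankAlong Qb (heckeBetaBar Qb N q) := by
  have hℓN : ¬ ℓ ∣ N := fun h => hℓNq (Dvd.dvd.mul_right h q)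
  have h1 := finrankAlong_comp (heckeBetaBar Qb N q) (heckeAlphaBar Qb (N * q) ℓ)
  have h2 := finrankAlong_comp (heckeAlphaBar Qb N ℓ) (inclBeta N q ℓ)
  have e2 : finrankAlong Qb (heckeAlphaBar Qb (N * q) ℓ) = ℓ + 1 :=
    ConjAnalytic.finrank_alpha (N * q) ℓ hℓ hℓNq
  have e3 : finrankAlong Qb (heckeAlphaBar Qb N ℓ) = ℓ + 1 :=
    ConjAnalytic.finrank_alpha N ℓ hℓ hℓN
  rw [alpha_comp_beta N q ℓ, h2, e2, e3] at h1
  have h3 : 0 < ℓ + 1 := Nat.succ_pos ℓ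
  have h4 : (ℓ + 1) * finrankAlong Qb (inclBeta N q ℓ)
      = (ℓ + 1) * finrankAlong Qb (heckeBetaBar Qb N q) := by
    rw [h1, mul_comm]
  exact Nat.eq_of_mul_eq_mul_left h3 h4

omit [NeZero N] [NeZero ℓ] in
/-- **The dual gcd trick**: `J(q) ∈ ℚ̄(J(q^q), J(q^ℓ), J(q^{qℓ}))` for distinct primes `q`, `ℓ`
(Atkin–Lehner conjugate of the reverse generation `F_{qℓ} = F_q^{(ℓ)}(J(q))`). -/
theorem Jd_one_mem_adjoin (hq : q.Prime) (hℓ : ℓ.Prime) (hne : q ≠ ℓ) :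
    TD.Jd Qb 1 ∈ IntermediateField.adjoin Qb
      ({TD.Jd Qb q, TD.Jd Qb ℓ, TD.Jd Qb (q * ℓ)} : Set (LaurentSeries Qb)) := by
  set G := IntermediateField.adjoin Qb
    ({TD.Jd Qb q, TD.Jd Qb ℓ, TD.Jd Qb (q * ℓ)} : Set (LaurentSeries Qb)) with hG
  have hGq : TD.Jd Qb q ∈ G :=
    IntermediateField.subset_adjoin Qb _ (Set.mem_insert _ _)
  have hGℓ : TD.Jd Qb ℓ ∈ G :=
    IntermediateField.subset_adjoin Qb _ (Set.mem_insert_of_mem _ (Set.mem_insert _ _))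
  have hGqℓ : TD.Jd Qb (q * ℓ) ∈ G :=
    IntermediateField.subset_adjoin Qb _
      (Set.mem_insert_of_mem _ (Set.mem_insert_of_mem _ rfl))
  have hqℓ : ¬ q ∣ ℓ := fun h => hne ((Nat.prime_dvd_prime_iff_eq hq hℓ).mp h)
  have : NeZero (q : Qb) := ⟨Nat.cast_ne_zero.mpr hq.ne_zero⟩
  obtain ⟨ζ₀, hζ₀⟩ := HasEnoughRootsOfUnity.exists_primitiveRoot Qb q
  obtain ⟨M, w, hM, hwq, hwE, -⟩ := AtkinLehner.exists_AL Qb ℓ q hℓ.ne_zero hq hqℓ
    (hζ₀.isUnit hq.ne_zero).unit (by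
      rw [← IsPrimitiveRoot.coe_units_iff]
      exact hζ₀)
  -- the subfield of elements whose conjugate lies in `G`
  let T : Subfield (LaurentSeries Qb) :=
    { carrier := {x | ∃ h : x ∈ M, w ⟨x, h⟩ ∈ G}
      mul_mem' := by
        rintro x y ⟨hx, hx'⟩ ⟨hy, hy'⟩
        refine ⟨mul_mem hx hy, ?_⟩
        rw [show (⟨x * y, mul_mem hx hy⟩ : M) = ⟨x, hx⟩ * ⟨y, hy⟩ from rfl, map_mul]
        exact mul_mem hx' hy'
      one_mem' := by
        refine ⟨one_mem M, ?_⟩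
        rw [show (⟨1, one_mem M⟩ : M) = 1 from rfl, map_one]
        exact one_mem G
      add_mem' := by
        rintro x y ⟨hx, hx'⟩ ⟨hy, hy'⟩
        refine ⟨add_mem hx hy, ?_⟩
        rw [show (⟨x + y, add_mem hx hy⟩ : M) = ⟨x, hx⟩ + ⟨y, hy⟩ from rfl, map_add]
        exact add_mem hx' hy'
      zero_mem' := by
        refine ⟨zero_mem M, ?_⟩
        rw [show (⟨0, zero_mem M⟩ : M) = 0 from rfl, map_zero]
        exact zero_mem G
      neg_mem' := by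
        rintro x ⟨hx, hx'⟩
        refine ⟨neg_mem hx, ?_⟩
        rw [show (⟨-x, neg_mem hx⟩ : M) = -⟨x, hx⟩ from rfl, map_neg]
        exact neg_mem hx'
      inv_mem' := by
        rintro x ⟨hx, hx'⟩
        refine ⟨inv_mem hx, ?_⟩
        rw [show (⟨x⁻¹, inv_mem hx⟩ : M) = (⟨x, hx⟩ : M)⁻¹ from rfl, map_inv₀]
        exact inv_mem hx' }
  have hT : ∀ x, x ∈ T ↔ ∃ h : x ∈ M, w ⟨x, h⟩ ∈ G := fun x => Iff.rfl
  -- `w f = f(q^q)` puts `f ∈ F_ℓ` into `T` as soon as `f(q^q) ∈ G`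
  have hTE : ∀ f ∈ TD.FF Qb ℓ 1, qExpand Qb q f ∈ G → f ∈ T := by
    intro f hf hfG
    obtain ⟨h, e⟩ := hwE f hf
    refine (hT f).mpr ⟨h, ?_⟩
    rw [e]
    exact hfG
  have hTq : ∀ f ∈ TD.FF Qb ℓ 1, f ∈ G → qExpand Qb q f ∈ T := by
    intro f hf hfG
    obtain ⟨h, e⟩ := hwq f hf
    refine (hT _).mpr ⟨h, ?_⟩
    rw [e]
    exact hfG
  have hJ1F : TD.Jd Qb 1 ∈ TD.FF Qb ℓ 1 := Jd_mem_FF_one (one_dvd ℓ)
  have hJℓF : TD.Jd Qb ℓ ∈ TD.FF Qb ℓ 1 := Jd_mem_FF_one (dvd_refl ℓ)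
  have hconst : ∀ c : Qb, algebraMap Qb (LaurentSeries Qb) c ∈ T := by
    intro c
    refine hTE _ ((TD.FF Qb ℓ 1).algebraMap_mem c) ?_
    rw [algebraMap_laurentSeries_eq_single, qExpand_single, mul_zero,
      ← algebraMap_laurentSeries_eq_single]
    exact G.algebraMap_mem c
  have h1T : TD.Jd Qb 1 ∈ T := by
    refine hTE _ hJ1F ?_
    rw [TD.qExpand_Jd Qb q 1 one_ne_zero, mul_one]
    exact hGq
  have hℓT : TD.Jd Qb ℓ ∈ T := by
    refine hTE _ hJℓF ?_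
    rw [TD.qExpand_Jd Qb q ℓ hℓ.ne_zero]
    exact hGqℓ
  have hℓqT : TD.Jd Qb (ℓ * q) ∈ T := by
    have := hTq _ hJℓF hGℓ
    rwa [TD.qExpand_Jd Qb q ℓ hℓ.ne_zero, mul_comm q ℓ] at this
  -- hence `J(q^q) ∈ T` by the reverse generation at level `q ℓ`
  have hqT : TD.Jd Qb q ∈ Subfield.toIntermediateField T hconst := by
    have h1 : TD.Jd Qb q ∈ TD.FF Qb (q * ℓ) 1 := Jd_mem_FF_one (dvd_mul_right q ℓ)
    have h2 := FF_mul_le_adjoin_rev Qb q ℓ hq.ne_zero hℓ h1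
    refine (IntermediateField.adjoin_le_iff.mpr ?_) h2
    rintro s (hs | hs)
    · exact FF_prime_le hq ℓ (Subfield.toIntermediateField T hconst) hℓT hℓqT hs
    · rw [Set.mem_singleton_iff] at hs
      rw [hs]; exact h1T
  obtain ⟨h, hw⟩ := (hT _).mp hqT
  obtain ⟨h', e⟩ := hwq _ hJ1F
  have hJq : qExpand Qb q (TD.Jd Qb 1) = TD.Jd Qb q := by
    rw [TD.qExpand_Jd Qb q 1 one_ne_zero, mul_one]
  have e' : w ⟨TD.Jd Qb q, h⟩ = TD.Jd Qb 1 := by
    rw [← e]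
    congr 1
    exact Subtype.ext hJq.symm
  rw [← e']
  exact hw

/-- `F_{Nq}` is generated over `F_N^{(q)}` by `J(q)`. -/
theorem closure_range_heckeBetaBar_union (hq : q.Prime) :
    Subfield.closure (Set.range (heckeBetaBar Qb N q) ∪
      {heckeAlphaBar Qb N q (jLevel Qb N)}) = ⊤ := by
  have hN0 : N ≠ 0 := NeZero.ne N
  have hθ : ((heckeAlphaBar Qb N q (jLevel Qb N) : FN (N * q)) : LaurentSeries Qb)
      = TD.Jd Qb 1 := by
    rw [coe_heckeAlphaBar, coe_jLevel]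
  refine closure_eq_top_of_adjoin _ (fun c => ?_)
    ((TD.FF Qb N q : Set (LaurentSeries Qb)) ∪ {TD.Jd Qb 1}) ?_
    (FF_mul_le_adjoin_rev Qb N q hN0 hq)
  · rw [← (heckeBetaBar Qb N q).commutes c]
    exact Subfield.subset_closure (Or.inl (Set.mem_range_self _))
  · rintro z (hz | hz)
    · have hz' : z ∈ TD.FF Qb N q := hz
      rw [← StepCore.FF_map_one Qb hN0 q] at hz'
      obtain ⟨y, hy, rfl⟩ := hz'
      have hyb : y ∈ modularFunctionFieldBar N := mem_bar_of_mem_FF hy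
      exact ⟨(heckeBetaBar Qb N q ⟨y, hyb⟩).2,
        Subfield.subset_closure (Or.inl ⟨⟨y, hyb⟩, rfl⟩)⟩
    · rw [Set.mem_singleton_iff] at hz
      subst hz
      refine ⟨hθ ▸ (heckeAlphaBar Qb N q (jLevel Qb N)).2, ?_⟩
      refine Subfield.subset_closure (Or.inr ?_)
      rw [Set.mem_singleton_iff]
      exact Subtype.ext hθ.symm

/-- `F_{Nqℓ}` is generated over `F_{Nℓ}^{(q)}` by `J(q^ℓ)`. -/
theorem closure_range_inclBeta_union (hq : q.Prime) (hℓ : ℓ.Prime) (hne : q ≠ ℓ) :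
    Subfield.closure (Set.range (inclBeta N q ℓ) ∪
      {heckeBetaBar Qb (N * q) ℓ (heckeAlphaBar Qb N q (jLevel Qb N))}) = ⊤ := by
  have hN0 : N ≠ 0 := NeZero.ne N
  have hNℓ0 : N * ℓ ≠ 0 := Nat.mul_ne_zero hN0 hℓ.ne_zero
  have hθ : ((heckeBetaBar Qb (N * q) ℓ (heckeAlphaBar Qb N q (jLevel Qb N)) :
      FN (N * q * ℓ)) : LaurentSeries Qb) = TD.Jd Qb ℓ := by
    rw [coe_heckeBetaBar, coe_heckeAlphaBar, coe_jLevel,
      TD.qExpand_Jd Qb ℓ 1 one_ne_zero, mul_one]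
  refine closure_eq_top_of_adjoin _ (fun c => ?_)
    ((TD.FF Qb (N * ℓ) q : Set (LaurentSeries Qb)) ∪ {TD.Jd Qb ℓ}) ?_ ?_
  · rw [← (inclBeta N q ℓ).commutes c]
    exact Subfield.subset_closure (Or.inl (Set.mem_range_self _))
  · rintro z (hz | hz)
    · have hz' : z ∈ TD.FF Qb (N * ℓ) q := hz
      rw [← StepCore.FF_map_one Qb hNℓ0 q] at hz'
      obtain ⟨y, hy, rfl⟩ := hz'
      have hyb : y ∈ modularFunctionFieldBar (N * ℓ) := mem_bar_of_mem_FF hy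
      exact ⟨(inclBeta N q ℓ ⟨y, hyb⟩).2,
        Subfield.subset_closure (Or.inl ⟨⟨y, hyb⟩, rfl⟩)⟩
    · rw [Set.mem_singleton_iff] at hz
      subst hz
      refine ⟨hθ ▸ (heckeBetaBar Qb (N * q) ℓ (heckeAlphaBar Qb N q (jLevel Qb N))).2, ?_⟩
      refine Subfield.subset_closure (Or.inr ?_)
      rw [Set.mem_singleton_iff]
      exact Subtype.ext hθ.symm
  · set G := IntermediateField.adjoin Qb
      ((TD.FF Qb (N * ℓ) q : Set (LaurentSeries Qb)) ∪ {TD.Jd Qb ℓ}) with hG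
    have hGF : TD.FF Qb (N * ℓ) q ≤ G := fun z hz =>
      IntermediateField.subset_adjoin Qb _ (Or.inl hz)
    have hJℓ : TD.Jd Qb ℓ ∈ G := IntermediateField.subset_adjoin Qb _ (Or.inr rfl)
    have hJq : TD.Jd Qb q ∈ G := by
      have := hGF (TD.Jd_mem_FF Qb (N := N * ℓ) (m := q) (one_dvd _))
      rwa [mul_one] at this
    have hJqℓ : TD.Jd Qb (q * ℓ) ∈ G :=
      hGF (TD.Jd_mem_FF Qb (N := N * ℓ) (m := q) (dvd_mul_left ℓ N))
    have hJ1 : TD.Jd Qb 1 ∈ G := by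
      refine (IntermediateField.adjoin_le_iff.mpr ?_) (Jd_one_mem_adjoin q ℓ hq hℓ hne)
      rintro s (hs | hs | hs)
      · rw [hs]; exact hJq
      · rw [hs]; exact hJℓ
      · rw [Set.mem_singleton_iff] at hs
        rw [hs]; exact hJqℓ
    have hrev := FF_mul_le_adjoin_rev Qb (N * ℓ) q hNℓ0 hq
    rw [mul_right_comm] at hrev
    refine hrev.trans (IntermediateField.adjoin_le_iff.mpr ?_)
    rintro s (hs | hs)
    · exact hGF hs
    · rw [Set.mem_singleton_iff] at hs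
      rw [hs]; exact hJ1

/-- Norm compatibility for the square `β_ℓ ∘ β_q = inclBeta ∘ β_ℓ`. -/
theorem norm_beta_inclBeta (hq : q.Prime) (hℓ : ℓ.Prime) (hℓNq : ¬ ℓ ∣ N * q)
    (f : FN (N * q)) :
    (letI := algebraAlong (inclBeta N q ℓ);
      Algebra.norm (FN (N * ℓ)) (heckeBetaBar Qb (N * q) ℓ f))
      = heckeBetaBar Qb N ℓ
          (letI := algebraAlong (heckeBetaBar Qb N q); Algebra.norm (FN N) f) := by
  have hne : q ≠ ℓ := fun h => hℓNq (h ▸ dvd_mul_left q N)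
  exact norm_along_of_closure_eq_top (heckeBetaBar Qb N ℓ) (heckeBetaBar Qb N q)
    (inclBeta N q ℓ) (heckeBetaBar Qb (N * q) ℓ) (beta_comp_beta N q ℓ).symm
    (finiteAlong_heckeBetaBar N q) (finrank_inclBeta N q ℓ hℓ hℓNq)
    (heckeAlphaBar Qb N q (jLevel Qb N))
    (closure_range_heckeBetaBar_union N q hq)
    (closure_range_inclBeta_union N q ℓ hq hℓ hne) f

end Beta

end LevelPush

open LevelPush

local notation "Qb" => AlgebraicClosure ℚ

/-- Push-forward of divisor classes `J₀(N q) → J₀(N)` along the inclusion `α_q : F_N ⊆ F_{Nq}`. -/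
def levelPushAlpha (N q : ℕ) [NeZero N] [NeZero q] : JZero (N * q) →+ JZero N :=
  pic0Push (heckeAlphaBar Qb N q) (heckeAlphaBarIntegral N q) (finiteAlong_heckeAlphaBar N q)
    (normFormulaAlong_alpha N q)

/-- Push-forward of divisor classes `J₀(N q) → J₀(N)` along `β_q : F_N → F_{Nq}`, `q ↦ q^q`. -/
def levelPushBeta (N q : ℕ) [NeZero N] [NeZero q] : JZero (N * q) →+ JZero N :=
  pic0Push (heckeBetaBar Qb N q) (heckeBetaBarIntegral N q) (finiteAlong_heckeBetaBar N q)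
    (normFormulaAlong_heckeBetaBar N q)

theorem levelPushAlpha_mk (N q : ℕ) [NeZero N] [NeZero q]
    (D : Divisor.degZero (K := Qb) (F := FN (N * q))) :
    levelPushAlpha N q (Pic0.mk D)
      = Pic0.mk (pushDegZero (heckeAlphaBar Qb N q) (heckeAlphaBarIntegral N q) D) :=
  rfl

theorem levelPushBeta_mk (N q : ℕ) [NeZero N] [NeZero q]
    (D : Divisor.degZero (K := Qb) (F := FN (N * q))) :
    levelPushBeta N q (Pic0.mk D)
      = Pic0.mk (pushDegZero (heckeBetaBar Qb N q) (heckeBetaBarIntegral N q) D) :=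
  rfl

/-- `α_{q,*}` is Galois-equivariant. -/
theorem levelPushAlpha_smul (N q : ℕ) [NeZero N] [NeZero q] (σ : Qb ≃ₐ[ℚ] Qb)
    (x : JZero (N * q)) : levelPushAlpha N q (σ • x) = σ • levelPushAlpha N q x := by
  rw [galois_smul_pic0_def, galois_smul_pic0_def]
  exact pic0Push_smul (heckeAlphaBar Qb N q) (heckeAlphaBarIntegral N q)
    (finiteAlong_heckeAlphaBar N q) (normFormulaAlong_alpha N q)
    (comm_intertwines_alpha N q σ) x

/-- `β_{q,*}` is Galois-equivariant. -/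
theorem levelPushBeta_smul (N q : ℕ) [NeZero N] [NeZero q] (σ : Qb ≃ₐ[ℚ] Qb)
    (x : JZero (N * q)) : levelPushBeta N q (σ • x) = σ • levelPushBeta N q x := by
  rw [galois_smul_pic0_def, galois_smul_pic0_def]
  exact pic0Push_smul (heckeBetaBar Qb N q) (heckeBetaBarIntegral N q)
    (finiteAlong_heckeBetaBar N q) (normFormulaAlong_heckeBetaBar N q)
    (comm_intertwines_beta N q σ) x

set_option synthInstance.maxHeartbeats 400000 in
set_option maxHeartbeats 1000000 in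
/-- **`α_{q,*} : J₀(N q) → J₀(N)` commutes with `T_ℓ`** for every prime `ℓ ∤ N q` (`q ∤ N`
prime), on all of `J₀(N q)`. -/
theorem levelPushAlpha_hecke (N q : ℕ) [NeZero N] [NeZero q] [NeZero (N * q)] (hq : q.Prime)
    (hqN : ¬ q ∣ N) (ℓ : Nat.Primes) (hℓ : ¬ (ℓ : ℕ) ∣ N * q) (x : JZero (N * q)) :
    levelPushAlpha N q (heckeOperatorBar (N * q) ℓ x)
      = heckeOperatorBar N ℓ (levelPushAlpha N q x) := by
  haveI : NeZero (ℓ : ℕ) := ⟨ℓ.2.ne_zero⟩
  haveI hPq := hasPrincipalDivisors_bar (N * q)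
  rw [heckeOperatorBar_apply, heckeOperatorBar_apply]
  obtain ⟨hα, hβ, hP, hfin, hFI, hN⟩ := heckeInputsAlong_bar N ℓ
  obtain ⟨hα', hβ', hP', hfin', hFI', hN'⟩ := heckeInputsAlong_bar (N * q) ℓ
  haveI := hP
  haveI := hP'
  have e1 := heckeOperatorAlong_eq hα hβ hFI hfin hN
  have e2 := heckeOperatorAlong_eq hα' hβ' hFI' hfin' hN'
  rw [e1, e2]
  exact pic0Push_correspondence (heckeAlphaBar Qb N q) (heckeAlphaBar Qb N ℓ)
    (heckeBetaBar Qb N ℓ) (heckeAlphaBar Qb (N * q) ℓ) (heckeBetaBar Qb (N * q) ℓ)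
    (incl N q ℓ) (heckeAlphaBarIntegral N q) hα hβ hα' hβ' (isIntegral_incl N q ℓ)
    hFI hfin hN hFI' hfin' hN' (alpha_comp_alpha N q ℓ) (beta_comp_alpha N q ℓ)
    (finiteAlong_heckeAlphaBar N q) (normFormulaAlong_alpha N q)
    (finiteAlong_incl N q ℓ) (normFormulaAlong_incl N q ℓ)
    (norm_beta_incl N q ℓ hq hqN ℓ.2 hℓ) (exists_ord_eq_one (N * q))
    (deg_eq_one_bar (N * q)) (deg_eq_one_bar (N * ℓ)) (deg_eq_one_bar (N * q * ℓ)) x

set_option synthInstance.maxHeartbeats 400000 in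
set_option maxHeartbeats 1000000 in
/-- **`β_{q,*} : J₀(N q) → J₀(N)` commutes with `T_ℓ`** for every prime `ℓ ∤ N q` (`q` prime),
on all of `J₀(N q)`. -/
theorem levelPushBeta_hecke (N q : ℕ) [NeZero N] [NeZero q] [NeZero (N * q)] (hq : q.Prime)
    (ℓ : Nat.Primes) (hℓ : ¬ (ℓ : ℕ) ∣ N * q) (x : JZero (N * q)) :
    levelPushBeta N q (heckeOperatorBar (N * q) ℓ x)
      = heckeOperatorBar N ℓ (levelPushBeta N q x) := by
  haveI : NeZero (ℓ : ℕ) := ⟨ℓ.2.ne_zero⟩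
  haveI hPq := hasPrincipalDivisors_bar (N * q)
  rw [heckeOperatorBar_apply, heckeOperatorBar_apply]
  obtain ⟨hα, hβ, hP, hfin, hFI, hN⟩ := heckeInputsAlong_bar N ℓ
  obtain ⟨hα', hβ', hP', hfin', hFI', hN'⟩ := heckeInputsAlong_bar (N * q) ℓ
  haveI := hP
  haveI := hP'
  have e1 := heckeOperatorAlong_eq hα hβ hFI hfin hN
  have e2 := heckeOperatorAlong_eq hα' hβ' hFI' hfin' hN'
  rw [e1, e2]
  exact pic0Push_correspondence (heckeBetaBar Qb N q) (heckeAlphaBar Qb N ℓ)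
    (heckeBetaBar Qb N ℓ) (heckeAlphaBar Qb (N * q) ℓ) (heckeBetaBar Qb (N * q) ℓ)
    (inclBeta N q ℓ) (heckeBetaBarIntegral N q) hα hβ hα' hβ' (isIntegral_inclBeta N q ℓ)
    hFI hfin hN hFI' hfin' hN' (alpha_comp_beta N q ℓ) (beta_comp_beta N q ℓ)
    (finiteAlong_heckeBetaBar N q) (normFormulaAlong_heckeBetaBar N q)
    (finiteAlong_inclBeta N q ℓ) (normFormulaAlong_inclBeta N q ℓ)
    (norm_beta_inclBeta N q ℓ hq ℓ.2 hℓ) (exists_ord_eq_one (N * q))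
    (deg_eq_one_bar (N * q)) (deg_eq_one_bar (N * ℓ)) (deg_eq_one_bar (N * q * ℓ)) x

end Fermat.Agent.ESJ.Cong

end
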