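import Mathlib
import Fermat.Prelude.Def_ModularCurve_X0ModL
import Fermat.Prelude.Def_AlgebraicCurve_BaseChangeGalois
import Fermat.Prelude.Def_FLTPrelim_Ramification
import Fermat.Agent.ESJ.Cong.Defs

/-!
# ES-CONG, package E: the coefficientwise Frobenius on the special fibre

* `pow_char` : in characteristic `p`, `f ^ p = (coeffMap Frob f)(q^p)` for Laurent series.
* `coeffAut k N : (k ≃+* k) →* SemilinearAut k (modularFunctionFieldFullC k N)` : the
  coefficientwise action of the automorphisms of `k` on the function field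
  `k(j(q^d) : d ∣ N) ⊆ k((q))`.
* `frobAut k ℓ N` : the Frobenius `Φ`, a `SemilinearAut` over `frobeniusEquiv k ℓ`.
* `vHom k ℓ N` : `h(q) ↦ h(q^ℓ)` as a ring endomorphism of the function field in
  characteristic `ℓ`, with `vHom h = (Φ⁻¹ h) ^ ℓ` and `(vHom h) * ... `.
* valuations and divisors: `ord_vHom`, `ord_frobAut_smul`, `isDiv_vHom`, `isDiv_frobAut_smul`.
* residue fields of valuation subrings of an algebraically closed field are perfect
  (`perfectRing_residueField`), of characteristic `ℓ` over `ℓ` (`charP_residueField`).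
-/

set_option autoImplicit false

noncomputable section

namespace Fermat.Agent.ESJ.Cong.FrobAut

open ModularCurve AlgebraicCurve HahnSeries

/-! ### Frobenius on Laurent series -/

section Laurent

variable (R : Type*) [CommRing R] (p : ℕ) [NeZero p]

/-- `q ↦ q^p` on power series inside Laurent series is `PowerSeries.expand`. -/
theorem qExpand_ofPowerSeries (g : PowerSeries R) :
    qExpand R p (HahnSeries.ofPowerSeries ℤ R g) =
      HahnSeries.ofPowerSeries ℤ R (g.expand p (NeZero.ne p)) := by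
  have hp : (0 : ℤ) < p := by exact_mod_cast Nat.pos_of_ne_zero (NeZero.ne p)
  ext k
  by_cases hk : (p : ℤ) ∣ k
  · obtain ⟨m, rfl⟩ := hk
    rw [qExpand_coeff_mul]
    rcases le_or_gt 0 m with hm | hm
    · lift m to ℕ using hm
      rw [HahnSeries.ofPowerSeries_apply_coeff, ← Nat.cast_mul,
        HahnSeries.ofPowerSeries_apply_coeff, PowerSeries.coeff_expand_mul]
    · have h2 : (p : ℤ) * m < 0 := mul_neg_of_pos_of_neg hp hm
      rw [ofPowerSeries_coeff_of_neg _ hm, ofPowerSeries_coeff_of_neg _ h2]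
  · rw [qExpand_coeff_of_not_dvd p _ hk]
    rcases le_or_gt 0 k with hk0 | hk0
    · lift k to ℕ using hk0
      rw [HahnSeries.ofPowerSeries_apply_coeff, PowerSeries.coeff_expand_of_not_dvd]
      exact fun h => hk (Int.natCast_dvd_natCast.mpr h)
    · rw [ofPowerSeries_coeff_of_neg _ hk0]

variable [ExpChar R p]

/-- **Frobenius on Laurent series**: in characteristic `p`,
`f(q)^p = f^{(p)}(q^p)` where `f^{(p)}` has the `p`-th powers of the coefficients of `f`. -/
theorem pow_char (f : LaurentSeries R) :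
    f ^ p = qExpand R p (coeffMap (frobenius R p) f) := by
  have hf := LaurentSeries.single_order_mul_powerSeriesPart f
  conv_lhs => rw [← hf]
  conv_rhs => rw [← hf]
  have h1 : (f.powerSeriesPart) ^ p =
      (PowerSeries.expand p (NeZero.ne p) f.powerSeriesPart).map (frobenius R p) :=
    (MvPowerSeries.map_frobenius_expand (σ := Unit) p (NeZero.ne p)).symm
  rw [mul_pow, map_mul, map_mul, coeffMap_single, qExpand_single, HahnSeries.single_pow,
    coeffMap_ofPowerSeries, qExpand_ofPowerSeries, ← map_pow, h1, map_one, one_pow,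
    PowerSeries.map_expand, nsmul_eq_mul]

end Laurent

/-! ### Coefficientwise automorphisms of the function field -/

section CoeffAut

variable (k : Type*) [Field k] (N : ℕ)

/-- The generators `j(q^d)` have coefficients in the prime ring: they are fixed by every
coefficientwise ring endomorphism. -/
theorem coeffMap_gen (φ : k →+* k) (d : ℕ) [NeZero d] :
    coeffMap φ (qExpand k d (jqModC k)) = qExpand k d (jqModC k) := by
  rw [coeffMap_qExpand, coeffMap_jqModC]

variable {k N} in
/-- The function field `k(j(q^d) : d ∣ N)` is stable under coefficientwise ring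
endomorphisms of `k`. -/
theorem coeffMap_mem (φ : k →+* k) {x : LaurentSeries k}
    (hx : x ∈ modularFunctionFieldFullC k N) :
    coeffMap φ x ∈ modularFunctionFieldFullC k N := by
  rw [modularFunctionFieldFullC] at hx
  induction hx using IntermediateField.adjoin_induction with
  | mem y hy =>
      obtain ⟨d, hd, hdvd, rfl⟩ := hy
      rw [coeffMap_gen]
      exact jqModCd_mem_full k N hdvd
  | algebraMap c =>
      rw [coeffMap_algebraMap]
      exact (modularFunctionFieldFullC k N).algebraMap_mem _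
  | add y z _ _ hy hz =>
      rw [map_add]
      exact add_mem hy hz
  | inv y _ hy =>
      rw [map_inv₀]
      exact inv_mem hy
  | mul y z _ _ hy hz =>
      rw [map_mul]
      exact mul_mem hy hz

/-- The coefficientwise ring automorphism of the function field induced by `e : k ≃+* k`. -/
def coeffRingAut (e : k ≃+* k) :
    modularFunctionFieldFullC k N ≃+* modularFunctionFieldFullC k N where
  toFun x := ⟨coeffMap (e : k →+* k) (x : LaurentSeries k), coeffMap_mem _ x.2⟩
  invFun x := ⟨coeffMap (e.symm : k →+* k) (x : LaurentSeries k), coeffMap_mem _ x.2⟩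
  left_inv x := Subtype.ext <| by
    show coeffMap (e.symm : k →+* k) (coeffMap (e : k →+* k) (x : LaurentSeries k))
      = (x : LaurentSeries k)
    rw [coeffMap_coeffMap,
      coeffMap_congr (g := RingHom.id k) (RingHom.ext fun a => e.symm_apply_apply a)
        (x : LaurentSeries k),
      coeffMap_id]
  right_inv x := Subtype.ext <| by
    show coeffMap (e : k →+* k) (coeffMap (e.symm : k →+* k) (x : LaurentSeries k))
      = (x : LaurentSeries k)
    rw [coeffMap_coeffMap,
      coeffMap_congr (g := RingHom.id k) (RingHom.ext fun a => e.apply_symm_apply a)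
        (x : LaurentSeries k),
      coeffMap_id]
  map_mul' x y :=
    Subtype.ext (map_mul (coeffMap (e : k →+* k)) (x : LaurentSeries k) (y : LaurentSeries k))
  map_add' x y :=
    Subtype.ext (map_add (coeffMap (e : k →+* k)) (x : LaurentSeries k) (y : LaurentSeries k))

@[simp]
theorem coe_coeffRingAut_apply (e : k ≃+* k) (x : modularFunctionFieldFullC k N) :
    (coeffRingAut k N e x : LaurentSeries k) = coeffMap (e : k →+* k) (x : LaurentSeries k) :=
  rfl

theorem coeffRingAut_algebraMap (e : k ≃+* k) (a : k) :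
    coeffRingAut k N e (algebraMap k (modularFunctionFieldFullC k N) a)
      = algebraMap k (modularFunctionFieldFullC k N) (e a) :=
  Subtype.ext (coeffMap_algebraMap (e : k →+* k) a)

/-- **The coefficientwise action** of the ring automorphisms of `k` on the function field
`k(j(q^d) : d ∣ N)`, as semilinear automorphisms. -/
def coeffAut : (k ≃+* k) →* SemilinearAut k (modularFunctionFieldFullC k N) where
  toFun e := ⟨(coeffRingAut k N e, e), fun a => coeffRingAut_algebraMap k N e a⟩
  map_one' := by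
    refine Subtype.ext (Prod.ext (RingEquiv.ext fun x => Subtype.ext ?_) rfl)
    show coeffMap (((1 : k ≃+* k) : k ≃+* k) : k →+* k) (x : LaurentSeries k)
      = (x : LaurentSeries k)
    rw [show (((1 : k ≃+* k) : k ≃+* k) : k →+* k) = RingHom.id k from RingHom.ext fun _ => rfl,
      coeffMap_id]
  map_mul' σ τ := by
    refine Subtype.ext (Prod.ext (RingEquiv.ext fun x => Subtype.ext ?_) rfl)
    show coeffMap ((σ * τ : k ≃+* k) : k →+* k) (x : LaurentSeries k)
      = coeffMap (σ : k →+* k) (coeffMap (τ : k →+* k) (x : LaurentSeries k))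
    rw [coeffMap_coeffMap]
    exact coeffMap_congr (RingHom.ext fun _ => rfl) _

@[simp]
theorem toRingAut_coeffAut (e : k ≃+* k) :
    SemilinearAut.toRingAut (coeffAut k N e) = coeffRingAut k N e :=
  rfl

@[simp]
theorem baseAut_coeffAut (e : k ≃+* k) :
    SemilinearAut.baseAut (coeffAut k N e) = e :=
  rfl

theorem coe_coeffAut_smul (e : k ≃+* k) (x : modularFunctionFieldFullC k N) :
    ((coeffAut k N e • x : modularFunctionFieldFullC k N) : LaurentSeries k)
      = coeffMap (e : k →+* k) (x : LaurentSeries k) :=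
  rfl

theorem coe_coeffAut_inv_smul (e : k ≃+* k) (x : modularFunctionFieldFullC k N) :
    (((coeffAut k N e)⁻¹ • x : modularFunctionFieldFullC k N) : LaurentSeries k)
      = coeffMap (e.symm : k →+* k) (x : LaurentSeries k) :=
  rfl

end CoeffAut

/-! ### The Frobenius `Φ` and the substitution `q ↦ q^ℓ` in characteristic `ℓ` -/

section Frob

variable (k : Type*) [Field k] (ℓ : ℕ) [Fact ℓ.Prime] [CharP k ℓ] [PerfectRing k ℓ] (N : ℕ)

/-- **The Frobenius `Φ`** of the function field `k(j(q^d) : d ∣ N)` in characteristic `ℓ`: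
the coefficientwise `ℓ`-th power map, a semilinear automorphism over `frobeniusEquiv k ℓ`. -/
def frobAut : SemilinearAut k (modularFunctionFieldFullC k N) :=
  coeffAut k N (frobeniusEquiv k ℓ)

theorem frobAut_def : frobAut k ℓ N = coeffAut k N (frobeniusEquiv k ℓ) := rfl

@[simp]
theorem baseAut_frobAut : SemilinearAut.baseAut (frobAut k ℓ N) = frobeniusEquiv k ℓ := rfl

theorem coe_frobAut_smul (x : modularFunctionFieldFullC k N) :
    ((frobAut k ℓ N • x : modularFunctionFieldFullC k N) : LaurentSeries k)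
      = coeffMap (frobenius k ℓ) (x : LaurentSeries k) :=
  coeffMap_congr (RingHom.ext fun _ => rfl) _

theorem coeff_frobAut_smul (x : modularFunctionFieldFullC k N) (n : ℤ) :
    ((frobAut k ℓ N • x : modularFunctionFieldFullC k N) : LaurentSeries k).coeff n
      = (x : LaurentSeries k).coeff n ^ ℓ := by
  rw [coe_frobAut_smul]
  rfl

theorem frobAut_smul_algebraMap (a : k) :
    frobAut k ℓ N • algebraMap k (modularFunctionFieldFullC k N) a
      = algebraMap k (modularFunctionFieldFullC k N) (a ^ ℓ) :=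
  SemilinearAut.smul_algebraMap _ a

/-- A ring automorphism of `k` acting as `x ↦ x^ℓ` (e.g. the one induced by a Frobenius element
of a decomposition group) induces `Φ`. -/
theorem coeffAut_eq_frobAut (e : k ≃+* k) (he : ∀ x, e x = x ^ ℓ) :
    coeffAut k N e = frobAut k ℓ N := by
  have h : e = frobeniusEquiv k ℓ := RingEquiv.ext fun x => by rw [he, frobeniusEquiv_def]
  rw [h, frobAut_def]

/-- `x^ℓ = (Φ x)(q^ℓ)`. -/
theorem pow_eq_qExpand_frobAut_smul (x : modularFunctionFieldFullC k N) :
    (x : LaurentSeries k) ^ ℓ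
      = qExpand k ℓ ((frobAut k ℓ N • x : modularFunctionFieldFullC k N) : LaurentSeries k) := by
  rw [coe_frobAut_smul]
  exact pow_char k ℓ _

/-- `h(q^ℓ) = (Φ⁻¹ h)^ℓ`. -/
theorem qExpand_eq_pow (x : modularFunctionFieldFullC k N) :
    qExpand k ℓ (x : LaurentSeries k)
      = (((frobAut k ℓ N)⁻¹ • x : modularFunctionFieldFullC k N) : LaurentSeries k) ^ ℓ := by
  rw [pow_eq_qExpand_frobAut_smul k ℓ N, smul_inv_smul]

variable {k N} in
/-- In characteristic `ℓ` the substitution `q ↦ q^ℓ` preserves the level-`N` function field. -/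
theorem qExpand_mem {x : LaurentSeries k} (hx : x ∈ modularFunctionFieldFullC k N) :
    qExpand k ℓ x ∈ modularFunctionFieldFullC k N := by
  have h := qExpand_eq_pow k ℓ N ⟨x, hx⟩
  rw [show qExpand k ℓ x = _ from h]
  exact pow_mem (SetLike.coe_mem _) ℓ

/-- The substitution `h(q) ↦ h(q^ℓ)` as a ring endomorphism of the level-`N` function field in
characteristic `ℓ`. -/
def vHom : modularFunctionFieldFullC k N →+* modularFunctionFieldFullC k N where
  toFun x := ⟨qExpand k ℓ (x : LaurentSeries k), qExpand_mem ℓ x.2⟩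
  map_one' := Subtype.ext (map_one (qExpand k ℓ))
  map_zero' := Subtype.ext (map_zero (qExpand k ℓ))
  map_mul' x y := Subtype.ext (map_mul (qExpand k ℓ) (x : LaurentSeries k) (y : LaurentSeries k))
  map_add' x y := Subtype.ext (map_add (qExpand k ℓ) (x : LaurentSeries k) (y : LaurentSeries k))

@[simp]
theorem coe_vHom (x : modularFunctionFieldFullC k N) :
    (vHom k ℓ N x : LaurentSeries k) = qExpand k ℓ (x : LaurentSeries k) := rfl

/-- `h(q^ℓ) = (Φ⁻¹ h)^ℓ` in the function field. -/
theorem vHom_eq_pow (x : modularFunctionFieldFullC k N) :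
    vHom k ℓ N x = ((frobAut k ℓ N)⁻¹ • x) ^ ℓ :=
  Subtype.ext (qExpand_eq_pow k ℓ N x)

/-- `(Φ h)(q^ℓ) = h^ℓ` in the function field. -/
theorem vHom_frobAut_smul (x : modularFunctionFieldFullC k N) :
    vHom k ℓ N (frobAut k ℓ N • x) = x ^ ℓ := by
  rw [vHom_eq_pow, inv_smul_smul]

/-- `Φ` commutes with `q ↦ q^ℓ`. -/
theorem frobAut_smul_vHom (x : modularFunctionFieldFullC k N) :
    frobAut k ℓ N • vHom k ℓ N x = vHom k ℓ N (frobAut k ℓ N • x) := by
  rw [vHom_eq_pow, smul_pow', smul_inv_smul, vHom_frobAut_smul]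

theorem vHom_ne_zero {x : modularFunctionFieldFullC k N} (hx : x ≠ 0) : vHom k ℓ N x ≠ 0 :=
  (map_ne_zero (vHom k ℓ N)).mpr hx

theorem frobAut_smul_ne_zero {x : modularFunctionFieldFullC k N} (hx : x ≠ 0) :
    frobAut k ℓ N • x ≠ 0 :=
  (smul_ne_zero_iff_ne _).mpr hx

/-! #### Valuations and divisors -/

/-- `ord_P (Φ h) = ord_{Φ⁻¹ P} h`. -/
theorem ord_frobAut_smul (P : Place k (modularFunctionFieldFullC k N))
    (x : modularFunctionFieldFullC k N) :
    P.ord (frobAut k ℓ N • x) = ((frobAut k ℓ N)⁻¹ • P).ord x := by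
  have h := SemilinearAut.ord_smul (frobAut k ℓ N) ((frobAut k ℓ N)⁻¹ • P) x
  rwa [smul_inv_smul] at h

/-- `ord_P (Φ⁻¹ h) = ord_{Φ P} h`. -/
theorem ord_frobAut_inv_smul (P : Place k (modularFunctionFieldFullC k N))
    (x : modularFunctionFieldFullC k N) :
    P.ord ((frobAut k ℓ N)⁻¹ • x) = (frobAut k ℓ N • P).ord x := by
  have h := SemilinearAut.ord_smul (frobAut k ℓ N) P ((frobAut k ℓ N)⁻¹ • x)
  rw [smul_inv_smul] at h
  exact h.symm

/-- `ord_P (h(q^ℓ)) = ℓ · ord_{Φ P} h`. -/
theorem ord_vHom (P : Place k (modularFunctionFieldFullC k N))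
    (x : modularFunctionFieldFullC k N) :
    P.ord (vHom k ℓ N x) = ℓ * (frobAut k ℓ N • P).ord x := by
  rw [vHom_eq_pow, ← zpow_natCast, Place.ord_zpow, ord_frobAut_inv_smul]

/-- If `D = div h` then `Φ • D = div (Φ h)`. -/
theorem isDiv_frobAut_smul {D : Divisor k (modularFunctionFieldFullC k N)}
    {x : modularFunctionFieldFullC k N} (hD : ∀ P, D P = P.ord x) :
    ∀ P, (frobAut k ℓ N • D) P = P.ord (frobAut k ℓ N • x) := fun P => by
  rw [SemilinearAut.divisor_smul_apply, hD, ord_frobAut_smul]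

/-- If `D = div h` then `ℓ • (Φ⁻¹ • D) = div (h(q^ℓ))`. -/
theorem isDiv_vHom {D : Divisor k (modularFunctionFieldFullC k N)}
    {x : modularFunctionFieldFullC k N} (hD : ∀ P, D P = P.ord x) :
    ∀ P, (ℓ • ((frobAut k ℓ N)⁻¹ • D)) P = P.ord (vHom k ℓ N x) := fun P => by
  rw [Finsupp.smul_apply, SemilinearAut.divisor_smul_apply, inv_inv, hD, ord_vHom, nsmul_eq_mul]

/-- If `D = div h` then `Φ • D + ℓ • (Φ⁻¹ • D) = div (Φ h · h(q^ℓ))`:
the divisor of the reduction of `Nm (h(q^ℓ))` (Eichler–Shimura). -/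
theorem isDiv_frobAut_smul_mul_vHom {D : Divisor k (modularFunctionFieldFullC k N)}
    {x : modularFunctionFieldFullC k N} (hx : x ≠ 0) (hD : ∀ P, D P = P.ord x) :
    ∀ P, (frobAut k ℓ N • D + ℓ • ((frobAut k ℓ N)⁻¹ • D)) P
      = P.ord (frobAut k ℓ N • x * vHom k ℓ N x) := fun P => by
  rw [Finsupp.add_apply, isDiv_frobAut_smul k ℓ N hD, isDiv_vHom k ℓ N hD,
    Place.ord_mul _ (frobAut_smul_ne_zero k ℓ N hx) (vHom_ne_zero k ℓ N hx)]

end Frob

/-! ### Residue fields of valuation subrings -/

section Residue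

variable {L : Type*} [Field L] (A : ValuationSubring L)

/-- The residue field of a valuation subring lying over `ℓ` has characteristic `ℓ`. -/
theorem charP_residueField {ℓ : ℕ} (hℓ : ℓ.Prime) (hA : A.LiesOverPrime ℓ) :
    CharP (IsLocalRing.ResidueField A) ℓ := by
  rw [CharP.charP_iff_prime_eq_zero hℓ]
  obtain ⟨ha, hmem⟩ := (A.mem_nonunits_iff_exists_mem_maximalIdeal).mp hA
  have h1 : IsLocalRing.residue A ⟨(ℓ : L), ha⟩ = 0 :=
    (IsLocalRing.residue_eq_zero_iff _).mpr hmem
  have h2 : (⟨(ℓ : L), ha⟩ : A) = (ℓ : A) := Subtype.ext (by simp)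
  rw [h2, map_natCast] at h1
  exact h1

/-- The residue field of a valuation subring of an algebraically closed field is perfect:
`ℓ`-th roots lift. -/
theorem perfectRing_residueField [IsAlgClosed L] (ℓ : ℕ) [Fact ℓ.Prime]
    [CharP (IsLocalRing.ResidueField A) ℓ] : PerfectRing (IsLocalRing.ResidueField A) ℓ := by
  refine PerfectRing.ofSurjective _ _ fun y => ?_
  obtain ⟨a, rfl⟩ := IsLocalRing.residue_surjective y
  have hℓ : 0 < ℓ := (Fact.out : ℓ.Prime).pos
  obtain ⟨b, hb⟩ := IsAlgClosed.exists_pow_nat_eq (a : L) hℓ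
  have hbA : b ∈ A := by
    rw [← A.valuation_le_one_iff]
    have h1 : A.valuation b ^ ℓ ≤ 1 := by
      rw [← map_pow, hb]
      exact (A.valuation_le_one_iff _).mpr a.2
    exact (pow_le_one_iff_of_nonneg zero_le hℓ.ne').mp h1
  refine ⟨IsLocalRing.residue A ⟨b, hbA⟩, ?_⟩
  rw [frobenius_def, ← map_pow]
  exact congrArg _ (Subtype.ext hb)

end Residue

end Fermat.Agent.ESJ.Cong.FrobAut

/-! ### The exports of task CONG-E, in the shape of `ESJ/Cong/Defs.lean`

Here `τ` is any ring automorphism of `k` acting as `x ↦ x ^ ℓ`, and `coeffAut` is the one of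
`ESJ/Cong/Defs.lean`. -/

namespace Fermat.Agent.ESJ.Cong

open ModularCurve AlgebraicCurve HahnSeries

section Exports

variable (k : Type*) [Field k] (N ℓ : ℕ) [NeZero N] [NeZero ℓ] [Fact ℓ.Prime] [CharP k ℓ]
  (τ : k ≃+* k) (hτ : ∀ x, τ x = x ^ ℓ)

include hτ in
/-- Frobenius on Laurent series: `h(q)^ℓ = (τ h)(q^ℓ)`. -/
theorem pow_eq_qExpand_coeffMap (h : LaurentSeries k) :
    h ^ ℓ = qExpand k ℓ (coeffMap (τ : k →+* k) h) := by
  rw [FrobAut.pow_char k ℓ h]
  exact congrArg _ (coeffMap_congr (RingHom.ext fun x => by rw [frobenius_def]; exact (hτ x).symm) h)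

omit [NeZero N] in
/-- In characteristic `ℓ` the substitution `q ↦ q^ℓ` preserves the level-`N` function field
(no perfectness needed: `j(q^(ℓ d)) = j(q^d)^ℓ`). -/
theorem qExpand_mem_fullC (h : modularFunctionFieldFullC k N) :
    qExpand k ℓ (h : LaurentSeries k) ∈ modularFunctionFieldFullC k N := by
  have hle : (modularFunctionFieldFullC k N).map (qExpandAlgHomC k ℓ)
      ≤ modularFunctionFieldFullC k N := by
    rw [modularFunctionFieldFullC, IntermediateField.adjoin_map, IntermediateField.adjoin_le_iff]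
    rintro x ⟨y, ⟨d, hne, hdvd, rfl⟩, rfl⟩
    have := hne
    show qExpandAlgHomC k ℓ (qExpand k d (jqModC k)) ∈ _
    have e : qExpand k ℓ (qExpand k d (jqModC k)) = qExpand k d (jqModC k) ^ ℓ := by
      rw [FrobAut.pow_char k ℓ, FrobAut.coeffMap_gen]
    rw [qExpandAlgHomC_apply, e]
    exact pow_mem (IntermediateField.subset_adjoin k _ (mem_divisorExpansionsC k N hdvd)) ℓ
  exact hle ⟨(h : LaurentSeries k), h.2, rfl⟩

/-- If `D = div h` then `τ • D = div (τ h)` (any ring automorphism `τ` of `k`). -/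
theorem div_coeffAut_smul (h : modularFunctionFieldFullC k N)
    (D : Divisor k (modularFunctionFieldFullC k N)) (hD : ∀ P, D P = P.ord h)
    (P : Place k (modularFunctionFieldFullC k N)) :
    (coeffAut k N τ • D) P = P.ord (coeffAut k N τ • h) := by
  rw [SemilinearAut.divisor_smul_apply, hD]
  have e := SemilinearAut.ord_smul (coeffAut k N τ) ((coeffAut k N τ)⁻¹ • P) h
  rw [smul_inv_smul] at e
  exact e.symm

include hτ in
/-- `h(q^ℓ) = (τ⁻¹ h)^ℓ` in the function field. -/
theorem qExpand_eq_coeffAut_inv_smul_pow (h : modularFunctionFieldFullC k N) :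
    (⟨qExpand k ℓ (h : LaurentSeries k), qExpand_mem_fullC k N ℓ h⟩ :
        modularFunctionFieldFullC k N) = ((coeffAut k N τ)⁻¹ • h) ^ ℓ := by
  apply Subtype.ext
  show qExpand k ℓ (h : LaurentSeries k)
    = (((coeffAut k N τ)⁻¹ • h : modularFunctionFieldFullC k N) : LaurentSeries k) ^ ℓ
  rw [pow_eq_qExpand_coeffMap k ℓ τ hτ, ← coe_coeffAut_smul, smul_inv_smul]

include hτ in
/-- If `D = div h` then `ℓ • (τ⁻¹ • D) = div (h(q^ℓ))`. -/
theorem div_qExpand (h : modularFunctionFieldFullC k N)
    (D : Divisor k (modularFunctionFieldFullC k N)) (hD : ∀ P, D P = P.ord h)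
    (P : Place k (modularFunctionFieldFullC k N)) :
    (ℓ • ((coeffAut k N τ)⁻¹ • D)) P
      = P.ord (⟨qExpand k ℓ (h : LaurentSeries k), qExpand_mem_fullC k N ℓ h⟩ :
          modularFunctionFieldFullC k N) := by
  rw [qExpand_eq_coeffAut_inv_smul_pow k N ℓ τ hτ, ← zpow_natCast, Place.ord_zpow,
    Finsupp.smul_apply, SemilinearAut.divisor_smul_apply, inv_inv, hD, nsmul_eq_mul]
  have e := SemilinearAut.ord_smul (coeffAut k N τ) P ((coeffAut k N τ)⁻¹ • h)
  rw [smul_inv_smul] at e
  rw [e]

end Exports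

/-- The residue field of a valuation subring of `ℚ̄` lying over `ℓ` has characteristic `ℓ`. -/
theorem charP_residueField (A : ValuationSubring (AlgebraicClosure ℚ)) {ℓ : ℕ} (hℓ : ℓ.Prime)
    (hA : A.LiesOverPrime ℓ) : CharP (IsLocalRing.ResidueField A) ℓ :=
  FrobAut.charP_residueField A hℓ hA

/-- There is a ring automorphism of the residue field acting as `x ↦ x ^ ℓ`. -/
theorem exists_frobenius_residueField (A : ValuationSubring (AlgebraicClosure ℚ)) {ℓ : ℕ}
    (hℓ : ℓ.Prime) (hA : A.LiesOverPrime ℓ) :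
    ∃ τ : IsLocalRing.ResidueField A ≃+* IsLocalRing.ResidueField A, ∀ x, τ x = x ^ ℓ := by
  have := charP_residueField A hℓ hA
  have : Fact ℓ.Prime := ⟨hℓ⟩
  have := FrobAut.perfectRing_residueField A ℓ
  exact ⟨frobeniusEquiv (IsLocalRing.ResidueField A) ℓ, fun x => frobeniusEquiv_def _ ℓ x⟩

end Fermat.Agent.ESJ.Cong
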