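import Fermat.Prelude.Def_ModularCurve_X0ModL
import Fermat.Prelude.Def_AlgebraicCurve_BaseChangeGalois

/-!
# ES-CONG, package CONG-E: coefficientwise automorphisms and Frobenius on the special fibre

`k` is a field, `F~ = ModularCurve.modularFunctionFieldFullC k N ⊆ k((q))`.

* `coeffSL N φ : SemilinearAut k F~` for every ring automorphism `φ` of `k` (coefficientwise action
  on `q`-expansions), as a monoid homomorphism `coeffSLHom N`.
* `pow_char_eq_qExpand` : in characteristic `l`, `h ^ l = (coeffMap Frob h)(q^l)` for every Laurent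
  series `h`.
* for an automorphism `φ` of `k` with `φ x = x ^ l` (the Frobenius), `Φ := coeffSL N φ`:
  `qExpand k l h = (Φ⁻¹ h) ^ l`, `qExpand k l` preserves `F~`, and the divisor identities
  `div (h(q^l)) = l • Φ⁻¹ • div h`, `div (Φ h) = Φ • div h`,
  `div (h(q^l) * Φ h) = l • Φ⁻¹ • div h + Φ • div h`.
* `Φ` commutes with `coeffSL N σ` for every automorphism `σ` of `k`.
-/

set_option autoImplicit false

noncomputable section

namespace Fermat.Agent.ESJ.Cong.FrobFibre

open ModularCurve AlgebraicCurve HahnSeries IntermediateField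

/-! ### Laurent series: `qExpand`, `coeffMap` and Frobenius -/

section Laurent

/-- `qExpand` of a power series is `PowerSeries.expand`. -/
theorem qExpand_ofPowerSeries' {A : Type*} [CommRing A] (p : ℕ) [NeZero p] (u : PowerSeries A) :
    qExpand A p (HahnSeries.ofPowerSeries ℤ A u) =
      HahnSeries.ofPowerSeries ℤ A (PowerSeries.expand p (NeZero.ne p) u) := by
  have hp0 : (0 : ℤ) < (p : ℤ) := by exact_mod_cast Nat.pos_of_ne_zero (NeZero.ne p)
  ext k
  by_cases hk : (p : ℤ) ∣ k
  · obtain ⟨m, rfl⟩ := hk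
    rw [qExpand_coeff_mul]
    rcases le_or_gt 0 m with hm | hm
    · lift m to ℕ using hm
      rw [HahnSeries.ofPowerSeries_apply_coeff, ← Nat.cast_mul,
        HahnSeries.ofPowerSeries_apply_coeff, PowerSeries.coeff_expand_mul]
    · rw [ofPowerSeries_coeff_of_neg _ hm,
        ofPowerSeries_coeff_of_neg _ (mul_neg_of_pos_of_neg hp0 hm)]
  · rw [qExpand_coeff_of_not_dvd _ _ hk]
    rcases le_or_gt 0 k with hk0 | hk0
    · lift k to ℕ using hk0
      rw [HahnSeries.ofPowerSeries_apply_coeff, PowerSeries.coeff_expand_of_not_dvd]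
      exact fun h => hk (by exact_mod_cast h)
    · rw [ofPowerSeries_coeff_of_neg _ hk0]

/-- **Frobenius on Laurent series.** Over a commutative ring of characteristic `l`,
`h ^ l = (Frob h)(q ^ l)`, where `Frob` raises the coefficients to the `l`-th power. -/
theorem pow_char_eq_qExpand {A : Type*} [CommRing A] (l : ℕ) [NeZero l] [ExpChar A l]
    (h : LaurentSeries A) :
    h ^ l = qExpand A l (coeffMap (frobenius A l) h) := by
  conv_lhs => rw [← LaurentSeries.single_order_mul_powerSeriesPart h]
  conv_rhs => rw [← LaurentSeries.single_order_mul_powerSeriesPart h]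
  rw [mul_pow, HahnSeries.single_pow, one_pow, map_mul, map_mul, coeffMap_single, qExpand_single,
    map_one (frobenius A l), coeffMap_ofPowerSeries, qExpand_ofPowerSeries', ← map_pow,
    nsmul_eq_mul, ← PowerSeries.map_expand]
  congr 2
  exact (MvPowerSeries.map_frobenius_expand (σ := Unit) (R := A) l (NeZero.ne l)
    (f := (h.powerSeriesPart : PowerSeries A))).symm

/-- Variant: `h(q ^ l) = (Frob⁻¹ h) ^ l`, for any ring endomorphism `ψ` of `A` inverse to the
`l`-power map. -/
theorem qExpand_eq_pow_of_frob {A : Type*} [CommRing A] (l : ℕ) [NeZero l] [ExpChar A l]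
    (ψ : A →+* A) (hψ : ∀ x, ψ x ^ l = x) (h : LaurentSeries A) :
    qExpand A l h = coeffMap ψ h ^ l := by
  rw [pow_char_eq_qExpand, coeffMap_coeffMap]
  congr 1
  ext n
  simp [frobenius_def, hψ]

end Laurent

/-! ### Coefficientwise semilinear automorphisms of `F~` -/

section Coeff

variable {k : Type*} [Field k] (N : ℕ)

/-- Coefficientwise ring endomorphisms preserve the full modular function field in any
characteristic: its generators `J(q ^ d)` have prime-ring coefficients. -/
theorem coeffMap_mem_full (φ : k →+* k) {x : LaurentSeries k}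
    (hx : x ∈ modularFunctionFieldFullC k N) :
    coeffMap φ x ∈ modularFunctionFieldFullC k N := by
  replace hx : x ∈ Subfield.closure
      (Set.range (algebraMap k (LaurentSeries k)) ∪ divisorExpansionsC k N) := hx
  induction hx using Subfield.closure_induction with
  | mem y hy =>
      rcases hy with ⟨a, rfl⟩ | ⟨d, hd, hdN, rfl⟩
      · rw [coeffMap_algebraMap]
        exact (modularFunctionFieldFullC k N).algebraMap_mem _
      · have := hd
        rw [coeffMap_qExpand, coeffMap_jqModC]
        exact jqModCd_mem_full k N hdN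
  | one => simp
  | add x y _ _ hx hy => simpa using add_mem hx hy
  | neg x _ hx => simpa using neg_mem hx
  | inv x _ hx => simpa using inv_mem hx
  | mul x y _ _ hx hy => simpa using mul_mem hx hy

/-- The coefficientwise action of a ring automorphism of `k` on `F~`. -/
def coeffRingAut (φ : k ≃+* k) :
    (modularFunctionFieldFullC k N) ≃+* (modularFunctionFieldFullC k N) where
  toFun x := ⟨coeffMap (φ : k →+* k) (x : LaurentSeries k), coeffMap_mem_full N _ x.2⟩
  invFun x := ⟨coeffMap (φ.symm : k →+* k) (x : LaurentSeries k), coeffMap_mem_full N _ x.2⟩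
  left_inv x := Subtype.ext <| by
    show coeffMap (φ.symm : k →+* k) (coeffMap (φ : k →+* k) (x : LaurentSeries k))
      = (x : LaurentSeries k)
    rw [coeffMap_coeffMap,
      coeffMap_congr (g := RingHom.id k) (RingHom.ext fun a => φ.symm_apply_apply a)
        (x : LaurentSeries k),
      coeffMap_id]
  right_inv x := Subtype.ext <| by
    show coeffMap (φ : k →+* k) (coeffMap (φ.symm : k →+* k) (x : LaurentSeries k))
      = (x : LaurentSeries k)
    rw [coeffMap_coeffMap,
      coeffMap_congr (g := RingHom.id k) (RingHom.ext fun a => φ.apply_symm_apply a)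
        (x : LaurentSeries k),
      coeffMap_id]
  map_mul' x y :=
    Subtype.ext (map_mul (coeffMap (φ : k →+* k)) (x : LaurentSeries k) (y : LaurentSeries k))
  map_add' x y :=
    Subtype.ext (map_add (coeffMap (φ : k →+* k)) (x : LaurentSeries k) (y : LaurentSeries k))

@[simp]
theorem coe_coeffRingAut_apply (φ : k ≃+* k) (x : modularFunctionFieldFullC k N) :
    (coeffRingAut N φ x : LaurentSeries k) = coeffMap (φ : k →+* k) (x : LaurentSeries k) :=
  rfl

@[simp]
theorem coe_coeffRingAut_symm_apply (φ : k ≃+* k) (x : modularFunctionFieldFullC k N) :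
    ((coeffRingAut N φ).symm x : LaurentSeries k)
      = coeffMap (φ.symm : k →+* k) (x : LaurentSeries k) :=
  rfl

theorem coeffRingAut_algebraMap (φ : k ≃+* k) (a : k) :
    coeffRingAut N φ (algebraMap k (modularFunctionFieldFullC k N) a)
      = algebraMap k (modularFunctionFieldFullC k N) (φ a) :=
  Subtype.ext (coeffMap_algebraMap (φ : k →+* k) a)

/-- The coefficientwise semilinear automorphisms of `F~`, as a monoid homomorphism from the
automorphism group of `k`. -/
def coeffSLHom : (k ≃+* k) →* SemilinearAut k (modularFunctionFieldFullC k N) where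
  toFun φ := ⟨(coeffRingAut N φ, φ), fun a => coeffRingAut_algebraMap N φ a⟩
  map_one' := by
    refine Subtype.ext (Prod.ext (RingEquiv.ext fun x => Subtype.ext ?_) rfl)
    show coeffMap ((1 : k ≃+* k) : k →+* k) (x : LaurentSeries k) = (x : LaurentSeries k)
    rw [show ((1 : k ≃+* k) : k →+* k) = RingHom.id k from RingHom.ext fun _ => rfl,
      coeffMap_id]
  map_mul' σ τ := by
    refine Subtype.ext (Prod.ext (RingEquiv.ext fun x => Subtype.ext ?_) rfl)
    show coeffMap ((σ * τ : k ≃+* k) : k →+* k) (x : LaurentSeries k)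
      = coeffMap (σ : k →+* k) (coeffMap (τ : k →+* k) (x : LaurentSeries k))
    rw [coeffMap_coeffMap]
    exact coeffMap_congr (RingHom.ext fun _ => rfl) _

/-- The coefficientwise semilinear automorphism of `F~` attached to `φ ∈ Aut k`. -/
abbrev coeffSL (φ : k ≃+* k) : SemilinearAut k (modularFunctionFieldFullC k N) :=
  coeffSLHom N φ

@[simp]
theorem toRingAut_coeffSL (φ : k ≃+* k) :
    SemilinearAut.toRingAut (coeffSL N φ) = coeffRingAut N φ :=
  rfl

@[simp]
theorem baseAut_coeffSL (φ : k ≃+* k) : SemilinearAut.baseAut (coeffSL N φ) = φ :=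
  rfl

theorem coe_coeffSL_smul (φ : k ≃+* k) (x : modularFunctionFieldFullC k N) :
    ((coeffSL N φ • x : modularFunctionFieldFullC k N) : LaurentSeries k)
      = coeffMap (φ : k →+* k) (x : LaurentSeries k) :=
  rfl

theorem coe_coeffSL_inv_smul (φ : k ≃+* k) (x : modularFunctionFieldFullC k N) :
    (((coeffSL N φ)⁻¹ • x : modularFunctionFieldFullC k N) : LaurentSeries k)
      = coeffMap (φ.symm : k →+* k) (x : LaurentSeries k) :=
  rfl

theorem coeffSL_inv (φ : k ≃+* k) : (coeffSL N φ)⁻¹ = coeffSL N φ.symm :=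
  (map_inv (coeffSLHom N) φ).symm

theorem coeffSL_mul (φ ψ : k ≃+* k) : coeffSL N (φ * ψ) = coeffSL N φ * coeffSL N ψ :=
  map_mul (coeffSLHom N) φ ψ

theorem coeffSL_one : coeffSL N (1 : k ≃+* k) = 1 :=
  map_one (coeffSLHom N)

/-- Commuting automorphisms of `k` give commuting coefficientwise automorphisms. -/
theorem coeffSL_commute {φ ψ : k ≃+* k} (h : Commute φ ψ) :
    Commute (coeffSL N φ) (coeffSL N ψ) :=
  h.map (coeffSLHom N)

/-- The generators `J(q ^ d)`, `d ∣ N`, are fixed by every coefficientwise automorphism. -/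
theorem coeffSL_smul_jd (φ : k ≃+* k) {d : ℕ} [NeZero d] (hd : d ∣ N) :
    coeffSL N φ • (⟨qExpand k d (jqModC k), jqModCd_mem_full k N hd⟩ :
        modularFunctionFieldFullC k N)
      = ⟨qExpand k d (jqModC k), jqModCd_mem_full k N hd⟩ :=
  Subtype.ext (by
    rw [coe_coeffSL_smul]
    show coeffMap (φ : k →+* k) (qExpand k d (jqModC k)) = qExpand k d (jqModC k)
    rw [coeffMap_qExpand, coeffMap_jqModC])

theorem coeffSL_smul_algebraMap (φ : k ≃+* k) (a : k) :
    coeffSL N φ • algebraMap k (modularFunctionFieldFullC k N) a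
      = algebraMap k (modularFunctionFieldFullC k N) (φ a) :=
  coeffRingAut_algebraMap N φ a

end Coeff

/-! ### Orders and divisors under a semilinear automorphism (general curve) -/

section SemilinearDiv

variable {K F : Type*} [Field K] [Field F] [Algebra K F]

/-- `ord_P (g⁻¹ f) = ord_{g P} f`. -/
theorem ord_inv_smul (g : SemilinearAut K F) (P : Place K F) (f : F) :
    P.ord (g⁻¹ • f) = (g • P).ord f := by
  have h := SemilinearAut.ord_smul g⁻¹ (g • P) f
  rwa [inv_smul_smul] at h

/-- `ord_P (g f) = ord_{g⁻¹ P} f`. -/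
theorem ord_smul' (g : SemilinearAut K F) (P : Place K F) (f : F) :
    P.ord (g • f) = (g⁻¹ • P).ord f := by
  have h := SemilinearAut.ord_smul g (g⁻¹ • P) f
  rwa [smul_inv_smul] at h

/-- If `D = div f` then `g • D = div (g f)`. -/
theorem divisor_smul_eq_ord (g : SemilinearAut K F) {D : Divisor K F} {f : F}
    (hD : ∀ P : Place K F, D P = P.ord f) (P : Place K F) :
    (g • D) P = P.ord (g • f) := by
  rw [SemilinearAut.divisor_smul_apply, hD, ord_smul']

/-- If `D = div f` then `g⁻¹ • D = div (g⁻¹ f)`. -/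
theorem divisor_inv_smul_eq_ord (g : SemilinearAut K F) {D : Divisor K F} {f : F}
    (hD : ∀ P : Place K F, D P = P.ord f) (P : Place K F) :
    (g⁻¹ • D) P = P.ord (g⁻¹ • f) :=
  divisor_smul_eq_ord g⁻¹ hD P

theorem ord_pow (P : Place K F) (f : F) (n : ℕ) : P.ord (f ^ n) = (n : ℤ) * P.ord f := by
  rw [← zpow_natCast, Place.ord_zpow]

end SemilinearDiv

/-! ### Frobenius on the special fibre -/

section Frob

variable {k : Type*} [Field k] (N : ℕ) (l : ℕ) [NeZero l] [ExpChar k l]

/-- In characteristic `l`, with `φ` the Frobenius automorphism of `k`: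
`h(q ^ l) = (φ⁻¹ h) ^ l` for every Laurent series `h`. -/
theorem qExpand_eq_coeffMap_symm_pow (φ : k ≃+* k) (hφ : ∀ x, φ x = x ^ l)
    (h : LaurentSeries k) :
    qExpand k l h = coeffMap (φ.symm : k →+* k) h ^ l :=
  qExpand_eq_pow_of_frob l (φ.symm : k →+* k)
    (fun x => by
      show φ.symm x ^ l = x
      rw [← hφ, RingEquiv.apply_symm_apply]) h

/-- In characteristic `l` (with bijective Frobenius), `h ↦ h(q ^ l)` preserves `F~`. -/
theorem qExpand_mem_full (φ : k ≃+* k) (hφ : ∀ x, φ x = x ^ l) {h : LaurentSeries k}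
    (hh : h ∈ modularFunctionFieldFullC k N) :
    qExpand k l h ∈ modularFunctionFieldFullC k N := by
  rw [qExpand_eq_coeffMap_symm_pow l φ hφ]
  exact pow_mem (coeffMap_mem_full N _ hh) l

/-- `h ↦ h(q ^ l)` as a ring endomorphism of `F~` (characteristic `l`, Frobenius `φ`). -/
def qExpandFull (φ : k ≃+* k) (hφ : ∀ x, φ x = x ^ l) :
    modularFunctionFieldFullC k N →+* modularFunctionFieldFullC k N where
  toFun h := ⟨qExpand k l (h : LaurentSeries k), qExpand_mem_full N l φ hφ h.2⟩
  map_one' := Subtype.ext (map_one (qExpand k l))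
  map_mul' _ _ := Subtype.ext (map_mul (qExpand k l) _ _)
  map_zero' := Subtype.ext (map_zero (qExpand k l))
  map_add' _ _ := Subtype.ext (map_add (qExpand k l) _ _)

@[simp]
theorem coe_qExpandFull (φ : k ≃+* k) (hφ : ∀ x, φ x = x ^ l)
    (h : modularFunctionFieldFullC k N) :
    (qExpandFull N l φ hφ h : LaurentSeries k) = qExpand k l (h : LaurentSeries k) :=
  rfl

/-- **`h(q ^ l) = (Φ⁻¹ h) ^ l`** in `F~`, `Φ = coeffSL N φ` the coefficientwise Frobenius. -/
theorem qExpandFull_eq (φ : k ≃+* k) (hφ : ∀ x, φ x = x ^ l)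
    (h : modularFunctionFieldFullC k N) :
    qExpandFull N l φ hφ h = ((coeffSL N φ)⁻¹ • h) ^ l :=
  Subtype.ext (by
    rw [coe_qExpandFull, qExpand_eq_coeffMap_symm_pow l φ hφ]
    rfl)

/-- **`(Φ h)(q ^ l) = h ^ l`** in `F~`. -/
theorem qExpandFull_smul (φ : k ≃+* k) (hφ : ∀ x, φ x = x ^ l)
    (h : modularFunctionFieldFullC k N) :
    qExpandFull N l φ hφ (coeffSL N φ • h) = h ^ l := by
  rw [qExpandFull_eq, inv_smul_smul]

theorem qExpandFull_ne_zero (φ : k ≃+* k) (hφ : ∀ x, φ x = x ^ l)
    {h : modularFunctionFieldFullC k N} (hh : h ≠ 0) : qExpandFull N l φ hφ h ≠ 0 :=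
  (map_ne_zero (qExpandFull N l φ hφ)).mpr hh

/-- `ord_P (h(q ^ l)) = l * ord_{Φ P} h`. -/
theorem ord_qExpandFull (φ : k ≃+* k) (hφ : ∀ x, φ x = x ^ l)
    (P : Place k (modularFunctionFieldFullC k N)) (h : modularFunctionFieldFullC k N) :
    P.ord (qExpandFull N l φ hφ h) = (l : ℤ) * (coeffSL N φ • P).ord h := by
  rw [qExpandFull_eq, ord_pow, ord_inv_smul]

/-- **`div (h(q ^ l)) = l • Φ⁻¹ • div h`.** -/
theorem divisor_qExpandFull (φ : k ≃+* k) (hφ : ∀ x, φ x = x ^ l)
    {D : Divisor k (modularFunctionFieldFullC k N)} {h : modularFunctionFieldFullC k N}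
    (hD : ∀ P : Place k (modularFunctionFieldFullC k N), D P = P.ord h)
    (P : Place k (modularFunctionFieldFullC k N)) :
    ((l : ℤ) • ((coeffSL N φ)⁻¹ • D)) P = P.ord (qExpandFull N l φ hφ h) := by
  rw [Finsupp.smul_apply, smul_eq_mul, divisor_inv_smul_eq_ord _ hD, qExpandFull_eq, ord_pow]

/-- **`div (h(q ^ l) * Φ h) = l • Φ⁻¹ • div h + Φ • div h`** (the divisor of the mod-`l` reduction
of `Nm (h(q ^ l))`, the Eichler–Shimura shape). -/
theorem divisor_qExpandFull_mul_smul (φ : k ≃+* k) (hφ : ∀ x, φ x = x ^ l)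
    {D : Divisor k (modularFunctionFieldFullC k N)} {h : modularFunctionFieldFullC k N}
    (hh : h ≠ 0) (hD : ∀ P : Place k (modularFunctionFieldFullC k N), D P = P.ord h)
    (P : Place k (modularFunctionFieldFullC k N)) :
    ((l : ℤ) • ((coeffSL N φ)⁻¹ • D) + coeffSL N φ • D) P
      = P.ord (qExpandFull N l φ hφ h * coeffSL N φ • h) := by
  have h1 : qExpandFull N l φ hφ h ≠ 0 := qExpandFull_ne_zero N l φ hφ hh
  have h2 : coeffSL N φ • h ≠ 0 := by
    rw [SemilinearAut.smul_def]
    exact (map_ne_zero _).mpr hh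
  rw [Finsupp.add_apply, divisor_qExpandFull N l φ hφ hD, divisor_smul_eq_ord _ hD,
    Place.ord_mul _ h1 h2]

omit [NeZero l] [ExpChar k l] in
/-- The Frobenius commutes with every automorphism of `k`. -/
theorem frob_commute (φ : k ≃+* k) (hφ : ∀ x, φ x = x ^ l) (σ : k ≃+* k) : Commute φ σ := by
  refine RingEquiv.ext fun x => ?_
  show φ (σ x) = σ (φ x)
  rw [hφ, hφ, map_pow]

omit [NeZero l] [ExpChar k l] in
/-- The coefficientwise Frobenius commutes with every coefficientwise automorphism. -/
theorem coeffSL_frob_commute (φ : k ≃+* k) (hφ : ∀ x, φ x = x ^ l) (σ : k ≃+* k) :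
    Commute (coeffSL N φ) (coeffSL N σ) :=
  coeffSL_commute N (frob_commute l φ hφ σ)

theorem coe_qExpandFull_mul_smul (φ : k ≃+* k) (hφ : ∀ x, φ x = x ^ l)
    (h : modularFunctionFieldFullC k N) :
    ((qExpandFull N l φ hφ h * coeffSL N φ • h : modularFunctionFieldFullC k N) : LaurentSeries k)
      = qExpand k l (h : LaurentSeries k) * coeffMap (φ : k →+* k) (h : LaurentSeries k) :=
  rfl

omit [NeZero l] [ExpChar k l] in
/-- A Frobenius automorphism of `k` exists as soon as the `l`-power map of `k` is surjective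
(`k` of characteristic `l`, `l` prime). -/
theorem exists_frobAut [Fact l.Prime] [CharP k l]
    (hsurj : Function.Surjective fun x : k => x ^ l) :
    ∃ φ : k ≃+* k, ∀ x, φ x = x ^ l :=
  ⟨RingEquiv.ofBijective (frobenius k l) ⟨frobenius_inj k l, hsurj⟩, fun _ => rfl⟩

end Frob

end Fermat.Agent.ESJ.Cong.FrobFibre
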