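import Fermat.Agent.ESJ.Cong.TorsionESK
import Fermat.Agent.Lib.Red.OneStepGlue
import Fermat.Agent.Lib.Red.SpecUnit
import Fermat.Agent.Lib.FF.CharP.ModLInst

/-!
# ES-CONG / RED-K, consumer (b): `RedTorsionInjective` (S18) from the Kummer root statement

`redTorsionInjective_of_kummerRoot`: for a prime `ℓ ∤ N` and a valuation subring `A` of `ℚ̄` over
`ℓ`, if `KummerRoot N A m` holds for every `m ≠ 0` prime to `ℓ`, then reduction of divisor
classes along ANY place reduction `r` (Prelude `IsPlaceReductionModL`) is injective on torsion of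
order prime to `ℓ` — the predicate `Fermat.Agent.ESJ.RedTorsionInjective N ℓ A`.

No genus, no non-special divisors: `r` is used only through the Prelude spec
`r_* div(y) = div(ȳ)`.

Proof (divisor level, `principal_of_kummerRoot`): `m D = div f₀`, `r_* D = div h̄`.  Lift
`h̄ = red g₀`, so `r_* div g₀ = div h̄`; `f' := f₀ / g₀ ^ m` has `div f' = m (D - div g₀)` and
`r_* div f' = 0`.  Write `a f' s = P` with `P, s ∈ A((q)) ∩ F_N` of nonzero reduction (`GoodV`);
the spec for `P` and `s` gives `div P̄ = div s̄`, hence `P̄ = c̄ s̄` for a constant `c̄`; for a lift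
`c ∈ A` the series `P` and `c s` have the same nonzero reduction, and `KummerRoot` gives
`P = c s g ^ m`.  Then `f' = (c / a) g ^ m`, `D - div g₀ = div g`, `D = div (g₀ g)`.
-/

set_option autoImplicit false

noncomputable section

namespace Fermat.Agent.ESJ.Cong.RedInjK

open ModularCurve AlgebraicCurve HahnSeries
open Fermat.Agent.Lib.Red Fermat.Agent.Lib.FF Fermat.Agent.ESJ.Cong

variable (N : ℕ) [NeZero N]

set_option synthInstance.maxHeartbeats 400000 in
set_option maxHeartbeats 1000000 in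
/-- Divisor-level form: a divisor `D` with `m D` principal whose image under a place reduction
is principal is itself principal. -/
theorem principal_of_kummerRoot (A : ValuationSubring (AlgebraicClosure ℚ))
    (hNk : (N : IsLocalRing.ResidueField A) ≠ 0) {m : ℕ} (hm : m ≠ 0)
    (hK : TorsionESK.KummerRoot N A m)
    (r : Place (AlgebraicClosure ℚ) ↥(modularFunctionFieldBar N) →
      Place (IsLocalRing.ResidueField A)
        ↥(modularFunctionFieldFullC (IsLocalRing.ResidueField A) N))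
    (hr : IsPlaceReductionModL A N r)
    (D : Divisor (AlgebraicClosure ℚ) ↥(modularFunctionFieldBar N))
    (f₀ : ↥(modularFunctionFieldBar N)) (hf₀ : f₀ ≠ 0)
    (hmD : ∀ P, (m : ℤ) * D P = P.ord f₀)
    (hbar : ↥(modularFunctionFieldFullC (IsLocalRing.ResidueField A) N)) (hhbar : hbar ≠ 0)
    (hrD : ∀ Q, Finsupp.mapDomain r D Q = Q.ord hbar) :
    ∃ φ : ↥(modularFunctionFieldBar N), φ ≠ 0 ∧ ∀ P, D P = P.ord φ := by
  haveI : IsAlgClosed (IsLocalRing.ResidueField A) := CharP.isAlgClosed_residueField A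
  haveI : HasPrincipalDivisors (AlgebraicClosure ℚ) ↥(modularFunctionFieldBar N) :=
    Fermat.Agent.ESJ.HeckeInputs.hasPrincipalDivisors_bar N
  have hπ := OneStepGlue.residue_eq_zero_of_not_isUnit A
  have hm' : (m : ℤ) ≠ 0 := Int.natCast_ne_zero.mpr hm
  -- (a) lift `hbar`
  obtain ⟨g₀, hg₀⟩ := redF_surjective hπ IsLocalRing.residue_surjective hNk hbar
  have hg₀ne : redF A (IsLocalRing.residue A) N hπ hNk g₀ ≠ 0 := by
    rw [hg₀]
    exact hhbar
  have hg₀0 : (g₀ : ↥(modularFunctionFieldBar N)) ≠ 0 := by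
    intro h
    apply hg₀ne
    have h1 : g₀ = 0 := Subtype.ext h
    rw [h1, map_zero]
  obtain ⟨E, hE, -⟩ := HasPrincipalDivisors.exists_divisor (K := AlgebraicClosure ℚ)
    (g₀ : ↥(modularFunctionFieldBar N)) hg₀0
  have hrE : ∀ Q, Finsupp.mapDomain r E Q = Q.ord hbar := fun Q => by
    rw [← hg₀]
    exact SpecUnit.mapDomain_eq_ord_redF' hπ hNk r hr g₀ hg₀ne E hE Q
  -- (b) `f' := f₀ / g₀ ^ m`
  obtain ⟨f', hf'⟩ : ∃ f' : ↥(modularFunctionFieldBar N),
      f' = f₀ * ((g₀ : ↥(modularFunctionFieldBar N))⁻¹) ^ m := ⟨_, rfl⟩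
  have hgi : ((g₀ : ↥(modularFunctionFieldBar N))⁻¹) ^ m ≠ 0 := pow_ne_zero m (inv_ne_zero hg₀0)
  have hf'0 : f' ≠ 0 := by
    rw [hf']
    exact mul_ne_zero hf₀ hgi
  have hordf' : ∀ P : Place (AlgebraicClosure ℚ) ↥(modularFunctionFieldBar N),
      P.ord f' = (m : ℤ) * (D P - E P) := by
    intro P
    rw [hf', P.ord_mul hf₀ hgi, Fermat.Agent.ESJ.Jac.ord_pow, P.ord_inv, ← hmD P, hE P]
    ring
  -- (c) `a f' s = P`
  have hf'0s : (f' : LaurentSeries (AlgebraicClosure ℚ)) ≠ 0 := fun h => hf'0 (Subtype.ext h)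
  obtain ⟨a, P, s, ha, hPF0, hsF0, hP00, hs00, -, -, heq0⟩ :=
    goodV_full' A (IsLocalRing.residue A) N hNk (f' : LaurentSeries (AlgebraicClosure ℚ)) f'.2
      hf'0s
  have hPF : coeffMap A.subtype P ∈ modularFunctionFieldBar N := hPF0
  have hsF : coeffMap A.subtype s ∈ modularFunctionFieldBar N := hsF0
  have hP : coeffMap (IsLocalRing.residue A) P ≠ 0 := hP00
  have hs : coeffMap (IsLocalRing.residue A) s ≠ 0 := hs00
  have heq : HahnSeries.C a * (f' : LaurentSeries (AlgebraicClosure ℚ)) * coeffMap A.subtype s =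
      coeffMap A.subtype P := heq0
  have hPk := coeffMap_mem_fullC' A (IsLocalRing.residue A) N hπ hNk P hPF
  have hsk := coeffMap_mem_fullC' A (IsLocalRing.residue A) N hπ hNk s hsF
  have hP0 : (⟨_, hPF⟩ : ↥(modularFunctionFieldBar N)) ≠ 0 := TorsionESK.incl_ne_zero hPF hP
  have hs0 : (⟨_, hsF⟩ : ↥(modularFunctionFieldBar N)) ≠ 0 := TorsionESK.incl_ne_zero hsF hs
  obtain ⟨DP, hDP, -⟩ := HasPrincipalDivisors.exists_divisor (K := AlgebraicClosure ℚ)
    (⟨_, hPF⟩ : ↥(modularFunctionFieldBar N)) hP0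
  obtain ⟨Ds, hDs, -⟩ := HasPrincipalDivisors.exists_divisor (K := AlgebraicClosure ℚ)
    (⟨_, hsF⟩ : ↥(modularFunctionFieldBar N)) hs0
  have hspecP : ∀ Q, Finsupp.mapDomain r DP Q = Q.ord (⟨_, hPk⟩ :
      ↥(modularFunctionFieldFullC (IsLocalRing.ResidueField A) N)) :=
    fun Q => hr.2 P hPF hPk hP DP hDP Q
  have hspecs : ∀ Q, Finsupp.mapDomain r Ds Q = Q.ord (⟨_, hsk⟩ :
      ↥(modularFunctionFieldFullC (IsLocalRing.ResidueField A) N)) :=
    fun Q => hr.2 s hsF hsk hs Ds hDs Q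
  have ha' : algebraMap (AlgebraicClosure ℚ) ↥(modularFunctionFieldBar N) a ≠ 0 :=
    (map_ne_zero _).2 ha
  have hrel : algebraMap (AlgebraicClosure ℚ) ↥(modularFunctionFieldBar N) a * f' * ⟨_, hsF⟩ =
      ⟨_, hPF⟩ := by
    apply Subtype.ext
    have h1 : ((algebraMap (AlgebraicClosure ℚ) (modularFunctionFieldBar N) a :
        modularFunctionFieldBar N) : LaurentSeries (AlgebraicClosure ℚ)) = HahnSeries.C a := by
      rw [Fermat.Agent.Lib.Red.C_eq_algebraMap]
      rfl
    show ((algebraMap (AlgebraicClosure ℚ) (modularFunctionFieldBar N) a :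
        modularFunctionFieldBar N) : LaurentSeries (AlgebraicClosure ℚ)) *
          (f' : LaurentSeries (AlgebraicClosure ℚ)) * coeffMap A.subtype s = coeffMap A.subtype P
    rw [h1]
    exact heq
  -- the divisor of `P / s` is `m (D - E)`
  have hDPs : ∀ v : Place (AlgebraicClosure ℚ) ↥(modularFunctionFieldBar N),
      DP v - Ds v = (m : ℤ) * (D v - E v) := by
    intro v
    rw [hDP, hDs, ← hrel, v.ord_mul (mul_ne_zero ha' hf'0) hs0, v.ord_mul ha' hf'0,
      Fermat.Agent.S24.ord_algebraMap, hordf']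
    ring
  have hdiv : DP - Ds = m • (D - E) := by
    ext v
    rw [Finsupp.sub_apply, Finsupp.smul_apply, Finsupp.sub_apply, hDPs v, nsmul_eq_mul]
  -- `P̄` and `s̄` have the same divisor
  have hord : ∀ Q : Place (IsLocalRing.ResidueField A)
      ↥(modularFunctionFieldFullC (IsLocalRing.ResidueField A) N),
      Q.ord (⟨_, hPk⟩ : ↥(modularFunctionFieldFullC (IsLocalRing.ResidueField A) N)) =
        Q.ord (⟨_, hsk⟩ : ↥(modularFunctionFieldFullC (IsLocalRing.ResidueField A) N)) := by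
    intro Q
    have h1 : Finsupp.mapDomain r (DP - Ds) = Finsupp.mapDomain r (m • (D - E)) := by rw [hdiv]
    have e1 : Finsupp.mapDomain r (DP - Ds) = Finsupp.mapDomain r DP - Finsupp.mapDomain r Ds :=
      map_sub (Finsupp.mapDomain.addMonoidHom r) DP Ds
    have e2 : Finsupp.mapDomain r (m • (D - E)) =
        m • (Finsupp.mapDomain r D - Finsupp.mapDomain r E) := by
      have h2 := map_nsmul (Finsupp.mapDomain.addMonoidHom r) m (D - E)
      rw [map_sub] at h2
      exact h2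
    rw [e1, e2] at h1
    have h2 := DFunLike.congr_fun h1 Q
    rw [Finsupp.sub_apply, Finsupp.smul_apply, Finsupp.sub_apply, hspecP, hspecs, hrD, hrE,
      sub_self, smul_zero] at h2
    exact sub_eq_zero.mp h2
  -- so `P̄ = c̄ s̄`
  have hPk0 : (⟨_, hPk⟩ : ↥(modularFunctionFieldFullC (IsLocalRing.ResidueField A) N)) ≠ 0 :=
    fun h => hP (congrArg Subtype.val h)
  have hsk0 : (⟨_, hsk⟩ : ↥(modularFunctionFieldFullC (IsLocalRing.ResidueField A) N)) ≠ 0 :=
    fun h => hs (congrArg Subtype.val h)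
  obtain ⟨cb, hcb⟩ := (CharP.isFF1_fullC (IsLocalRing.ResidueField A) N).const_of_ord_nonneg
    ((⟨_, hPk⟩ : ↥(modularFunctionFieldFullC (IsLocalRing.ResidueField A) N)) *
      (⟨_, hsk⟩ : ↥(modularFunctionFieldFullC (IsLocalRing.ResidueField A) N))⁻¹)
    (fun Q => by
      rw [Q.ord_mul hPk0 (inv_ne_zero hsk0), Q.ord_inv, hord Q, add_neg_cancel])
  have hcb0 : cb ≠ 0 := by
    rintro rfl
    rw [map_zero] at hcb
    exact (mul_ne_zero hPk0 (inv_ne_zero hsk0)) hcb
  have hPs : (⟨_, hPk⟩ : ↥(modularFunctionFieldFullC (IsLocalRing.ResidueField A) N)) =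
      algebraMap (IsLocalRing.ResidueField A) _ cb * ⟨_, hsk⟩ := by
    rw [← hcb, mul_assoc, inv_mul_cancel₀ hsk0, mul_one]
  obtain ⟨c, hc⟩ := IsLocalRing.residue_surjective cb
  have hc0 : (c : AlgebraicClosure ℚ) ≠ 0 := by
    intro h0
    apply hcb0
    have h1 : c = 0 := Subtype.ext h0
    rw [← hc, h1, map_zero]
  -- the two series `P` and `c s`
  have hinclz : coeffMap A.subtype (HahnSeries.C c * s) =
      HahnSeries.C (c : AlgebraicClosure ℚ) * coeffMap A.subtype s := by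
    rw [map_mul]
    congr 1
    exact incl_C A c
  have hz : coeffMap A.subtype (HahnSeries.C c * s) ∈ modularFunctionFieldBar N := by
    rw [hinclz]
    exact mul_mem (C_mem _ _) hsF
  have hrbarz : coeffMap (IsLocalRing.residue A) (HahnSeries.C c * s) =
      HahnSeries.C cb * coeffMap (IsLocalRing.residue A) s := by
    rw [map_mul, ← hc]
    congr 1
    exact rbar_C A (IsLocalRing.residue A) c
  have hyz : coeffMap (IsLocalRing.residue A) P =
      coeffMap (IsLocalRing.residue A) (HahnSeries.C c * s) := by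
    rw [hrbarz]
    have h1 := congrArg Subtype.val hPs
    rw [Fermat.Agent.Lib.Red.C_eq_algebraMap]
    exact h1
  have hzbar : coeffMap (IsLocalRing.residue A) (HahnSeries.C c * s) ≠ 0 := by
    rw [← hyz]
    exact hP
  have hzrel : (⟨_, hz⟩ : ↥(modularFunctionFieldBar N)) =
      algebraMap (AlgebraicClosure ℚ) ↥(modularFunctionFieldBar N) (c : AlgebraicClosure ℚ) *
        ⟨_, hsF⟩ := by
    apply Subtype.ext
    show coeffMap A.subtype (HahnSeries.C c * s) = _
    rw [hinclz, Fermat.Agent.Lib.Red.C_eq_algebraMap]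
    rfl
  have hc' : algebraMap (AlgebraicClosure ℚ) ↥(modularFunctionFieldBar N)
      (c : AlgebraicClosure ℚ) ≠ 0 := (map_ne_zero _).2 hc0
  obtain ⟨g, hg⟩ := hK P (HahnSeries.C c * s) hPF hz hzbar hyz (fun v => by
    rw [hzrel, v.ord_mul hc' hs0, Fermat.Agent.S24.ord_algebraMap, zero_add, ← hDP, ← hDs,
      hDPs v]
    exact dvd_mul_right _ _)
  have hg0 : g ≠ 0 := by
    rintro rfl
    rw [zero_pow hm, mul_zero] at hg
    exact hP0 hg
  -- conclusion
  refine ⟨(g₀ : ↥(modularFunctionFieldBar N)) * g, mul_ne_zero hg₀0 hg0, fun v => ?_⟩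
  have h1 : algebraMap (AlgebraicClosure ℚ) ↥(modularFunctionFieldBar N) a * f' =
      algebraMap (AlgebraicClosure ℚ) ↥(modularFunctionFieldBar N) (c : AlgebraicClosure ℚ) *
        g ^ m := by
    have h2 : algebraMap (AlgebraicClosure ℚ) ↥(modularFunctionFieldBar N) a * f' * ⟨_, hsF⟩ =
        algebraMap (AlgebraicClosure ℚ) ↥(modularFunctionFieldBar N) (c : AlgebraicClosure ℚ) *
          g ^ m * ⟨_, hsF⟩ := by
      rw [hrel, hg, hzrel]
      ring
    exact mul_right_cancel₀ hs0 h2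
  have h3 := congrArg v.ord h1
  rw [v.ord_mul ha' hf'0, v.ord_mul hc' (pow_ne_zero m hg0), Fermat.Agent.S24.ord_algebraMap,
    Fermat.Agent.S24.ord_algebraMap, zero_add, zero_add, hordf', Fermat.Agent.ESJ.Jac.ord_pow]
    at h3
  have h4 : D v - E v = v.ord g := mul_left_cancel₀ hm' h3
  rw [v.ord_mul hg₀0 hg0, ← hE v, ← h4]
  ring

set_option synthInstance.maxHeartbeats 400000 in
set_option maxHeartbeats 1000000 in
/-- **RED-INJ from the Kummer root statement**: the predicate `RedTorsionInjective N ℓ A`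
(the content of S18, for an arbitrary place reduction). -/
theorem redTorsionInjective_of_kummerRoot (ℓ : ℕ) (hℓ : ℓ.Prime) (hℓN : ¬ ℓ ∣ N)
    (A : ValuationSubring (AlgebraicClosure ℚ)) (hA : A.LiesOverPrime ℓ)
    (hK : ∀ m : ℕ, m ≠ 0 → ¬ ℓ ∣ m → TorsionESK.KummerRoot N A m) :
    Fermat.Agent.ESJ.RedTorsionInjective N ℓ A := by
  haveI hchar : CharP (IsLocalRing.ResidueField A) ℓ :=
    ConjAnalytic.charP_residueField_of_liesOver A hℓ hA
  have hNk : (N : IsLocalRing.ResidueField A) ≠ 0 := by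
    rw [Ne, CharP.cast_eq_zero_iff (IsLocalRing.ResidueField A) ℓ]
    exact hℓN
  intro r hr hgen m hm z hmz hz
  have hm0 : m ≠ 0 := by
    rintro rfl
    exact hm (dvd_zero ℓ)
  refine OneStepGlue.pic0_eq_zero_of_divisor r hr hgen m ?_ z hmz hz
  intro D _ f₀ hf₀ hmD hbar hhbar hrD
  exact principal_of_kummerRoot N A hNk hm0 (hK m hm0 hm) r hr D f₀ hf₀ hmD hbar hhbar hrD

end Fermat.Agent.ESJ.Cong.RedInjK
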