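import Fermat.Agent.ESJ.Cong.KummerRootLevel
import Fermat.Agent.ESJ.Cong.RedInjK

/-!
# ES-CONG / RED-K: the two ESJ interface predicates from the Kummer root statement in the good
cases

Let `(KR-good)` be the Kummer root statement `KummerRoot M A m` for all levels `M`, primes
`ℓ ∤ M`, valuation subrings `A` of `ℚ̄` over `ℓ` and `m ≠ 0` prime to `ℓ`, in the cases
`ℓ ≥ 5`, or `ℓ = 3` and `2 ∣ M`, or `ℓ = 2` and `3 ∣ M`.  Then

* `redTorsionInjective_of_good` : `RedTorsionInjective N ℓ A` for ALL `ℓ ∤ N` (the content of S18);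
* `torsionESRelation_of_good`   : `TorsionESRelation N p` for all `N`, `p`
  (the input (E) of S29/S42/S30/S31).
-/

set_option autoImplicit false

namespace Fermat.Agent.ESJ.Cong.TorsionESK

open ModularCurve AlgebraicCurve

theorem redTorsionInjective_of_good
    (hgood : ∀ (M : ℕ) [NeZero M] (ℓ : ℕ), ℓ.Prime → ¬ ℓ ∣ M →
      (5 ≤ ℓ ∨ (ℓ = 3 ∧ 2 ∣ M) ∨ (ℓ = 2 ∧ 3 ∣ M)) →
      ∀ A : ValuationSubring (AlgebraicClosure ℚ), A.LiesOverPrime ℓ →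
        ∀ m : ℕ, m ≠ 0 → ¬ ℓ ∣ m → KummerRoot M A m)
    (N : ℕ) [NeZero N] (ℓ : ℕ) (hℓ : ℓ.Prime) (hℓN : ¬ ℓ ∣ N)
    (A : ValuationSubring (AlgebraicClosure ℚ)) (hA : A.LiesOverPrime ℓ) :
    Fermat.Agent.ESJ.RedTorsionInjective N ℓ A :=
  RedInjK.redTorsionInjective_of_kummerRoot N ℓ hℓ hℓN A hA
    (fun m hm0 hm => kummerRoot_of_good hgood N ℓ hℓ hℓN A hA m hm0 hm)

theorem torsionESRelation_of_good
    (hgood : ∀ (M : ℕ) [NeZero M] (ℓ : ℕ), ℓ.Prime → ¬ ℓ ∣ M →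
      (5 ≤ ℓ ∨ (ℓ = 3 ∧ 2 ∣ M) ∨ (ℓ = 2 ∧ 3 ∣ M)) →
      ∀ A : ValuationSubring (AlgebraicClosure ℚ), A.LiesOverPrime ℓ →
        ∀ m : ℕ, m ≠ 0 → ¬ ℓ ∣ m → KummerRoot M A m)
    (N : ℕ) [NeZero N] (p : ℕ) : Fermat.Agent.ESJ.TorsionESRelation N p :=
  torsionESRelation_of_kummerRoot N p (fun ℓ hℓ hℓNp A hA n => by
    have hℓN : ¬ ℓ ∣ N := fun h => hℓNp (dvd_mul_of_dvd_left h p)
    have hℓp : ¬ ℓ ∣ p := fun h => hℓNp (dvd_mul_of_dvd_right h N)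
    have hp0 : p ≠ 0 := by
      rintro rfl
      exact hℓp (dvd_zero ℓ)
    exact kummerRoot_of_good hgood N ℓ hℓ hℓN A hA (p ^ n) (pow_ne_zero n hp0)
      (fun h => hℓp (hℓ.dvd_of_dvd_pow h)))

end Fermat.Agent.ESJ.Cong.TorsionESK
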