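import Mathlib
import Fermat.Agent.ESJ.Cong.LevelPush

/-!
# The level push-forward `α_{q,*} : J₀(N q) → J₀(N)` commutes with `T_ℓ` for EVERY prime `q`

`ESJ/Cong/LevelPush.lean` proves `levelPushAlpha_hecke` under `q ∤ N` (and `levelPushBeta_hecke`
for every prime `q`).  Here the hypothesis `q ∤ N` is removed: if `q^a ∥ N`, the field `F_{Nq}` is
generated over `F_N` by `J(q^(q^(a+1)))` (gcd trick over the primes `r ≠ q` dividing `N`), and
`F_{Nqℓ}` is generated over `F_{Nℓ}` by `J(q^(ℓ q^(a+1)))`; the degrees agree by the tower law.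

* `LevelPushDvd.FF_mul_le_adjoin_fwd_pow` : `F_{q^a N' q} ⊆ F_{q^a N'}(J(q^(q^(a+1))))`, `q ∤ N'`;
* `LevelPushDvd.exists_gen_alpha` : the two generation statements for a common generator;
* `LevelPushDvd.norm_beta_incl_all` : norm compatibility in the square `β_ℓ ∘ α_q = incl ∘ β_ℓ`;
* `levelPushAlpha_hecke_all` : `α_{q,*} T_ℓ = T_ℓ α_{q,*}` for all primes `q`, `ℓ ∤ N q`.
-/

set_option autoImplicit false
set_option linter.style.haveILetI false

noncomputable section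

namespace Fermat.Agent.ESJ.Cong

open AlgebraicCurve ModularCurve IntermediateField
open Fermat.Agent.S24 Fermat.Agent.S28 Fermat.Agent.ESJ.HeckeInputs Fermat.Agent.ESJ.LevelDesc
open Fermat.Agent.ESJ.Cong.LevelGen Fermat.Agent.ESJ.Cong.LevelPull
open Fermat.Agent.ESJ.Cong.LevelPush

namespace LevelPushDvd

local notation "Qb" => AlgebraicClosure ℚ

/-- The gcd trick over `ℚ`, prime-power version: for `d ∣ N'` and `q ∤ N'` prime,
`J(q^(d q^(a+1))) ∈ F_{q^a N'}(J(q^(q^(a+1))))`. -/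
theorem Jd_mul_pow_mem_adjoin_rat (N' q a : ℕ) (hN' : N' ≠ 0) (hq : q.Prime) (hqN' : ¬ q ∣ N') :
    ∀ d : ℕ, d ∣ N' → TD.Jd ℚ (d * q ^ (a + 1)) ∈
      IntermediateField.adjoin ℚ
        ((TD.FF ℚ (q ^ a * N') 1 : Set (LaurentSeries ℚ)) ∪ {TD.Jd ℚ (q ^ (a + 1))}) := by
  intro d
  induction d using Nat.strong_induction_on with
  | _ d ih =>
    intro hd
    have : NeZero q := ⟨hq.ne_zero⟩
    by_cases h1 : d = 1
    · subst h1
      rw [one_mul]
      exact IntermediateField.subset_adjoin ℚ _ (Or.inr rfl)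
    · obtain ⟨r, hr, hrd⟩ := Nat.exists_prime_and_dvd h1
      obtain ⟨e, rfl⟩ := hrd
      have he0 : e ≠ 0 := fun h => hN' (by rw [h, mul_zero] at hd; exact zero_dvd_iff.mp hd)
      have hrN : r ∣ N' := (dvd_mul_right r e).trans hd
      have heN : e ∣ N' := (dvd_mul_left e r).trans hd
      have hne : q ≠ r := fun h => hqN' (h ▸ hrN)
      have : NeZero r := ⟨hr.ne_zero⟩
      have hqa0 : q ^ a ≠ 0 := pow_ne_zero _ hq.ne_zero
      have : NeZero (e * q ^ a) := ⟨Nat.mul_ne_zero he0 hqa0⟩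
      obtain ⟨Dq⟩ := modEq_prime q hq
      obtain ⟨Dr⟩ := modEq_prime r hr
      have hpair := Char0.qExpand_mem_adjoin_pair hq.one_lt hr.one_lt hne
        (RouteT.char0ModEqData_of_TD hq.one_lt Dq) (RouteT.char0ModEqData_of_TD hr.one_lt Dr)
        (e * q ^ a)
      have hrw : TD.Jd ℚ (r * e * q ^ (a + 1)) = qExpand ℚ (e * q ^ a * q * r) jq := by
        have : NeZero (e * q ^ a * q * r) :=
          ⟨Nat.mul_ne_zero (Nat.mul_ne_zero (Nat.mul_ne_zero he0 hqa0) hq.ne_zero) hr.ne_zero⟩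
        rw [show r * e * q ^ (a + 1) = e * q ^ a * q * r by ring, TD.Jd_rat]
      rw [hrw]
      refine (IntermediateField.adjoin_le_iff.mpr ?_) hpair
      rintro s (rfl | hs)
      · -- `J(q^(e q^a r))`, a generator of `F_{q^a N'}`
        have hdvd : e * q ^ a * r ∣ q ^ a * N' := by
          have h3 : e * q ^ a * r = q ^ a * (r * e) := by ring
          rw [h3]
          exact Nat.mul_dvd_mul_left _ hd
        have : NeZero (e * q ^ a * r) :=
          ⟨Nat.mul_ne_zero (Nat.mul_ne_zero he0 hqa0) hr.ne_zero⟩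
        have hmem : TD.Jd ℚ (1 * (e * q ^ a * r)) ∈ TD.FF ℚ (q ^ a * N') 1 :=
          TD.Jd_mem_FF ℚ hdvd
        rw [one_mul, TD.Jd_rat] at hmem
        exact IntermediateField.subset_adjoin ℚ _ (Or.inl hmem)
      · -- `J(q^(e q^(a+1)))`, by induction
        rw [Set.mem_singleton_iff] at hs
        have hlt : e < r * e := by
          have := hr.two_le
          have he1 : 0 < e := Nat.pos_of_ne_zero he0
          nlinarith
        have h2 := ih e hlt heN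
        have : NeZero (e * q ^ a * q) :=
          ⟨Nat.mul_ne_zero (Nat.mul_ne_zero he0 hqa0) hq.ne_zero⟩
        rw [hs, ← TD.Jd_rat, show e * q ^ a * q = e * q ^ (a + 1) by ring]
        exact h2

/-- Generation over `L`: `F_{q^a N' q} ⊆ F_{q^a N'}(J(q^(q^(a+1))))` for `q ∤ N'`. -/
theorem FF_mul_le_adjoin_fwd_pow (L : Type*) [Field L] [Algebra ℚ L] (N' q a : ℕ) (hN' : N' ≠ 0)
    (hq : q.Prime) (hqN' : ¬ q ∣ N') :
    TD.FF L (q ^ a * N' * q) 1 ≤
      IntermediateField.adjoin L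
        ((TD.FF L (q ^ a * N') 1 : Set (LaurentSeries L)) ∪ {TD.Jd L (q ^ (a + 1))}) := by
  set G := IntermediateField.adjoin L
    ((TD.FF L (q ^ a * N') 1 : Set (LaurentSeries L)) ∪ {TD.Jd L (q ^ (a + 1))}) with hG
  have h2 : TD.FF L (q ^ a * N' * q) 1 =
      IntermediateField.adjoin L ((fun d => TD.Jd L (1 * d)) '' {d | d ∣ q ^ a * N' * q}) := rfl
  rw [h2, IntermediateField.adjoin_le_iff]
  rintro _ ⟨d, hd, rfl⟩
  have hd' : d ∣ q ^ a * N' * q := hd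
  show TD.Jd L (1 * d) ∈ G
  rw [one_mul]
  have hd'' : d ∣ q ^ (a + 1) * N' := by
    have h3 : q ^ (a + 1) * N' = q ^ a * N' * q := by ring
    rw [h3]
    exact hd'
  obtain ⟨d₁, d₂, h₁, h₂, rfl⟩ := (Nat.dvd_mul).mp hd''
  obtain ⟨i, hi, rfl⟩ := (Nat.dvd_prime_pow hq).mp h₁
  by_cases hia : i ≤ a
  · have hdN : q ^ i * d₂ ∣ q ^ a * N' := Nat.mul_dvd_mul (pow_dvd_pow q hia) h₂
    have hmem : TD.Jd L (1 * (q ^ i * d₂)) ∈ TD.FF L (q ^ a * N') 1 := TD.Jd_mem_FF L hdN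
    rw [one_mul] at hmem
    exact IntermediateField.subset_adjoin L _ (Or.inl hmem)
  · have hi' : i = a + 1 := by omega
    subst hi'
    rw [mul_comm (q ^ (a + 1)) d₂, ← coeffEmb_Jd L]
    refine coeffEmb_mem_of_mem_adjoin G ?_ (Jd_mul_pow_mem_adjoin_rat N' q a hN' hq hqN' d₂ h₂)
    rintro s (hs | hs)
    · exact IntermediateField.subset_adjoin L _ (Or.inl (coeffEmb_mem_FF L hs))
    · rw [Set.mem_singleton_iff] at hs
      rw [hs, coeffEmb_Jd]
      exact IntermediateField.subset_adjoin L _ (Or.inr rfl)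

section Gen

variable (N q ℓ : ℕ) [NeZero N] [NeZero q] [NeZero ℓ]

/-- **Generation for every prime `q`**: there is `θ ∈ F_{Nq}` generating `F_{Nq}` over `F_N`
whose image `β_ℓ θ` generates `F_{Nqℓ}` over `F_{Nℓ}` (`ℓ ∤ N q` prime). -/
theorem exists_gen_alpha (hq : q.Prime) (hℓ : ℓ.Prime) (hℓNq : ¬ ℓ ∣ N * q) :
    ∃ θ : FN (N * q),
      Subfield.closure (Set.range (heckeAlphaBar Qb N q) ∪ {θ}) = ⊤ ∧
      Subfield.closure (Set.range (incl N q ℓ) ∪ {heckeBetaBar Qb (N * q) ℓ θ}) = ⊤ := by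
  have hN0 : N ≠ 0 := NeZero.ne N
  have hNq0 : N * q ≠ 0 := Nat.mul_ne_zero hN0 hq.ne_zero
  obtain ⟨a, N', hqN', hN⟩ := Nat.exists_eq_pow_mul_and_not_dvd hN0 q hq.ne_one
  have hN'0 : N' ≠ 0 := fun h => hN0 (by rw [hN, h, mul_zero])
  have hqa0 : q ^ (a + 1) ≠ 0 := pow_ne_zero _ hq.ne_zero
  -- the generation `F_{Nq} ⊆ F_N(J(q^(q^(a+1))))`
  have hfwd : TD.FF Qb (N * q) 1 ≤ IntermediateField.adjoin Qb
      ((TD.FF Qb N 1 : Set (LaurentSeries Qb)) ∪ {TD.Jd Qb (q ^ (a + 1))}) := by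
    rw [hN]
    exact FF_mul_le_adjoin_fwd_pow Qb N' q a hN'0 hq hqN'
  have hdvdθ : q ^ (a + 1) ∣ N * q := by
    rw [hN, pow_succ]
    exact ⟨N', by ring⟩
  have hmemθ : TD.Jd Qb (q ^ (a + 1)) ∈ modularFunctionFieldBar (N * q) :=
    mem_bar_of_mem_FF (Jd_mem_FF_one hdvdθ)
  refine ⟨⟨TD.Jd Qb (q ^ (a + 1)), hmemθ⟩, ?_, ?_⟩
  · refine closure_eq_top_of_adjoin _ (fun c => ?_)
      ((TD.FF Qb N 1 : Set (LaurentSeries Qb)) ∪ {TD.Jd Qb (q ^ (a + 1))}) ?_ hfwd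
    · rw [← (heckeAlphaBar Qb N q).commutes c]
      exact Subfield.subset_closure (Or.inl (Set.mem_range_self _))
    · rintro z (hz | hz)
      · have hz' : z ∈ TD.FF Qb N 1 := hz
        have hzb : z ∈ modularFunctionFieldBar N := mem_bar_of_mem_FF hz'
        have hcoe : ((heckeAlphaBar Qb N q ⟨z, hzb⟩ : FN (N * q)) : LaurentSeries Qb) = z :=
          coe_heckeAlphaBar N q ⟨z, hzb⟩
        refine ⟨hcoe ▸ (heckeAlphaBar Qb N q ⟨z, hzb⟩).2,
          Subfield.subset_closure (Or.inl ⟨⟨z, hzb⟩, ?_⟩)⟩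
        exact Subtype.ext hcoe
      · rw [Set.mem_singleton_iff] at hz
        subst hz
        exact ⟨hmemθ, Subfield.subset_closure (Or.inr rfl)⟩
  · have hθ : ((heckeBetaBar Qb (N * q) ℓ ⟨TD.Jd Qb (q ^ (a + 1)), hmemθ⟩ :
        FN (N * q * ℓ)) : LaurentSeries Qb) = TD.Jd Qb (ℓ * q ^ (a + 1)) := by
      rw [coe_heckeBetaBar, TD.qExpand_Jd Qb ℓ (q ^ (a + 1)) hqa0]
    refine closure_eq_top_of_adjoin _ (fun c => ?_)
      ((TD.FF Qb (N * ℓ) 1 : Set (LaurentSeries Qb)) ∪ {TD.Jd Qb (ℓ * q ^ (a + 1))}) ?_ ?_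
    · rw [← (incl N q ℓ).commutes c]
      exact Subfield.subset_closure (Or.inl (Set.mem_range_self _))
    · rintro z (hz | hz)
      · have hz' : z ∈ TD.FF Qb (N * ℓ) 1 := hz
        have hzb : z ∈ modularFunctionFieldBar (N * ℓ) := mem_bar_of_mem_FF hz'
        refine ⟨le_mul_mul N q ℓ hzb, Subfield.subset_closure (Or.inl ⟨⟨z, hzb⟩, ?_⟩)⟩
        exact Subtype.ext (coe_incl N q ℓ ⟨z, hzb⟩)
      · rw [Set.mem_singleton_iff] at hz
        subst hz
        refine ⟨hθ ▸ (heckeBetaBar Qb (N * q) ℓ ⟨TD.Jd Qb (q ^ (a + 1)), hmemθ⟩).2, ?_⟩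
        refine Subfield.subset_closure (Or.inr ?_)
        rw [Set.mem_singleton_iff]
        exact Subtype.ext hθ.symm
    · set G := IntermediateField.adjoin Qb
        ((TD.FF Qb (N * ℓ) 1 : Set (LaurentSeries Qb)) ∪ {TD.Jd Qb (ℓ * q ^ (a + 1))}) with hG
      have hGF : TD.FF Qb (N * ℓ) 1 ≤ G := fun z hz =>
        IntermediateField.subset_adjoin Qb _ (Or.inl hz)
      have hGθ : TD.Jd Qb (ℓ * q ^ (a + 1)) ∈ G :=
        IntermediateField.subset_adjoin Qb _ (Or.inr rfl)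
      have hJℓ : TD.Jd Qb ℓ ∈ G := hGF (Jd_mem_FF_one (dvd_mul_left ℓ N))
      have hJ1 : TD.Jd Qb 1 ∈ G := hGF (Jd_mem_FF_one (one_dvd _))
      -- `J(q^(q^(a+1))) ∈ G` by the reverse generation at level `q^(a+1) ℓ`
      have hJq : TD.Jd Qb (q ^ (a + 1)) ∈ G := by
        have h1 : TD.Jd Qb (q ^ (a + 1)) ∈ TD.FF Qb (q ^ (a + 1) * ℓ) 1 :=
          Jd_mem_FF_one (dvd_mul_right _ ℓ)
        have h2 := FF_mul_le_adjoin_rev Qb (q ^ (a + 1)) ℓ hqa0 hℓ h1
        refine (IntermediateField.adjoin_le_iff.mpr ?_) h2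
        rintro s (hs | hs)
        · -- `F_{q^(a+1)}^{(ℓ)} ⊆ G`
          have hle : TD.FF Qb (q ^ (a + 1)) ℓ ≤ G := by
            unfold TD.FF
            rw [IntermediateField.adjoin_le_iff]
            rintro _ ⟨d, hd, rfl⟩
            have hd' : d ∣ q ^ (a + 1) := hd
            obtain ⟨i, hi, rfl⟩ := (Nat.dvd_prime_pow hq).mp hd'
            show TD.Jd Qb (ℓ * q ^ i) ∈ G
            by_cases hia : i ≤ a
            · refine hGF (Jd_mem_FF_one ?_)
              rw [mul_comm ℓ (q ^ i)]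
              refine Nat.mul_dvd_mul ?_ (dvd_refl ℓ)
              rw [hN]
              exact Dvd.dvd.mul_right (pow_dvd_pow q hia) N'
            · have hi' : i = a + 1 := by omega
              rw [hi']
              exact hGθ
          exact hle hs
        · rw [Set.mem_singleton_iff] at hs
          rw [hs]; exact hJ1
      -- `F_{Nq} ⊆ G`
      have hNq : TD.FF Qb (N * q) 1 ≤ G := by
        refine hfwd.trans (IntermediateField.adjoin_le_iff.mpr ?_)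
        rintro s (hs | hs)
        · exact hGF (FF_le_FF_of_dvd (dvd_mul_right N ℓ) 1 hs)
        · rw [Set.mem_singleton_iff] at hs
          rw [hs]; exact hJq
      refine (FF_mul_le_adjoin_fwd Qb (N * q) ℓ hNq0 hℓ hℓNq).trans
        (IntermediateField.adjoin_le_iff.mpr ?_)
      rintro s (hs | hs)
      · exact hNq hs
      · rw [Set.mem_singleton_iff] at hs
        rw [hs]; exact hJℓ

/-- `[F_{Nqℓ} : F_{Nℓ}] = [F_{Nq} : F_N]` for every `q` (tower law; `ℓ ∤ N q` prime). -/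
theorem finrank_incl_eq (hℓ : ℓ.Prime) (hℓNq : ¬ ℓ ∣ N * q) :
    finrankAlong Qb (incl N q ℓ) = finrankAlong Qb (heckeAlphaBar Qb N q) := by
  have hℓN : ¬ ℓ ∣ N := fun h => hℓNq (Dvd.dvd.mul_right h q)
  have h1 := finrankAlong_comp (heckeAlphaBar Qb N q) (heckeAlphaBar Qb (N * q) ℓ)
  have h2 := finrankAlong_comp (heckeAlphaBar Qb N ℓ) (incl N q ℓ)
  have e2 : finrankAlong Qb (heckeAlphaBar Qb (N * q) ℓ) = ℓ + 1 :=
    ConjAnalytic.finrank_alpha (N * q) ℓ hℓ hℓNq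
  have e3 : finrankAlong Qb (heckeAlphaBar Qb N ℓ) = ℓ + 1 :=
    ConjAnalytic.finrank_alpha N ℓ hℓ hℓN
  rw [alpha_comp_alpha N q ℓ, h2, e2, e3] at h1
  have h3 : 0 < ℓ + 1 := Nat.succ_pos ℓ
  have h4 : (ℓ + 1) * finrankAlong Qb (incl N q ℓ)
      = (ℓ + 1) * finrankAlong Qb (heckeAlphaBar Qb N q) := by
    rw [h1, mul_comm]
  exact Nat.eq_of_mul_eq_mul_left h3 h4

/-- Norm compatibility for the square `β_ℓ ∘ α_q = incl ∘ β_ℓ`, for EVERY prime `q`. -/
theorem norm_beta_incl_all (hq : q.Prime) (hℓ : ℓ.Prime) (hℓNq : ¬ ℓ ∣ N * q)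
    (f : FN (N * q)) :
    (letI := algebraAlong (incl N q ℓ);
      Algebra.norm (FN (N * ℓ)) (heckeBetaBar Qb (N * q) ℓ f))
      = heckeBetaBar Qb N ℓ
          (letI := algebraAlong (heckeAlphaBar Qb N q); Algebra.norm (FN N) f) := by
  obtain ⟨θ, h1, h2⟩ := exists_gen_alpha N q ℓ hq hℓ hℓNq
  exact norm_along_of_closure_eq_top (heckeBetaBar Qb N ℓ) (heckeAlphaBar Qb N q)
    (incl N q ℓ) (heckeBetaBar Qb (N * q) ℓ) (beta_comp_alpha N q ℓ).symm
    (finiteAlong_heckeAlphaBar N q) (finrank_incl_eq N q ℓ hℓ hℓNq) θ h1 h2 f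

end Gen

end LevelPushDvd

open LevelPushDvd

local notation "Qb" => AlgebraicClosure ℚ

set_option synthInstance.maxHeartbeats 400000 in
set_option maxHeartbeats 1000000 in
/-- **`α_{q,*} : J₀(N q) → J₀(N)` commutes with `T_ℓ`** for every prime `ℓ ∤ N q` and EVERY
prime `q` (no hypothesis `q ∤ N`), on all of `J₀(N q)`. -/
theorem levelPushAlpha_hecke_all (N q : ℕ) [NeZero N] [NeZero q] [NeZero (N * q)]
    (hq : q.Prime) (ℓ : Nat.Primes) (hℓ : ¬ (ℓ : ℕ) ∣ N * q) (x : JZero (N * q)) :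
    levelPushAlpha N q (heckeOperatorBar (N * q) ℓ x)
      = heckeOperatorBar N ℓ (levelPushAlpha N q x) := by
  haveI : NeZero (ℓ : ℕ) := ⟨ℓ.2.ne_zero⟩
  haveI hPq := hasPrincipalDivisors_bar (N * q)
  rw [heckeOperatorBar_apply, heckeOperatorBar_apply]
  obtain ⟨hα, hβ, hP, hfin, hFI, hN⟩ := heckeInputsAlong_bar N ℓ
  obtain ⟨hα', hβ', hP', hfin', hFI', hN'⟩ := heckeInputsAlong_bar (N * q) ℓ
  haveI := hP
  haveI := hP'
  have e1 := heckeOperatorAlong_eq hα hβ hFI hfin hN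
  have e2 := heckeOperatorAlong_eq hα' hβ' hFI' hfin' hN'
  rw [e1, e2]
  exact pic0Push_correspondence (heckeAlphaBar Qb N q) (heckeAlphaBar Qb N ℓ)
    (heckeBetaBar Qb N ℓ) (heckeAlphaBar Qb (N * q) ℓ) (heckeBetaBar Qb (N * q) ℓ)
    (incl N q ℓ) (heckeAlphaBarIntegral N q) hα hβ hα' hβ' (isIntegral_incl N q ℓ)
    hFI hfin hN hFI' hfin' hN' (alpha_comp_alpha N q ℓ) (beta_comp_alpha N q ℓ)
    (finiteAlong_heckeAlphaBar N q) (normFormulaAlong_alpha N q)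
    (finiteAlong_incl N q ℓ) (normFormulaAlong_incl N q ℓ)
    (norm_beta_incl_all N q ℓ hq ℓ.2 hℓ) (exists_ord_eq_one (N * q))
    (deg_eq_one_bar (N * q)) (deg_eq_one_bar (N * ℓ)) (deg_eq_one_bar (N * q * ℓ)) x

end Fermat.Agent.ESJ.Cong

end
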