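import Mathlib
import Fermat.Agent.S28.Chain
import Fermat.Agent.S28.StepCore
import Fermat.Agent.Lib.Red.Level
import Fermat.Agent.ESJ.Cong.LevelGen
import Fermat.Agent.ESJ.Cong.LevelPush

/-!
# Exact degrees of the degeneracy maps `α_q`, `β_q : F_N → F_{Nq}` for every prime `q`

For every coefficient field `L ⊇ ℚ`, every level `N` and every prime `q` (dividing `N` or not),
with `F_N = laurentBaseChange L (modularFunctionFieldFull N)`:

* `finrank_alpha_all` : `[F_{Nq} : α_q F_N] = if q ∣ N then q else q + 1`;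
* `finrank_beta_all`  : `[F_{Nq} : β_q F_N] = if q ∣ N then q else q + 1`;
* `finiteAlong_alpha`, `finiteAlong_beta` : both extensions are finite;
* `finrank_alpha_alpha`, `finrank_beta_alpha`, `finrank_alpha_beta`, `finrank_beta_beta` : the
  three pull-backs `F_{M'} → F_{M' q q}` (`y(q) ↦ y(q), y(q^q), y(q^(q^2))`) have degree
  `(q + 1) q` for `q ∤ M'`.

Proofs: `α`: generation of `F_{Nq}` over `F_N` by `J(q^(q^(v+1)))` and the exact degree of its
minimal polynomial (S28 `chain_exists_monic`, `chain_le_natDegree`, `full_mul_prime_eq`);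
`β`: tower through level `1` and `[L(J(q), J(q^q)) : L(J(q^q))] = q + 1` (S28 `step_base`).
-/

set_option autoImplicit false
set_option linter.style.haveILetI false

noncomputable section

namespace Fermat.Agent.ESJ.Cong.LevelDeg

open AlgebraicCurve ModularCurve IntermediateField Polynomial
open Fermat.Agent.S28 Fermat.Agent.ESJ.Cong.LevelGen Fermat.Agent.ESJ.Cong.LevelPush

/-! ### Abstract lemmas -/

section Abstract

variable {K A F₂ : Type*} [Field K] [Field A] [Field F₂] [Algebra K A] [Algebra K F₂]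

/-- The degree of a field embedding `φ : A → F₂` from a generator `θ` of `F₂` over `φ A` and the
exact degree of its minimal polynomial. -/
theorem finrankAlong_eq_of_gen (φ : A →ₐ[K] F₂) (θ : F₂) (n : ℕ)
    (hgen : Subfield.closure (Set.range φ ∪ {θ}) = ⊤)
    (hub : ∃ g : Polynomial A, g.Monic ∧ g.natDegree = n ∧
      (g.map (φ : A →+* F₂)).eval θ = 0)
    (hlb : ∀ f : Polynomial A, f ≠ 0 → (f.map (φ : A →+* F₂)).eval θ = 0 → n ≤ f.natDegree) :
    finrankAlong K φ = n := by
  letI := algebraAlong φ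
  have hmap : ∀ f : Polynomial A, Polynomial.aeval θ f = (f.map (φ : A →+* F₂)).eval θ := by
    intro f
    rw [Polynomial.aeval_def, Polynomial.eval_map]
    rfl
  obtain ⟨g, hg1, hg2, hg3⟩ := hub
  have hg3' : Polynomial.aeval θ g = 0 := by rw [hmap]; exact hg3
  have hint : IsIntegral A θ := ⟨g, hg1, hg3'⟩
  have h1 : IntermediateField.adjoin A {θ} = ⊤ := by
    apply IntermediateField.toSubfield_injective
    rw [IntermediateField.adjoin_toSubfield, IntermediateField.top_toSubfield]
    exact hgen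
  have hdeg : (minpoly A θ).natDegree = n := by
    apply le_antisymm
    · rw [← hg2]
      exact Polynomial.natDegree_le_of_dvd (minpoly.dvd A θ hg3') hg1.ne_zero
    · exact hlb _ (minpoly.ne_zero hint) (by rw [← hmap]; exact minpoly.aeval A θ)
  show Module.finrank A F₂ = n
  rw [← hdeg, ← IntermediateField.adjoin.finrank hint, h1]
  exact (IntermediateField.finrank_top').symm

/-- A surjective field embedding has degree `1`. -/
theorem finrankAlong_of_surjective (φ : A →ₐ[K] F₂) (h : Function.Surjective φ) :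
    finrankAlong K φ = 1 := by
  letI := algebraAlong φ
  show Module.finrank A F₂ = 1
  refine finrank_eq_one (1 : F₂) one_ne_zero (fun w => ?_)
  obtain ⟨c, rfl⟩ := h w
  refine ⟨c, ?_⟩
  rw [Algebra.smul_def, mul_one]
  rfl

/-- Nonzero degree means finite. -/
theorem finiteAlong_of_finrank_ne_zero (φ : A →ₐ[K] F₂) (h : finrankAlong K φ ≠ 0) :
    FiniteAlong K φ := by
  letI := algebraAlong φ
  show Module.Finite A F₂
  exact Module.finite_of_finrank_pos (Nat.pos_of_ne_zero h)

end Abstract

section Coe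

variable {K E : Type*} [Field K] [Field E] [Algebra K E]

/-- Evaluating a polynomial over a subfield `F₁` of `E`, mapped along `φ : F₁ → F₂`, at a point
of the subfield `F₂`: the underlying element of `E`. -/
theorem coe_eval_map {F₁ F₂ : IntermediateField K E} (φ : F₁ →ₐ[K] F₂) (ψ : F₁ →+* E)
    (hφ : ∀ x, ((φ x : F₂) : E) = ψ x) (f : Polynomial F₁) (θ : F₂) :
    (((f.map (φ : F₁ →+* F₂)).eval θ : F₂) : E) = f.eval₂ ψ (θ : E) := by
  have h1 : (((f.map (φ : F₁ →+* F₂)).eval θ : F₂) : E)
      = (F₂.val : F₂ →+* E) ((f.map (φ : F₁ →+* F₂)).eval θ) := rfl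
  rw [h1, Polynomial.eval_map, Polynomial.hom_eval₂]
  congr 1
  ext x
  exact hφ x

/-- A criterion for a subset of a subfield `F₂ ≤ E` to generate it as a field. -/
theorem closure_eq_top_of_le_adjoin (F₂ : IntermediateField K E) (T : Set F₂)
    (hc : ∀ c : K, algebraMap K F₂ c ∈ Subfield.closure T)
    (X : Set E) (hX : ∀ z ∈ X, ∃ h : z ∈ F₂, (⟨z, h⟩ : F₂) ∈ Subfield.closure T)
    (hgen : F₂ ≤ IntermediateField.adjoin K X) : Subfield.closure T = ⊤ := by
  set S' : Subfield E := (Subfield.closure T).map (F₂.val : F₂ →+* E) with hS'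
  have hconst : ∀ c : K, algebraMap K E c ∈ S' := fun c =>
    Subfield.mem_map.mpr ⟨algebraMap K F₂ c, hc c, rfl⟩
  have hle : IntermediateField.adjoin K X ≤ Subfield.toIntermediateField S' hconst := by
    rw [IntermediateField.adjoin_le_iff]
    intro z hz
    obtain ⟨h, hmem⟩ := hX z hz
    exact Subfield.mem_map.mpr ⟨⟨z, h⟩, hmem, rfl⟩
  rw [eq_top_iff]
  rintro ⟨x, hx⟩ -
  obtain ⟨s, hs, hsx⟩ := Subfield.mem_map.mp (hle (hgen hx))
  have hsx' : s = ⟨x, hx⟩ := Subtype.ext hsx
  rw [← hsx']
  exact hs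

end Coe

/-! ### The modular function fields over a coefficient field `L ⊇ ℚ` -/

variable (L : Type) [Field L] [Algebra ℚ L]

/-- `L·F_N` is the Prelude's `modularFunctionFieldFullC L N`. -/
theorem bar_eq_fullC (N : ℕ) [NeZero N] :
    laurentBaseChange L (modularFunctionFieldFull N) = modularFunctionFieldFullC L N :=
  (Fermat.Agent.Lib.Red.laurentBaseChange_eq_FF L N).trans
    (Fermat.Agent.Lib.Red.fullC_eq_FF L N).symm

/-- Monotonicity of `L·F_N` in the level. -/
theorem bar_mono {M M' : ℕ} [NeZero M] [NeZero M'] (h : M ∣ M') :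
    laurentBaseChange L (modularFunctionFieldFull M)
      ≤ laurentBaseChange L (modularFunctionFieldFull M') := by
  rw [laurentBaseChange_full_eq, laurentBaseChange_full_eq]
  unfold TD.FF
  apply IntermediateField.adjoin.mono
  rintro _ ⟨d, hd, rfl⟩
  exact ⟨d, Dvd.dvd.trans hd h, rfl⟩

/-- The inclusion `L·F_M ⊆ L·F_{M'}` for `M ∣ M'`. -/
def inclDvd {M M' : ℕ} [NeZero M] [NeZero M'] (h : M ∣ M') :
    laurentBaseChange L (modularFunctionFieldFull M) →ₐ[L]
      laurentBaseChange L (modularFunctionFieldFull M') :=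
  IntermediateField.inclusion (bar_mono L h)

@[simp]
theorem coe_inclDvd {M M' : ℕ} [NeZero M] [NeZero M'] (h : M ∣ M')
    (x : laurentBaseChange L (modularFunctionFieldFull M)) :
    ((inclDvd L h x : laurentBaseChange L (modularFunctionFieldFull M')) : LaurentSeries L)
      = (x : LaurentSeries L) :=
  IntermediateField.coe_inclusion _ x

section Alpha

variable (N q : ℕ) [NeZero N] [NeZero q]

/-- **The exact degree of `α_q`**: `[F_{Nq} : F_N] = q` if `q ∣ N`, and `q + 1` otherwise. -/
theorem finrank_alpha_all (hq : q.Prime) :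
    finrankAlong L (heckeAlphaBar L N q) = if q ∣ N then q else q + 1 := by
  haveI : CharZero L := algebraRat.charZero L
  have hNk : ((N * q : ℕ) : L) ≠ 0 :=
    Nat.cast_ne_zero.mpr (Nat.mul_ne_zero (NeZero.ne N) hq.ne_zero)
  have hME : ∀ r : ℕ, r.Prime → r ∣ N * q → Nonempty (TD.ModEq r) :=
    fun r hr _ => modEq_prime r hr
  have hBC : ∀ r : ℕ, r.Prime → r ∣ N * q → TD.BaseCase r :=
    fun r hr _ => baseCase_prime r hr
  set θs : LaurentSeries L := qExpand L (q ^ (padicValNat q N + 1)) (jqModC L) with hθs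
  -- the polynomial facts over `F_N`
  have key : ∀ F₁ : IntermediateField L (LaurentSeries L), F₁ = modularFunctionFieldFullC L N →
      (∃ g : Polynomial F₁, g.Monic ∧ g.natDegree = (if q ∣ N then q else q + 1) ∧
        Polynomial.aeval θs g = 0) ∧
      (∀ f : Polynomial F₁, f ≠ 0 → Polynomial.aeval θs f = 0 →
        (if q ∣ N then q else q + 1) ≤ f.natDegree) := by
    rintro F₁ rfl
    exact ⟨chain_exists_monic hq hNk hME,
      fun f hf h0 => chain_le_natDegree hq hNk hME hBC f hf h0⟩
  obtain ⟨hub, hlb⟩ := key _ (bar_eq_fullC L N)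
  -- generation
  have hgen0 : laurentBaseChange L (modularFunctionFieldFull (N * q)) =
      IntermediateField.adjoin L
        ((laurentBaseChange L (modularFunctionFieldFull N) : Set (LaurentSeries L)) ∪ {θs}) := by
    rw [bar_eq_fullC L (N * q), bar_eq_fullC L N]
    exact full_mul_prime_eq hq hNk hME
  have hθmem : θs ∈ laurentBaseChange L (modularFunctionFieldFull (N * q)) := by
    rw [hgen0]
    exact IntermediateField.subset_adjoin L _ (Or.inr rfl)
  have hcoe : ∀ (f : Polynomial (laurentBaseChange L (modularFunctionFieldFull N))),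
      (((f.map ((heckeAlphaBar L N q :
          laurentBaseChange L (modularFunctionFieldFull N) →ₐ[L]
            laurentBaseChange L (modularFunctionFieldFull (N * q))) :
          laurentBaseChange L (modularFunctionFieldFull N) →+*
            laurentBaseChange L (modularFunctionFieldFull (N * q)))).eval ⟨θs, hθmem⟩ :
          laurentBaseChange L (modularFunctionFieldFull (N * q))) : LaurentSeries L)
        = Polynomial.aeval θs f := by
    intro f
    rw [Polynomial.aeval_def]
    exact coe_eval_map (heckeAlphaBar L N q)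
      (algebraMap (laurentBaseChange L (modularFunctionFieldFull N)) (LaurentSeries L))
      (fun x => coe_heckeAlphaBar N q x) f ⟨θs, hθmem⟩
  refine finrankAlong_eq_of_gen (heckeAlphaBar L N q) ⟨θs, hθmem⟩ _ ?_ ?_ ?_
  · refine closure_eq_top_of_le_adjoin _ _ (fun c => ?_)
      ((laurentBaseChange L (modularFunctionFieldFull N) : Set (LaurentSeries L)) ∪ {θs}) ?_
      (le_of_eq hgen0)
    · rw [← (heckeAlphaBar L N q).commutes c]
      exact Subfield.subset_closure (Or.inl (Set.mem_range_self _))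
    · rintro z (hz | hz)
      · have hz' : z ∈ laurentBaseChange L (modularFunctionFieldFull N) := hz
        have hc : ((heckeAlphaBar L N q ⟨z, hz'⟩ :
            laurentBaseChange L (modularFunctionFieldFull (N * q))) : LaurentSeries L) = z :=
          coe_heckeAlphaBar N q ⟨z, hz'⟩
        refine ⟨hc ▸ (heckeAlphaBar L N q ⟨z, hz'⟩).2,
          Subfield.subset_closure (Or.inl ⟨⟨z, hz'⟩, ?_⟩)⟩
        exact Subtype.ext hc
      · rw [Set.mem_singleton_iff] at hz
        subst hz
        exact ⟨hθmem, Subfield.subset_closure (Or.inr rfl)⟩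
  · obtain ⟨g, hg1, hg2, hg3⟩ := hub
    refine ⟨g, hg1, hg2, Subtype.ext ?_⟩
    rw [hcoe g, hg3]
    rfl
  · intro f hf h0
    apply hlb f hf
    rw [← hcoe f, h0]
    rfl

theorem finrank_alpha_of_dvd (hq : q.Prime) (hqN : q ∣ N) :
    finrankAlong L (heckeAlphaBar L N q) = q := by
  rw [finrank_alpha_all L N q hq, if_pos hqN]

theorem finrank_alpha_of_not_dvd (hq : q.Prime) (hqN : ¬ q ∣ N) :
    finrankAlong L (heckeAlphaBar L N q) = q + 1 := by
  rw [finrank_alpha_all L N q hq, if_neg hqN]

theorem finrank_alpha_ne_zero (hq : q.Prime) :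
    finrankAlong L (heckeAlphaBar L N q) ≠ 0 := by
  rw [finrank_alpha_all L N q hq]
  split_ifs
  · exact hq.ne_zero
  · exact Nat.succ_ne_zero q

/-- `F_{Nq}` is finite over `α_q F_N`, for every coefficient field. -/
theorem finiteAlong_alpha (hq : q.Prime) : FiniteAlong L (heckeAlphaBar L N q) :=
  finiteAlong_of_finrank_ne_zero _ (finrank_alpha_ne_zero L N q hq)

end Alpha

section LevelOne

variable (q : ℕ) [NeZero q]

/-- `[L(J(q), J(q^q)) : L(J(q^q))] = q + 1`. -/
theorem finrank_beta_one (hq : q.Prime) :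
    finrankAlong L (heckeBetaBar L 1 q) = q + 1 := by
  haveI : CharZero L := algebraRat.charZero L
  have hqL : (q : L) ≠ 0 := Nat.cast_ne_zero.mpr hq.ne_zero
  obtain ⟨D⟩ := modEq_prime q hq
  have hBC := baseCase_prime q hq
  -- the ring hom `ψ = (q ↦ q^q) : F_1 → L((q))`
  set ψ : laurentBaseChange L (modularFunctionFieldFull 1) →+* LaurentSeries L :=
    (qExpand L q).comp
      (algebraMap (laurentBaseChange L (modularFunctionFieldFull 1)) (LaurentSeries L)) with hψ
  have hψ_apply : ∀ x, ψ x = qExpand L q (x : LaurentSeries L) := fun x => rfl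
  have hψinj : Function.Injective ψ := ψ.injective
  set θ : laurentBaseChange L (modularFunctionFieldFull (1 * q)) :=
    heckeAlphaBar L 1 q (jLevel L 1) with hθ
  have hθcoe : (θ : LaurentSeries L) = TD.Jd L 1 := by
    rw [hθ, coe_heckeAlphaBar, coe_jLevel]
  have hcoe : ∀ (f : Polynomial (laurentBaseChange L (modularFunctionFieldFull 1))),
      (((f.map ((heckeBetaBar L 1 q :
          laurentBaseChange L (modularFunctionFieldFull 1) →ₐ[L]
            laurentBaseChange L (modularFunctionFieldFull (1 * q))) :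
          laurentBaseChange L (modularFunctionFieldFull 1) →+*
            laurentBaseChange L (modularFunctionFieldFull (1 * q)))).eval θ :
          laurentBaseChange L (modularFunctionFieldFull (1 * q))) : LaurentSeries L)
        = f.eval₂ ψ (TD.Jd L 1) := by
    intro f
    rw [← hθcoe]
    exact coe_eval_map (heckeBetaBar L 1 q) ψ (fun x => coe_heckeBetaBar 1 q x) f θ
  -- `ψ` maps `F_1` into `L(J(q^q))`
  have hψmem : ∀ x : laurentBaseChange L (modularFunctionFieldFull 1),
      ψ x ∈ IntermediateField.adjoin L {TD.Jd L (1 * q)} := by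
    intro x
    have hx : (x : LaurentSeries L) ∈ TD.FF L 1 1 := by
      rw [← laurentBaseChange_full_eq]; exact x.2
    have h2 : qExpand L q (x : LaurentSeries L) ∈ TD.FF L 1 q := by
      rw [← StepCore.FF_map_one L one_ne_zero q]
      exact ⟨_, hx, rfl⟩
    rw [StepCore.FF_one_left] at h2
    rw [one_mul, hψ_apply]
    exact h2
  refine finrankAlong_eq_of_gen (heckeBetaBar L 1 q) θ _ ?_ ?_ ?_
  · -- generation: `F_q = L(J(q^q))(J(q))`
    refine closure_eq_top_of_le_adjoin _ _ (fun c => ?_)
      ((TD.FF L 1 q : Set (LaurentSeries L)) ∪ {TD.Jd L 1}) ?_ ?_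
    · rw [← (heckeBetaBar L 1 q).commutes c]
      exact Subfield.subset_closure (Or.inl (Set.mem_range_self _))
    · rintro z (hz | hz)
      · have hz' : z ∈ TD.FF L 1 q := hz
        rw [← StepCore.FF_map_one L one_ne_zero q] at hz'
        obtain ⟨y, hy, rfl⟩ := hz'
        have hyb : y ∈ laurentBaseChange L (modularFunctionFieldFull 1) := by
          rw [laurentBaseChange_full_eq]; exact hy
        exact ⟨(heckeBetaBar L 1 q ⟨y, hyb⟩).2,
          Subfield.subset_closure (Or.inl ⟨⟨y, hyb⟩, rfl⟩)⟩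
      · rw [Set.mem_singleton_iff] at hz
        subst hz
        refine ⟨hθcoe ▸ θ.2, Subfield.subset_closure (Or.inr ?_)⟩
        rw [Set.mem_singleton_iff]
        exact Subtype.ext hθcoe.symm
    · rw [laurentBaseChange_full_eq]
      exact FF_mul_le_adjoin_rev L 1 q one_ne_zero hq
  · -- upper bound: `Φ_q(X, J(q^q))`
    refine ⟨TD.polyAt D.Φ (jLevel L 1), TD.polyAt_monic D.monic _, ?_, Subtype.ext ?_⟩
    · rw [TD.polyAt_natDegree D.monic, D.natDegree_eq]
    · rw [hcoe, Polynomial.eval₂_eq_eval_map, TD.polyAt_map]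
      have h1 : ψ (jLevel L 1) = TD.Jd L (1 * q) := by
        rw [hψ_apply, coe_jLevel, TD.qExpand_Jd L q 1 one_ne_zero, mul_comm]
      rw [h1]
      exact D.rel₁' hq.ne_zero L 1 one_ne_zero
  · -- lower bound: linear independence of `1, J, …, J^q` over `L(J(q^q))`
    intro f hf h0
    by_contra hlt
    rw [not_le] at hlt
    have h0' : f.eval₂ ψ (TD.Jd L 1) = 0 := by
      rw [← hcoe f, h0]
      rfl
    have hsum : ∑ t : Fin (q + 1), ψ (f.coeff (t : ℕ)) * TD.Jd L 1 ^ (t : ℕ) = 0 := by
      rw [Fin.sum_univ_eq_sum_range (fun i => ψ (f.coeff i) * TD.Jd L 1 ^ i) (q + 1),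
        ← Polynomial.eval₂_eq_sum_range' ψ hlt]
      exact h0'
    have hzero := StepCore.step_base L q 1 one_ne_zero hq hqL D hBC
      (fun t => ψ (f.coeff (t : ℕ))) (fun t => hψmem _) hsum
    apply hf
    refine Polynomial.ext fun i => ?_
    rw [Polynomial.coeff_zero]
    by_cases hi : i < q + 1
    · have := hzero ⟨i, hi⟩
      exact hψinj (by rw [this, map_zero])
    · exact Polynomial.coeff_eq_zero_of_natDegree_lt (lt_of_lt_of_le hlt (not_lt.mp hi))

end LevelOne

section Beta

/-- `F_N` is finite over `F_1 = L(J)`. -/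
theorem finrank_inclOne_ne_zero : ∀ (N : ℕ) (hN : N ≠ 0),
    (haveI : NeZero N := ⟨hN⟩; finrankAlong L (inclDvd L (one_dvd N)) ≠ 0) := by
  intro N
  induction N using Nat.strong_induction_on with
  | _ N ih =>
    intro hN
    rcases eq_or_ne N 1 with rfl | hN1
    · have hs : Function.Surjective (inclDvd L (one_dvd 1)) := fun x =>
        ⟨x, Subtype.ext (coe_inclDvd L _ x)⟩
      rw [finrankAlong_of_surjective _ hs]
      exact one_ne_zero
    · obtain ⟨r, hr, M, rfl⟩ : ∃ r, r.Prime ∧ ∃ M, N = M * r :=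
        ⟨N.minFac, Nat.minFac_prime hN1, N / N.minFac,
          (Nat.div_mul_cancel (Nat.minFac_dvd N)).symm⟩
      have hM : M ≠ 0 := fun h => hN (by rw [h, zero_mul])
      have hMlt : M < M * r := by
        have := hr.two_le
        have hM' : 0 < M := Nat.pos_of_ne_zero hM
        nlinarith
      haveI : NeZero M := ⟨hM⟩
      haveI : NeZero r := ⟨hr.ne_zero⟩
      haveI : NeZero (M * r) := ⟨hN⟩
      have e : inclDvd L (one_dvd (M * r))
          = (heckeAlphaBar L M r).comp (inclDvd L (one_dvd M)) := by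
        refine AlgHom.ext fun x => Subtype.ext ?_
        rw [AlgHom.comp_apply, coe_heckeAlphaBar, coe_inclDvd, coe_inclDvd]
      show finrankAlong L (inclDvd L (one_dvd (M * r))) ≠ 0
      rw [e, finrankAlong_comp]
      exact Nat.mul_ne_zero (ih M hMlt hM) (finrank_alpha_ne_zero L M r hr)

variable (N q : ℕ) [NeZero N] [NeZero q]

/-- **The exact degree of `β_q`**: `[F_{Nq} : β_q F_N] = q` if `q ∣ N`, and `q + 1` otherwise. -/
theorem finrank_beta_all (hq : q.Prime) :
    finrankAlong L (heckeBetaBar L N q) = if q ∣ N then q else q + 1 := by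
  rw [← finrank_alpha_all L N q hq]
  have hdvd : 1 * q ∣ N * q := Nat.mul_dvd_mul_right (one_dvd N) q
  have h1 := finrankAlong_comp (inclDvd L (one_dvd N)) (heckeBetaBar L N q)
  have h2 := finrankAlong_comp (heckeBetaBar L 1 q) (inclDvd L hdvd)
  have e : (heckeBetaBar L N q).comp (inclDvd L (one_dvd N))
      = (inclDvd L hdvd).comp (heckeBetaBar L 1 q) := by
    refine AlgHom.ext fun x => Subtype.ext ?_
    rw [AlgHom.comp_apply, AlgHom.comp_apply, coe_heckeBetaBar, coe_inclDvd, coe_inclDvd,
      coe_heckeBetaBar]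
  have h3 := finrankAlong_comp (inclDvd L (one_dvd N)) (heckeAlphaBar L N q)
  have h4 := finrankAlong_comp (heckeAlphaBar L 1 q) (inclDvd L hdvd)
  have e' : (heckeAlphaBar L N q).comp (inclDvd L (one_dvd N))
      = (inclDvd L hdvd).comp (heckeAlphaBar L 1 q) := by
    refine AlgHom.ext fun x => Subtype.ext ?_
    rw [AlgHom.comp_apply, AlgHom.comp_apply, coe_heckeAlphaBar, coe_inclDvd, coe_inclDvd,
      coe_heckeAlphaBar]
  have hα1 : finrankAlong L (heckeAlphaBar L 1 q) = q + 1 :=
    finrank_alpha_of_not_dvd L 1 q hq hq.not_dvd_one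
  rw [e, h2, finrank_beta_one L q hq] at h1
  rw [e', h4, hα1] at h3
  have hpos : 0 < finrankAlong L (inclDvd L (one_dvd N)) :=
    Nat.pos_of_ne_zero (finrank_inclOne_ne_zero L N (NeZero.ne N))
  exact Nat.eq_of_mul_eq_mul_left hpos (h1.symm.trans h3)

theorem finrank_beta_of_dvd (hq : q.Prime) (hqN : q ∣ N) :
    finrankAlong L (heckeBetaBar L N q) = q := by
  rw [finrank_beta_all L N q hq, if_pos hqN]

theorem finrank_beta_of_not_dvd (hq : q.Prime) (hqN : ¬ q ∣ N) :
    finrankAlong L (heckeBetaBar L N q) = q + 1 := by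
  rw [finrank_beta_all L N q hq, if_neg hqN]

theorem finrank_beta_ne_zero (hq : q.Prime) :
    finrankAlong L (heckeBetaBar L N q) ≠ 0 := by
  rw [finrank_beta_all L N q hq]
  split_ifs
  · exact hq.ne_zero
  · exact Nat.succ_ne_zero q

/-- `F_{Nq}` is finite over `β_q F_N`, for every coefficient field. -/
theorem finiteAlong_beta (hq : q.Prime) : FiniteAlong L (heckeBetaBar L N q) :=
  finiteAlong_of_finrank_ne_zero _ (finrank_beta_ne_zero L N q hq)

end Beta

/-! ### The three pull-backs `F_{M'} → F_{M' q q}` -/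

section Square

variable (M' q : ℕ) [NeZero M'] [NeZero q]

/-- `y(q) ↦ y(q)`: degree `(q + 1) q`. -/
theorem finrank_alpha_alpha (hq : q.Prime) (hqM : ¬ q ∣ M') :
    finrankAlong L ((heckeAlphaBar L (M' * q) q).comp (heckeAlphaBar L M' q)) = (q + 1) * q := by
  rw [finrankAlong_comp, finrank_alpha_of_not_dvd L M' q hq hqM,
    finrank_alpha_of_dvd L (M' * q) q hq (dvd_mul_left q M')]

/-- `y(q) ↦ y(q^q)` (first `β`, then `α`): degree `(q + 1) q`. -/
theorem finrank_alpha_beta (hq : q.Prime) (hqM : ¬ q ∣ M') :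
    finrankAlong L ((heckeAlphaBar L (M' * q) q).comp (heckeBetaBar L M' q)) = (q + 1) * q := by
  rw [finrankAlong_comp, finrank_beta_of_not_dvd L M' q hq hqM,
    finrank_alpha_of_dvd L (M' * q) q hq (dvd_mul_left q M')]

/-- `y(q) ↦ y(q^q)` (first `α`, then `β`): degree `(q + 1) q`. -/
theorem finrank_beta_alpha (hq : q.Prime) (hqM : ¬ q ∣ M') :
    finrankAlong L ((heckeBetaBar L (M' * q) q).comp (heckeAlphaBar L M' q)) = (q + 1) * q := by
  rw [finrankAlong_comp, finrank_alpha_of_not_dvd L M' q hq hqM,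
    finrank_beta_of_dvd L (M' * q) q hq (dvd_mul_left q M')]

/-- `y(q) ↦ y(q^(q^2))`: degree `(q + 1) q`. -/
theorem finrank_beta_beta (hq : q.Prime) (hqM : ¬ q ∣ M') :
    finrankAlong L ((heckeBetaBar L (M' * q) q).comp (heckeBetaBar L M' q)) = (q + 1) * q := by
  rw [finrankAlong_comp, finrank_beta_of_not_dvd L M' q hq hqM,
    finrank_beta_of_dvd L (M' * q) q hq (dvd_mul_left q M')]

end Square

end Fermat.Agent.ESJ.Cong.LevelDeg

end
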