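import Fermat.Agent.ESJ.Interfaces
import Fermat.Agent.ESJ.Jac.HeckeKummer
import Fermat.Agent.ESJ.Cong.NormRedAnalytic
import Fermat.Agent.ESJ.Cong.GaloisRed
import Fermat.Agent.ESJ.Cong.FrobFibre
import Fermat.Agent.Lib.Red.Unconditional
import Fermat.Agent.S24.PlaceBasic

/-!
# ES-CONG / RED-K, consumer (a): `TorsionESRelation` from the Kummer root statement (K18)

No place reduction is used.  Let `A` be a valuation subring of `ℚ̄` over `ℓ ∤ N`.

`KummerRoot N A m` (the "ratio form" of (K18)): if `y, z ∈ A((q)) ∩ F_N` have the same nonzero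
reduction modulo the maximal ideal of `A`, and the divisor of `y / z` is divisible by `m`,
then `y / z` is an `m`-th power in `F_N`.

From `KummerRoot N A m`:

* `inertia_smul_eq`      : the inertia group of `A` acts trivially on `J₀(N)[m]`;
* `frobenius_relation`   : `σ² - T_ℓ σ + ℓ = 0` on `J₀(N)[m]` for every Frobenius element `σ`
                           of `A`;
* `torsionESRelation_of_kummerRoot` : `TorsionESRelation N p` from `KummerRoot N A (p ^ n)`
                           for all `ℓ ∤ N p`, `A` over `ℓ`, `n`.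

Proof: a Kummer function of `x ∈ J₀(N)[m]` is `a⁻¹ P / s` with `P, s ∈ A((q)) ∩ F_N` of nonzero
reduction (`GoodV`).  For `τ` in the inertia group, `x - τ x` has Kummer function
`(P · τ s) / (s · τ P)`; for a Frobenius `σ`, `σ² x - T_ℓ σ x + ℓ x` has Kummer function
`(σ² P · P^ℓ · g_s) / (σ² s · s^ℓ · g_P)` with `g_y = Nm_α (β (σ y))`, and the congruence
`red g_y = red (σ² y) · ȳ^ℓ` (CONG-D and Frobenius on `q`-series) shows that numerator and
denominator have the same reduction.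
-/

set_option autoImplicit false

noncomputable section

namespace Fermat.Agent.ESJ.Cong.TorsionESK

open ModularCurve AlgebraicCurve HahnSeries
open Fermat.Agent.ESJ.Jac Fermat.Agent.ESJ.Jac.HeckeKummer Fermat.Agent.ESJ.Cong

/-! ### Kummer pairs: semilinear automorphisms, constants -/

section General

variable {K F : Type*} [Field K] [Field F] [Algebra K F]

/-- Kummer pairs are equivariant under semilinear automorphisms. -/
theorem isKummerPair_semilinear_smul {n : ℕ} {x : Pic0 K F} {f : F} (h : IsKummerPair n x f)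
    (g : SemilinearAut K F) : IsKummerPair n (g • x) (g • f) := by
  obtain ⟨hf, D, rfl, hD⟩ := h
  refine ⟨by simpa using hf, SemilinearAut.degZeroSMulHom g D,
    (SemilinearAut.pic0_smul_mk g D).symm, fun w => ?_⟩
  rw [SemilinearAut.coe_degZeroSMulHom, SemilinearAut.divisor_smul_apply, hD (g⁻¹ • w)]
  have h1 := SemilinearAut.ord_smul g (g⁻¹ • w) f
  rw [smul_inv_smul] at h1
  exact h1.symm

/-- A Kummer function may be multiplied by a nonzero constant. -/
theorem isKummerPair_const_mul {n : ℕ} {x : Pic0 K F} {f : F} (h : IsKummerPair n x f) {a : K}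
    (ha : a ≠ 0) : IsKummerPair n x (algebraMap K F a * f) := by
  obtain ⟨hf, D, rfl, hD⟩ := h
  have ha' : algebraMap K F a ≠ 0 := (map_ne_zero _).2 ha
  refine ⟨mul_ne_zero ha' hf, D, rfl, fun v => ?_⟩
  rw [v.ord_mul ha' hf, Fermat.Agent.S24.ord_algebraMap, zero_add, hD v]

end General

/-! ### Frobenius on `q`-series -/

section Frob

variable {k : Type*} [Field k] (ℓ : ℕ) [NeZero ℓ] [ExpChar k ℓ]

/-- The shape of the reduction of the norm in CONG-D, solved for the norm. -/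
theorem eq_of_qExpand_eq (u g : LaurentSeries k)
    (h : qExpand k ℓ g = qExpand k (ℓ * ℓ) (coeffMap (frobenius k ℓ) u) *
      (coeffMap (frobenius k ℓ) u) ^ ℓ) :
    g = u ^ ℓ * coeffMap (frobenius k ℓ) (coeffMap (frobenius k ℓ) u) := by
  apply qExpand_injective ℓ
  rw [h, map_mul, ← qExpand_qExpand, ← FrobFibre.pow_char_eq_qExpand ℓ u,
    ← FrobFibre.pow_char_eq_qExpand ℓ (coeffMap (frobenius k ℓ) u)]

end Frob

/-! ### The decomposition group on integral series -/

section Decomp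

variable (N : ℕ) [NeZero N] (A : ValuationSubring (AlgebraicClosure ℚ))

omit [NeZero N] in
/-- The coefficientwise action of the decomposition group on `A((q)) ∩ F_N`, upstairs and
downstairs. -/
theorem exists_galois_smul (σ : A.decompositionSubgroup ℚ) (y : LaurentSeries A)
    (hy : coeffMap A.subtype y ∈ modularFunctionFieldBar N) :
    ∃ (y' : LaurentSeries A) (hy' : coeffMap A.subtype y' ∈ modularFunctionFieldBar N),
      arithmeticGalois (modularFunctionFieldFull N)
        ((σ : AlgebraicClosure ℚ ≃ₐ[ℚ] AlgebraicClosure ℚ)) •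
          (⟨_, hy⟩ : modularFunctionFieldBar N) = ⟨_, hy'⟩ ∧
      coeffMap (IsLocalRing.residue A) y' =
        coeffMap ((resAut A σ : IsLocalRing.ResidueField A ≃+* IsLocalRing.ResidueField A) :
          IsLocalRing.ResidueField A →+* IsLocalRing.ResidueField A)
          (coeffMap (IsLocalRing.residue A) y) := by
  have h := coeffMap_subtype_decompRingHom A σ y
  have hmem : coeffMap A.subtype (coeffMap (decompRingHom A σ) y) ∈ modularFunctionFieldBar N := by
    rw [h]
    exact (arithmeticGalois (modularFunctionFieldFull N)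
      ((σ : AlgebraicClosure ℚ ≃ₐ[ℚ] AlgebraicClosure ℚ)) •
        (⟨_, hy⟩ : modularFunctionFieldBar N)).2
  exact ⟨coeffMap (decompRingHom A σ) y, hmem, Subtype.ext h.symm,
    coeffMap_residue_decompRingHom A σ y⟩

end Decomp

/-! ### The Kummer root statement and its consequences -/

variable (N : ℕ) [NeZero N]

/-- **(K18), ratio form.**  Two `A`-integral series of `F_N` with the same nonzero reduction
whose quotient has a divisor divisible by `m` differ by an `m`-th power. -/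
def KummerRoot (A : ValuationSubring (AlgebraicClosure ℚ)) (m : ℕ) : Prop :=
  ∀ (y z : LaurentSeries A) (hy : coeffMap A.subtype y ∈ modularFunctionFieldBar N)
    (hz : coeffMap A.subtype z ∈ modularFunctionFieldBar N),
    coeffMap (IsLocalRing.residue A) z ≠ 0 →
    coeffMap (IsLocalRing.residue A) y = coeffMap (IsLocalRing.residue A) z →
    (∀ v : Place (AlgebraicClosure ℚ) (modularFunctionFieldBar N),
      (m : ℤ) ∣ v.ord (⟨_, hy⟩ : modularFunctionFieldBar N) -
        v.ord (⟨_, hz⟩ : modularFunctionFieldBar N)) →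
    ∃ g : modularFunctionFieldBar N,
      (⟨_, hy⟩ : modularFunctionFieldBar N) = ⟨_, hz⟩ * g ^ m

variable {N}

omit [NeZero N] in
theorem incl_ne_zero {A : ValuationSubring (AlgebraicClosure ℚ)} {z : LaurentSeries A}
    (hz : coeffMap A.subtype z ∈ modularFunctionFieldBar N)
    (hzbar : coeffMap (IsLocalRing.residue A) z ≠ 0) :
    (⟨_, hz⟩ : modularFunctionFieldBar N) ≠ 0 := by
  intro h0
  apply hzbar
  have h1 : coeffMap A.subtype z = 0 := congrArg Subtype.val h0
  have hz' : z = 0 :=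
    (coeffMap_eq_zero_iff_of_injective A.subtype Subtype.val_injective z).mp h1
  rw [hz', map_zero]

/-- A class whose Kummer function is a quotient of two integral series with the same nonzero
reduction is zero. -/
theorem eq_zero_of_ratio {A : ValuationSubring (AlgebraicClosure ℚ)} {m : ℕ} (hm : m ≠ 0)
    (hK : KummerRoot N A m) {x : JZero N} {H : modularFunctionFieldBar N}
    (hpair : IsKummerPair m x H) (y z : LaurentSeries A)
    (hy : coeffMap A.subtype y ∈ modularFunctionFieldBar N)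
    (hz : coeffMap A.subtype z ∈ modularFunctionFieldBar N)
    (hzbar : coeffMap (IsLocalRing.residue A) z ≠ 0)
    (hyz : coeffMap (IsLocalRing.residue A) y = coeffMap (IsLocalRing.residue A) z)
    (hH : H * ⟨_, hz⟩ = ⟨_, hy⟩) : x = 0 := by
  have hz0 : (⟨_, hz⟩ : modularFunctionFieldBar N) ≠ 0 := incl_ne_zero hz hzbar
  have hH0 : H ≠ 0 := hpair.ne_zero
  obtain ⟨g, hg⟩ := hK y z hy hz hzbar hyz (fun v => by
    obtain ⟨-, D, -, hD⟩ := hpair
    rw [← hH, v.ord_mul hH0 hz0, add_sub_cancel_right, ← hD v]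
    exact dvd_mul_right _ _)
  have hHg : H = g ^ m := by
    have h1 : H * ⟨_, hz⟩ = g ^ m * ⟨_, hz⟩ := by rw [hH, hg, mul_comm]
    exact mul_right_cancel₀ hz0 h1
  have hg0 : g ≠ 0 := by
    rintro rfl
    rw [zero_pow hm] at hHg
    exact hH0 hHg
  have hpair' : IsKummerPair m x (1 * g ^ m) := by
    rw [one_mul, ← hHg]
    exact hpair
  exact IsKummerPair.eq_zero_of_eq_mul_pow hm hpair' (fun v => v.ord_one) hg0

variable (N)

/-- Every torsion class has a Kummer function which is a quotient `P / s` of two `A`-integral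
series of `F_N` with nonzero reductions. -/
theorem exists_integral_kummerPair (A : ValuationSubring (AlgebraicClosure ℚ))
    (hNk : (N : IsLocalRing.ResidueField A) ≠ 0) {m : ℕ} {x : JZero N}
    (hx : (m : ℤ) • x = 0) :
    ∃ (f : modularFunctionFieldBar N) (P s : LaurentSeries A)
      (hP : coeffMap A.subtype P ∈ modularFunctionFieldBar N)
      (hs : coeffMap A.subtype s ∈ modularFunctionFieldBar N),
      IsKummerPair m x f ∧ coeffMap (IsLocalRing.residue A) P ≠ 0 ∧
        coeffMap (IsLocalRing.residue A) s ≠ 0 ∧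
        f * ⟨_, hs⟩ = ⟨_, hP⟩ := by
  obtain ⟨f, hf⟩ := exists_isKummerPair (Pic0.mem_torsion.mpr hx)
  have hf0 : (f : LaurentSeries (AlgebraicClosure ℚ)) ≠ 0 := fun h => hf.ne_zero (Subtype.ext h)
  obtain ⟨a, P, s, ha, hPF, hsF, hP, hs, -, -, heq⟩ :=
    Fermat.Agent.Lib.Red.goodV_full' A (IsLocalRing.residue A) N hNk
      (f : LaurentSeries (AlgebraicClosure ℚ)) f.2 hf0
  refine ⟨algebraMap (AlgebraicClosure ℚ) (modularFunctionFieldBar N) a * f, P, s, hPF, hsF,
    isKummerPair_const_mul hf ha, hP, hs, Subtype.ext ?_⟩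
  have h1 : ((algebraMap (AlgebraicClosure ℚ) (modularFunctionFieldBar N) a :
      modularFunctionFieldBar N) : LaurentSeries (AlgebraicClosure ℚ)) = HahnSeries.C a := by
    rw [Fermat.Agent.Lib.Red.C_eq_algebraMap]
    rfl
  show ((algebraMap (AlgebraicClosure ℚ) (modularFunctionFieldBar N) a :
      modularFunctionFieldBar N) : LaurentSeries (AlgebraicClosure ℚ)) *
        (f : LaurentSeries (AlgebraicClosure ℚ)) * coeffMap A.subtype s = coeffMap A.subtype P
  rw [h1]
  exact heq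

/-- **Inertia acts trivially on torsion** (from the Kummer root statement). -/
theorem inertia_smul_eq (A : ValuationSubring (AlgebraicClosure ℚ))
    (hNk : (N : IsLocalRing.ResidueField A) ≠ 0) {m : ℕ} (hm : m ≠ 0) (hK : KummerRoot N A m)
    (τ : AlgebraicClosure ℚ ≃ₐ[ℚ] AlgebraicClosure ℚ) (hτ : τ ∈ A.inertiaSubgroupIn ℚ)
    (x : JZero N) (hx : (m : ℤ) • x = 0) : τ • x = x := by
  obtain ⟨f, P, s, hPF, hsF, hf, hP, hs, hfs⟩ := exists_integral_kummerPair N A hNk hx
  obtain ⟨hd, hres⟩ := resAut_eq_one_of_mem_inertia A hτ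
  set G := arithmeticGalois (modularFunctionFieldFull N) τ with hG
  obtain ⟨P1, hP1, hGP, hrP1⟩ := exists_galois_smul N A ⟨τ, hd⟩ P hPF
  obtain ⟨s1, hs1, hGs, hrs1⟩ := exists_galois_smul N A ⟨τ, hd⟩ s hsF
  have hid : ∀ u : LaurentSeries (IsLocalRing.ResidueField A),
      coeffMap ((resAut A ⟨τ, hd⟩ : IsLocalRing.ResidueField A ≃+* IsLocalRing.ResidueField A) :
        IsLocalRing.ResidueField A →+* IsLocalRing.ResidueField A) u = u := by
    intro u
    rw [hres]
    exact coeffMap_id u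
  rw [hid] at hrP1 hrs1
  have hGf : IsKummerPair m (τ • x) (G • f) := isKummerPair_semilinear_smul hf G
  have hpair : IsKummerPair m (x + -(τ • x)) (f * (G • f)⁻¹) := hf.add hGf.neg
  have hGf0 : G • f ≠ 0 := hGf.ne_zero
  -- the Galois conjugate of `f * s = P`
  have hGfs : G • f * ⟨_, hs1⟩ = ⟨_, hP1⟩ := by
    rw [← hGs, ← hGP, ← smul_mul', hfs]
  have hy : coeffMap A.subtype (P * s1) ∈ modularFunctionFieldBar N := by
    rw [map_mul]
    exact mul_mem hPF hs1
  have hz : coeffMap A.subtype (s * P1) ∈ modularFunctionFieldBar N := by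
    rw [map_mul]
    exact mul_mem hsF hP1
  have h0 : x + -(τ • x) = 0 := by
    refine eq_zero_of_ratio hm hK hpair (P * s1) (s * P1) hy hz ?_ ?_ ?_
    · rw [map_mul, hrP1]
      exact mul_ne_zero hs hP
    · rw [map_mul, map_mul, hrP1, hrs1, mul_comm]
    · have e1 : (⟨_, hz⟩ : modularFunctionFieldBar N) = ⟨_, hsF⟩ * ⟨_, hP1⟩ :=
        Subtype.ext (map_mul _ _ _)
      have e2 : (⟨_, hy⟩ : modularFunctionFieldBar N) = ⟨_, hPF⟩ * ⟨_, hs1⟩ :=
        Subtype.ext (map_mul _ _ _)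
      rw [e1, e2, ← hfs, ← hGfs]
      field_simp
  have h1 : x = τ • x := by
    have := eq_neg_of_add_eq_zero_left h0
    rwa [neg_neg] at this
  exact h1.symm

/-- **The Eichler–Shimura relation on torsion** (from the Kummer root statement): for a
Frobenius element `σ` of `A` over `ℓ ∤ N`, `σ² - T_ℓ σ + ℓ = 0` on `J₀(N)[m]`. -/
theorem frobenius_relation (A : ValuationSubring (AlgebraicClosure ℚ)) (ℓ : ℕ) (hℓ : ℓ.Prime)
    (hℓN : ¬ ℓ ∣ N) (hA : A.LiesOverPrime ℓ) {m : ℕ} (hm : m ≠ 0) (hK : KummerRoot N A m)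
    (σ : AlgebraicClosure ℚ ≃ₐ[ℚ] AlgebraicClosure ℚ) (hσ : A.IsFrobeniusAt σ ℓ)
    (x : JZero N) (hx : (m : ℤ) • x = 0) :
    σ • σ • x - heckeOperatorBar N ⟨ℓ, hℓ⟩ (σ • x) + ℓ • x = 0 := by
  haveI : NeZero ℓ := ⟨hℓ.ne_zero⟩
  haveI : Fact ℓ.Prime := ⟨hℓ⟩
  haveI hchar : CharP (IsLocalRing.ResidueField A) ℓ :=
    ConjAnalytic.charP_residueField_of_liesOver A hℓ hA
  haveI : ExpChar (IsLocalRing.ResidueField A) ℓ := ExpChar.prime hℓ
  have hNk : (N : IsLocalRing.ResidueField A) ≠ 0 := by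
    rw [Ne, CharP.cast_eq_zero_iff (IsLocalRing.ResidueField A) ℓ]
    exact hℓN
  obtain ⟨f, P, s, hPF, hsF, hf, hP, hs, hfs⟩ := exists_integral_kummerPair N A hNk hx
  have hd := hσ.mem_decompositionSubgroup
  have hφ : ((resAut A ⟨σ, hd⟩ : IsLocalRing.ResidueField A ≃+* IsLocalRing.ResidueField A) :
      IsLocalRing.ResidueField A →+* IsLocalRing.ResidueField A) =
      frobenius (IsLocalRing.ResidueField A) ℓ :=
    RingHom.ext fun u => by
      rw [frobenius_def]
      exact resAut_apply_of_isFrobeniusAt A hσ u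
  set G := arithmeticGalois (modularFunctionFieldFull N) σ with hG
  obtain ⟨P1, hP1, hGP, hrP1⟩ := exists_galois_smul N A ⟨σ, hd⟩ P hPF
  obtain ⟨s1, hs1, hGs, hrs1⟩ := exists_galois_smul N A ⟨σ, hd⟩ s hsF
  obtain ⟨P2, hP2, hGP1, hrP2⟩ := exists_galois_smul N A ⟨σ, hd⟩ P1 hP1
  obtain ⟨s2, hs2, hGs1, hrs2⟩ := exists_galois_smul N A ⟨σ, hd⟩ s1 hs1
  rw [hφ] at hrP1 hrs1 hrP2 hrs2
  obtain ⟨gP, hgP, hnormP, hredP⟩ := ConjAnalytic.norm_beta_reduction N ℓ hℓ hℓN A hA P1 hP1
  obtain ⟨gs, hgs, hnorms, hreds⟩ := ConjAnalytic.norm_beta_reduction N ℓ hℓ hℓN A hA s1 hs1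
  -- the reductions of the two norms
  rw [hrP1] at hredP
  rw [hrs1] at hreds
  have hgP' := eq_of_qExpand_eq ℓ _ _ hredP
  have hgs' := eq_of_qExpand_eq ℓ _ _ hreds
  rw [hrP1] at hrP2
  rw [hrs1] at hrs2
  rw [← hrP2] at hgP'
  rw [← hrs2] at hgs'
  have hP2ne : coeffMap (IsLocalRing.residue A) P2 ≠ 0 := by
    rw [hrP2]
    intro h0
    have h1 := (coeffMap_eq_zero_iff_of_injective _ (frobenius_inj _ ℓ) _).mp h0
    exact hP ((coeffMap_eq_zero_iff_of_injective _ (frobenius_inj _ ℓ) _).mp h1)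
  have hs2ne : coeffMap (IsLocalRing.residue A) s2 ≠ 0 := by
    rw [hrs2]
    intro h0
    have h1 := (coeffMap_eq_zero_iff_of_injective _ (frobenius_inj _ ℓ) _).mp h0
    exact hs ((coeffMap_eq_zero_iff_of_injective _ (frobenius_inj _ ℓ) _).mp h1)
  -- Kummer pairs
  have hGf : IsKummerPair m (σ • x) (G • f) := isKummerPair_semilinear_smul hf G
  have hGGf : IsKummerPair m (σ • σ • x) (G • G • f) := isKummerPair_semilinear_smul hGf G
  have hT := isKummerPair_heckeOperatorBar N ⟨ℓ, hℓ⟩ hGf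
  have hℓx : IsKummerPair m (ℓ • x) (f ^ ℓ) := hf.nsmul ℓ
  have hpair := (hGGf.add hT.neg).add hℓx
  have hT0 := hT.ne_zero
  -- the conjugates of `f * s = P`
  have hGfs : G • f * ⟨_, hs1⟩ = ⟨_, hP1⟩ := by
    rw [← hGs, ← hGP, ← smul_mul', hfs]
  have hGGfs : G • G • f * ⟨_, hs2⟩ = ⟨_, hP2⟩ := by
    rw [← hGs1, ← hGP1, ← smul_mul', hGfs]
  have hnorm : normAlong (heckeAlphaBar (AlgebraicClosure ℚ) N ℓ)
      (heckeBetaBar (AlgebraicClosure ℚ) N ℓ (G • f)) * ⟨_, hgs⟩ = ⟨_, hgP⟩ := by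
    have e1 : normAlong (heckeAlphaBar (AlgebraicClosure ℚ) N ℓ)
        (heckeBetaBar (AlgebraicClosure ℚ) N ℓ ⟨_, hs1⟩) = ⟨_, hgs⟩ := hnorms
    have e2 : normAlong (heckeAlphaBar (AlgebraicClosure ℚ) N ℓ)
        (heckeBetaBar (AlgebraicClosure ℚ) N ℓ ⟨_, hP1⟩) = ⟨_, hgP⟩ := hnormP
    rw [← e1, ← e2, ← hGfs, map_mul, map_mul]
  have hy : coeffMap A.subtype (P2 * gs * P ^ ℓ) ∈ modularFunctionFieldBar N := by
    rw [map_mul, map_mul, map_pow]
    exact mul_mem (mul_mem hP2 hgs) (pow_mem hPF ℓ)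
  have hz : coeffMap A.subtype (s2 * gP * s ^ ℓ) ∈ modularFunctionFieldBar N := by
    rw [map_mul, map_mul, map_pow]
    exact mul_mem (mul_mem hs2 hgP) (pow_mem hsF ℓ)
  have h0 := eq_zero_of_ratio hm hK hpair (P2 * gs * P ^ ℓ) (s2 * gP * s ^ ℓ) hy hz (by
      rw [map_mul, map_mul, map_pow, hgP']
      exact mul_ne_zero (mul_ne_zero hs2ne (mul_ne_zero (pow_ne_zero ℓ hP) hP2ne))
        (pow_ne_zero ℓ hs)) (by
      rw [map_mul, map_mul, map_pow, map_mul, map_mul, map_pow, hgP', hgs']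
      ring) (by
      have e1 : (⟨_, hz⟩ : modularFunctionFieldBar N) = ⟨_, hs2⟩ * ⟨_, hgP⟩ * ⟨_, hsF⟩ ^ ℓ :=
        Subtype.ext (by
          show coeffMap A.subtype (s2 * gP * s ^ ℓ) =
            coeffMap A.subtype s2 * coeffMap A.subtype gP * coeffMap A.subtype s ^ ℓ
          rw [map_mul, map_mul, map_pow])
      have e2 : (⟨_, hy⟩ : modularFunctionFieldBar N) = ⟨_, hP2⟩ * ⟨_, hgs⟩ * ⟨_, hPF⟩ ^ ℓ :=
        Subtype.ext (by
          show coeffMap A.subtype (P2 * gs * P ^ ℓ) =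
            coeffMap A.subtype P2 * coeffMap A.subtype gs * coeffMap A.subtype P ^ ℓ
          rw [map_mul, map_mul, map_pow])
      rw [e1, e2, ← hGGfs, ← hnorm, ← hfs, mul_pow]
      field_simp)
  rw [sub_eq_add_neg]
  exact h0

/-- **`TorsionESRelation` from the Kummer root statement** (no place reduction). -/
theorem torsionESRelation_of_kummerRoot (p : ℕ)
    (hK : ∀ ℓ : ℕ, ℓ.Prime → ¬ ℓ ∣ N * p → ∀ A : ValuationSubring (AlgebraicClosure ℚ),
      A.LiesOverPrime ℓ → ∀ n : ℕ, KummerRoot N A (p ^ n)) :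
    TorsionESRelation N p := by
  intro ℓ hℓ hℓNp A hA
  have hℓN : ¬ ℓ ∣ N := fun h => hℓNp (dvd_mul_of_dvd_left h p)
  have hp0 : p ≠ 0 := by
    rintro rfl
    exact hℓNp (by simp)
  haveI hchar : CharP (IsLocalRing.ResidueField A) ℓ :=
    ConjAnalytic.charP_residueField_of_liesOver A hℓ hA
  have hNk : (N : IsLocalRing.ResidueField A) ≠ 0 := by
    rw [Ne, CharP.cast_eq_zero_iff (IsLocalRing.ResidueField A) ℓ]
    exact hℓN
  refine ⟨fun σ hσ x hx => ?_, fun σ hσ x hx => ?_⟩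
  · obtain ⟨n, hn⟩ := hx
    exact inertia_smul_eq N A hNk (pow_ne_zero n hp0) (hK ℓ hℓ hℓNp A hA n) σ hσ x
      (by rw [natCast_zsmul]; exact hn)
  · obtain ⟨n, hn⟩ := hx
    exact frobenius_relation N A ℓ hℓ hℓN hA (pow_ne_zero n hp0) (hK ℓ hℓ hℓNp A hA n) σ hσ x
      (by rw [natCast_zsmul]; exact hn)

end Fermat.Agent.ESJ.Cong.TorsionESK
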