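import Mathlib
import Fermat.Prelude.Def_ModularCurve_HeckeModule

/-!
# ES-CONG, package A: the formal reduction of `SpecializationExists` to four facts about a
"kernel of reduction" `K0`.

Given an additive subgroup `K0` of a Hecke–Galois module `J` such that
* inertia moves every element by an element of `K0`,
* all Frobenius elements agree modulo `K0` and one of them preserves `K0`,
* `K0` contains no nonzero `p`-power torsion,
* the Eichler–Shimura relation `σ² - T_ℓ σ + ℓ` maps `J` into `K0`,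
we produce the data required by `ModularCurve.IsSpecialization` and
`ModularCurve.SpecialFibreRelation`.  Hecke stability of the kernel is obtained for free by
passing to the largest Hecke submodule contained in `K0`.
-/

set_option autoImplicit false

namespace Fermat.Agent.ESJ.Cong

open ModularCurve

section Formal

variable {K L : Type*} [Field K] [Field L] [Algebra K L]
variable (p : ℕ) (J : Type) [AddCommGroup J] [Module HeckeAlg J]
  [DistribMulAction (L ≃ₐ[K] L) J] [SMulCommClass (L ≃ₐ[K] L) HeckeAlg J]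

/-- The largest Hecke submodule contained in an additive subgroup. -/
def heckeCore (K0 : AddSubgroup J) : Submodule HeckeAlg J where
  carrier := {x | ∀ T : HeckeAlg, T • x ∈ K0}
  add_mem' := by
    intro x y hx hy T
    rw [smul_add]
    exact K0.add_mem (hx T) (hy T)
  zero_mem' := by
    intro T
    rw [smul_zero]
    exact K0.zero_mem
  smul_mem' := by
    intro T' x hx T
    rw [smul_smul]
    exact hx (T * T')

variable {J}

theorem mem_heckeCore {K0 : AddSubgroup J} {x : J} :
    x ∈ heckeCore J K0 ↔ ∀ T : HeckeAlg, T • x ∈ K0 := Iff.rfl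

theorem heckeCore_le (K0 : AddSubgroup J) {x : J} (hx : x ∈ heckeCore J K0) : x ∈ K0 := by
  have := hx 1
  rwa [one_smul] at this

/-- The Galois action of one element as a Hecke-linear endomorphism. -/
def galLin (σ : L ≃ₐ[K] L) : J →ₗ[HeckeAlg] J where
  toFun x := σ • x
  map_add' x y := smul_add σ x y
  map_smul' T x := by
    simp only [RingHom.id_apply]
    exact smul_comm σ T x

@[simp] theorem galLin_apply (σ : L ≃ₐ[K] L) (x : J) : galLin (J := J) σ x = σ • x := rfl

/-- **Formal core of S37.** -/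
theorem exists_specialization_of_kernel (A : ValuationSubring L) (ℓ : ℕ) (hℓ : ℓ.Prime)
    (K0 : AddSubgroup J) (σ0 : L ≃ₐ[K] L)
    (ha : ∀ τ ∈ A.inertiaSubgroupIn K, ∀ x : J, τ • x - x ∈ K0)
    (hb : ∀ σ : L ≃ₐ[K] L, A.IsFrobeniusAt σ ℓ → ∀ x : J, σ • x - σ0 • x ∈ K0)
    (hb' : ∀ x ∈ K0, σ0 • x ∈ K0)
    (hc : ∀ x : J, (∃ n : ℕ, p ^ n • x = 0) → x ∈ K0 → x = 0)
    (hd : ∀ x : J, σ0 • σ0 • x - heckeGen ⟨ℓ, hℓ⟩ • (σ0 • x) + ℓ • x ∈ K0) :
    ∃ (J' : Type) (_ : AddCommGroup J') (_ : Module HeckeAlg J') (sp : J →+ J')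
      (F : J' →+ J'),
      IsSpecialization (K := K) p J J' A ℓ sp F ∧ SpecialFibreRelation J' ℓ hℓ F := by
  classical
  set Kc : Submodule HeckeAlg J := heckeCore J K0 with hKc
  have hstab : Kc ≤ Kc.comap (galLin (J := J) σ0) := by
    intro x hx
    rw [Submodule.mem_comap, galLin_apply]
    intro T
    rw [← smul_comm σ0 T x]
    exact hb' _ (hx T)
  refine ⟨J ⧸ Kc, inferInstance, inferInstance, Kc.mkQ.toAddMonoidHom,
    (Kc.mapQ Kc (galLin (J := J) σ0) hstab).toAddMonoidHom, ⟨?_, ?_, ?_, ?_⟩, ?_⟩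
  · -- hecke_comm
    intro T x
    exact map_smul Kc.mkQ T x
  · -- inertia_comm
    intro τ hτ x
    show Kc.mkQ (τ • x) = Kc.mkQ x
    rw [← sub_eq_zero, ← map_sub, Submodule.mkQ_apply, Submodule.Quotient.mk_eq_zero]
    intro T
    rw [smul_sub, ← smul_comm τ T x]
    exact ha τ hτ (T • x)
  · -- frobenius_comm
    intro σ hσ x
    show Kc.mkQ (σ • x) = Kc.mapQ Kc (galLin (J := J) σ0) hstab (Kc.mkQ x)
    rw [Submodule.mkQ_apply, Submodule.mkQ_apply, Submodule.mapQ_apply, galLin_apply,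
      ← sub_eq_zero, ← Submodule.Quotient.mk_sub, Submodule.Quotient.mk_eq_zero]
    intro T
    rw [smul_sub, ← smul_comm σ T x, ← smul_comm σ0 T x]
    exact hb σ hσ (T • x)
  · -- injective_torsion
    intro x hx hsp
    have hmem : x ∈ Kc := by
      have : Kc.mkQ x = 0 := hsp
      rwa [Submodule.mkQ_apply, Submodule.Quotient.mk_eq_zero] at this
    exact hc x hx (heckeCore_le K0 hmem)
  · -- special fibre relation
    intro y
    obtain ⟨x, rfl⟩ := Kc.mkQ_surjective y
    show Kc.mapQ Kc (galLin (J := J) σ0) hstab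
          (Kc.mapQ Kc (galLin (J := J) σ0) hstab (Kc.mkQ x))
        - heckeGen ⟨ℓ, hℓ⟩ • Kc.mapQ Kc (galLin (J := J) σ0) hstab (Kc.mkQ x)
        + ℓ • Kc.mkQ x = 0
    rw [Submodule.mkQ_apply, Submodule.mapQ_apply, Submodule.mapQ_apply, galLin_apply,
      galLin_apply, ← Submodule.Quotient.mk_smul, ← Submodule.Quotient.mk_sub,
      ← Submodule.Quotient.mk_smul, ← Submodule.Quotient.mk_add,
      Submodule.Quotient.mk_eq_zero]
    intro T
    have h := hd (T • x)
    have e : T • (σ0 • σ0 • x - heckeGen ⟨ℓ, hℓ⟩ • σ0 • x + ℓ • x)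
        = σ0 • σ0 • (T • x) - heckeGen ⟨ℓ, hℓ⟩ • (σ0 • (T • x)) + ℓ • (T • x) := by
      rw [smul_add, smul_sub, smul_comm T (heckeGen ⟨ℓ, hℓ⟩) (σ0 • x), smul_comm T ℓ x,
        ← smul_comm σ0 T (σ0 • x), ← smul_comm σ0 T x]
    rw [e]
    exact h

end Formal

end Fermat.Agent.ESJ.Cong
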