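import Fermat.Agent.S24.CuspHom
import Fermat.Agent.S24.PtInv
import Fermat.Agent.S24.HNFMod
import Fermat.Agent.S28.TowerDefs
import Fermat.Agent.S28.Rot
import Fermat.Prelude.Def_ModularCurve_HeckeOperator

/-!
# ES-CONG, CONG-D2: the conjugate embeddings of `F_{Nℓ}` over `F_N`, analytic route

For a prime `ℓ ∤ N` and an `ℓ`-th root of unity `w ∈ ℚ̄` there is a field embedding
`τ_w : F_{Nℓ} → ℚ̄((t))` (`t = q^{1/ℓ}`) with

* `τ_w (α x) = x(t^ℓ)` (`α` = the inclusion `F_N ⊆ F_{Nℓ}`), and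
* `τ_w (β x) = x(w t)` (`β` = the substitution `q ↦ q^ℓ`),

for all `x ∈ F_N`.  Proof: on `ℍ`, `τ_w` is `G ↦ G ∘ γ` expanded in `q_ℓ = exp(2πi z/ℓ)`, where
`γ ∈ Γ₀(N)` satisfies `[ℓ 0; 0 1] γ = γ' [1 b; 0 ℓ]` with `γ' ∈ Γ₀(N)`; relations between
`q`-series transfer to relations between functions and back (`S24/QExp`).
-/

set_option autoImplicit false
set_option linter.unusedSectionVars false

open UpperHalfPlane ModularForm Filter Function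
open scoped MatrixGroups Manifold Topology

namespace Fermat.Agent.ESJ.Cong.ConjAnalytic

open ModularCurve Fermat.Agent.S24 Fermat.Agent.S24.QExp Fermat.Agent.S28.Chain Fermat.Agent.S28

noncomputable section

/-! ### A field embedding from a family of expansions -/

section General

variable (M : ℕ) [NeZero M] (h : ℕ) [NeZero h] (g : SL(2, ℤ)) (S : Dv M → LaurentSeries KQ)

theorem hasQExp_trans_ev_of
    (hS : ∀ d, HasQExp h (trans g (Jabd d.1 0 1)) (coeffMap iotaK (S d)))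
    (P : MvPolynomial (Dv M) KQ) :
    HasQExp h (trans g (ev M P)) (coeffMap iotaK (MvPolynomial.aeval S P)) := by
  rw [trans_ev]
  exact HasQExp.mvPolynomial iotaK _ _ hS P

theorem aeval_eq_zero_iff
    (hS : ∀ d, HasQExp h (trans g (Jabd d.1 0 1)) (coeffMap iotaK (S d)))
    (P : MvPolynomial (Dv M) KQ) : MvPolynomial.aeval S P = 0 ↔ fm M P = 0 := by
  rw [← ev_eq_zero_iff, ← trans_eq_zero_iff g]
  have key := (hasQExp_trans_ev_of M h g S hS P).eq_zero_iff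
  constructor
  · intro h0
    funext z
    exact key.mpr (by rw [h0, map_zero]) z
  · intro h0
    have := key.mp (fun z => by rw [h0]; rfl)
    exact coeffMap_injective' iotaK (by rw [this, map_zero])

/-- A family of `q_h`-expansions over `ℚ̄` of the translates of the generators defines a field
embedding of `F_M` into `ℚ̄((q_h))`. -/
theorem exists_hom_of_series
    (hS : ∀ d, HasQExp h (trans g (Jabd d.1 0 1)) (coeffMap iotaK (S d))) :
    ∃ τ : FN M →+* LaurentSeries KQ,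
      ∀ P : MvPolynomial (Dv M) KQ, τ (fm M P) = MvPolynomial.aeval S P := by
  let aS : MvPolynomial (Dv M) KQ →ₐ[KQ] LaurentSeries KQ := MvPolynomial.aeval S
  have hker : RingHom.ker ((fm M).rangeRestrict : MvPolynomial (Dv M) KQ →+* (fm M).range)
      ≤ RingHom.ker (aS : MvPolynomial (Dv M) KQ →+* LaurentSeries KQ) := by
    intro P hP
    rw [RingHom.mem_ker] at hP ⊢
    have h0 : fm M P = 0 := by
      have := congrArg Subtype.val hP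
      simpa using this
    exact (aeval_eq_zero_iff M h g S hS P).mpr h0
  let τA : (fm M).range →+* LaurentSeries KQ :=
    RingHom.liftOfSurjective ((fm M).rangeRestrict : MvPolynomial (Dv M) KQ →+* (fm M).range)
      (fm M).rangeRestrict_surjective
      ⟨(aS : MvPolynomial (Dv M) KQ →+* LaurentSeries KQ), hker⟩
  have hτA : ∀ P, τA ((fm M).rangeRestrict P) = MvPolynomial.aeval S P := fun P =>
    RingHom.liftOfSurjective_comp_apply _ _ _ P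
  have hinj : Function.Injective τA := by
    rw [injective_iff_map_eq_zero]
    intro a ha
    obtain ⟨P, rfl⟩ := (fm M).rangeRestrict_surjective a
    rw [hτA] at ha
    exact Subtype.ext ((aeval_eq_zero_iff M h g S hS P).mp ha)
  refine ⟨IsFractionRing.lift hinj, fun P => ?_⟩
  have := IsFractionRing.lift_algebraMap (K := FN M) hinj ((fm M).rangeRestrict P)
  rw [hτA] at this
  exact this

end General

/-! ### The matrices -/

/-- For `ℓ` coprime to `N` and any `b`: `γ, γ' ∈ Γ₀(N)` with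
`[ℓ 0; 0 1] γ = γ' [1 b; 0 ℓ]`, in Möbius form. -/
theorem exists_gamma (N ℓ : ℕ) (hℓ0 : ℓ ≠ 0) (hcop : Nat.Coprime ℓ N) (b : ℕ) :
    ∃ γ γ' : SL(2, ℤ), γ ∈ CongruenceSubgroup.Gamma0 N ∧ γ' ∈ CongruenceSubgroup.Gamma0 N ∧
      ∀ z w : ℍ, (w : ℂ) = ((z : ℂ) + b) / ℓ →
        ((γ' • w : ℍ) : ℂ) = (ℓ : ℂ) * ((γ • z : ℍ) : ℂ) := by
  have hcop' : IsCoprime ((b * N + ℓ : ℕ) : ℤ) (N : ℤ) := by
    rw [Nat.isCoprime_iff_coprime]
    have h1 : Nat.Coprime (ℓ + N * b) N := (Nat.coprime_add_mul_left_left ℓ N b).mpr hcop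
    rwa [add_comm, mul_comm] at h1
  obtain ⟨x, y', hxy⟩ := hcop'
  -- x * u + y' * N = 1
  set u : ℤ := ((b * N + ℓ : ℕ) : ℤ) with hu
  have hu' : u = (b : ℤ) * N + ℓ := by rw [hu]; push_cast; ring
  let γ : SL(2, ℤ) := ⟨!![x, -y'; (N : ℤ), u], by
    rw [Matrix.det_fin_two_of]; linear_combination hxy⟩
  let γ' : SL(2, ℤ) := ⟨!![(ℓ : ℤ) * x, -y' - b * x; (N : ℤ), 1], by
    rw [Matrix.det_fin_two_of]; rw [hu'] at hxy; linear_combination hxy⟩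
  refine ⟨γ, γ', ?_, ?_, ?_⟩
  · rw [CongruenceSubgroup.Gamma0_mem]
    show (((N : ℤ) : ℤ) : ZMod N) = 0
    simp
  · rw [CongruenceSubgroup.Gamma0_mem]
    show (((N : ℤ) : ℤ) : ZMod N) = 0
    simp
  · intro z w hw
    have hℓC : (ℓ : ℂ) ≠ 0 := by exact_mod_cast hℓ0
    have hden1 : ((N : ℤ) : ℂ) * (z : ℂ) + ((u : ℤ) : ℂ) ≠ 0 := by
      intro h0
      have him : ((N : ℤ) : ℝ) * z.im = 0 := by
        have := congrArg Complex.im h0
        simpa using this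
      have hN0 : (N : ℤ) = 0 := by
        rcases mul_eq_zero.mp him with h1 | h1
        · exact_mod_cast h1
        · exact absurd h1 z.im_pos.ne'
      rw [hN0] at h0 hxy
      have hu0 : u = 0 := by
        simp only [Int.cast_zero, zero_mul, zero_add] at h0
        exact_mod_cast h0
      rw [hu0] at hxy
      simp at hxy
    rw [coe_specialLinearGroup_apply, coe_specialLinearGroup_apply]
    show ((((ℓ : ℤ) * x : ℤ) : ℂ) * (w : ℂ) + ((-y' - b * x : ℤ) : ℂ)) /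
        ((((N : ℤ) : ℤ) : ℂ) * (w : ℂ) + ((1 : ℤ) : ℂ)) =
      (ℓ : ℂ) * ((((x : ℤ) : ℂ) * (z : ℂ) + ((-y' : ℤ) : ℂ)) /
        ((((N : ℤ) : ℤ) : ℂ) * (z : ℂ) + ((u : ℤ) : ℂ)))
    have hnum : (((ℓ : ℤ) * x : ℤ) : ℂ) * (w : ℂ) + ((-y' - b * x : ℤ) : ℂ) =
        ((x : ℤ) : ℂ) * (z : ℂ) + ((-y' : ℤ) : ℂ) := by
      rw [hw]
      push_cast
      field_simp
      ring
    have hden : (((N : ℤ) : ℤ) : ℂ) * (w : ℂ) + ((1 : ℤ) : ℂ) =
        ((((N : ℤ) : ℤ) : ℂ) * (z : ℂ) + ((u : ℤ) : ℂ)) / ℓ := by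
      rw [hw, hu']
      push_cast
      field_simp
      ring
    rw [hnum, hden]
    field_simp

/-! ### The functions -/

/-- Generators of level dividing `N` are `Γ₀(N)`-invariant. -/
theorem trans_Jabd_of_dvd_N (N : ℕ) [NeZero N] {γ : SL(2, ℤ)}
    (hγ : γ ∈ CongruenceSubgroup.Gamma0 N) (d : ℕ) (hd : d ∣ N) :
    trans γ⁻¹ (Jabd d 0 1) = Jabd d 0 1 := by
  funext z
  show Jabd d 0 1 ((γ⁻¹)⁻¹ • z) = Jabd d 0 1 z
  rw [inv_inv]
  exact PtInv.Jabd_smul_Gamma0 N ⟨d, hd⟩ γ hγ z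

/-- `J (ℓ d (γ z)) = J (d (z + b) / ℓ)`. -/
theorem trans_Jabd_mul (N ℓ : ℕ) [NeZero N] (hℓ0 : 0 < ℓ) {γ γ' : SL(2, ℤ)}
    (hγ' : γ' ∈ CongruenceSubgroup.Gamma0 N) (b : ℕ)
    (hrel : ∀ z w : ℍ, (w : ℂ) = ((z : ℂ) + b) / ℓ →
      ((γ' • w : ℍ) : ℂ) = (ℓ : ℂ) * ((γ • z : ℍ) : ℂ))
    (d : ℕ) (hd : d ∣ N) :
    trans γ⁻¹ (Jabd (ℓ * d) 0 1) = Jabd d (d * b) ℓ := by
  have hd0 : 0 < d := Nat.pos_of_dvd_of_pos hd (Nat.pos_of_ne_zero (NeZero.ne N))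
  funext z
  show Jabd (ℓ * d) 0 1 ((γ⁻¹)⁻¹ • z) = Jabd d (d * b) ℓ z
  rw [inv_inv, HNFMod.Jabd_eq (ℓ * d) 0 1 (Nat.mul_pos hℓ0 hd0) one_pos,
    HNFMod.Jabd_eq d (d * b) ℓ hd0 hℓ0]
  set w : ℍ := HNFMod.affPt 1 b ℓ one_pos hℓ0 z with hw
  have hwc : (w : ℂ) = ((z : ℂ) + b) / ℓ := by
    rw [hw, HNFMod.coe_affPt]
    simp
  have h1 := hrel z w hwc
  have hℓC : (ℓ : ℂ) ≠ 0 := by exact_mod_cast hℓ0.ne'
  exact HNF.invariant_of_mem_Gamma0 Jfun JPt.Jfun_smul N d hd γ' hγ' w _ _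
    (by rw [HNFMod.coe_affPt, h1]; push_cast; ring)
    (by rw [HNFMod.coe_affPt, hwc]; push_cast; field_simp)

/-! ### The expansions in `q_ℓ` -/

theorem jqC_eq : coeffMap (algebraMap ℚ ℂ) jq = jqModC ℂ := by
  rw [← jqModC_rat, coeffMap_jqModC]

theorem hasQExp_Jabd_level (ℓ : ℕ) [NeZero ℓ] (d : ℕ) [NeZero d] :
    HasQExp ℓ (Jabd d 0 1) (qExpand ℂ ℓ (TD.Jd ℂ d)) := by
  have h1 := (hasQExp_Jabd_scale d).level ℓ
  rw [jqC_eq, ← TD.Jd_eq ℂ d] at h1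
  simpa only [one_mul] using h1

theorem zetaU_pow (m : ℕ) (b : ℤ) (d : ℕ) : zetaU m b ^ d = zetaU m (d * b) := by
  ext
  simp only [zetaU, Units.val_pow_eq_pow_val, Units.val_mk0]
  rw [← Complex.exp_nat_mul]
  congr 1
  push_cast
  ring

theorem hasQExp_Jabd_twist (ℓ : ℕ) [NeZero ℓ] (d : ℕ) [NeZero d] (b : ℕ) :
    HasQExp ℓ (Jabd d (d * b) ℓ) (rot (zetaU ℓ b) (TD.Jd ℂ d)) := by
  have h1 := hasQExp_Jabd d (d * b) ℓ
  rw [jqC_eq] at h1
  rw [TD.Jd_eq ℂ d, rot_qExpand, zetaU_pow]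
  have e : ((d * b : ℕ) : ℤ) = (d : ℤ) * ((b : ℕ) : ℤ) := by push_cast; ring
  rw [e] at h1
  exact h1

/-- The series attached to the generator of index `d' ∣ N ℓ`:
`J(w t^(d'/ℓ))` if `ℓ ∣ d'`, and `J(t^(ℓ d'))` otherwise. -/
def ser (ℓ : ℕ) [NeZero ℓ] (w : KQˣ) (d' : ℕ) : LaurentSeries KQ :=
  if ℓ ∣ d' then rot w (TD.Jd KQ (d' / ℓ)) else qExpand KQ ℓ (TD.Jd KQ d')

theorem hasQExp_ser (N ℓ : ℕ) [NeZero N] [NeZero ℓ] (hℓ : ℓ.Prime) (b : ℕ) (w : KQˣ)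
    (hw : Units.map (iotaK : KQ →* ℂ) w = zetaU ℓ b) {γ γ' : SL(2, ℤ)}
    (hγ : γ ∈ CongruenceSubgroup.Gamma0 N) (hγ' : γ' ∈ CongruenceSubgroup.Gamma0 N)
    (hrel : ∀ z w : ℍ, (w : ℂ) = ((z : ℂ) + b) / ℓ →
      ((γ' • w : ℍ) : ℂ) = (ℓ : ℂ) * ((γ • z : ℍ) : ℂ))
    (d' : Dv (N * ℓ)) :
    HasQExp ℓ (trans γ⁻¹ (Jabd d'.1 0 1)) (coeffMap iotaK (ser ℓ w d'.1)) := by
  unfold ser
  split_ifs with hdvd
  · obtain ⟨d, hd⟩ := hdvd
    have hdN : d ∣ N := by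
      have h2 := d'.2
      rw [hd, mul_comm N ℓ] at h2
      exact (Nat.mul_dvd_mul_iff_left hℓ.pos).mp h2
    haveI : NeZero d := ⟨fun h0 => NeZero.ne N (by rw [h0] at hdN; exact zero_dvd_iff.mp hdN)⟩
    rw [hd, Nat.mul_div_cancel_left d hℓ.pos, trans_Jabd_mul N ℓ hℓ.pos hγ' b hrel d hdN,
      coeffMap_rot, hw, TD.coeffMap_Jd]
    exact hasQExp_Jabd_twist ℓ d b
  · have hdN : d'.1 ∣ N :=
      Nat.Coprime.dvd_of_dvd_mul_right ((Nat.Prime.coprime_iff_not_dvd hℓ).mpr hdvd).symm d'.2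
    haveI : NeZero d'.1 := d'.neZero
    rw [trans_Jabd_of_dvd_N N hγ d'.1 hdN, coeffMap_qExpand, TD.coeffMap_Jd]
    exact hasQExp_Jabd_level ℓ d'.1

/-! ### The degeneracy maps on polynomials in the generators -/

/-- `d ↦ d` from the divisors of `N` to the divisors of `N ℓ`. -/
def inclD (N ℓ : ℕ) (d : Dv N) : Dv (N * ℓ) := ⟨d.1, Dvd.dvd.mul_right d.2 ℓ⟩

/-- `d ↦ ℓ d` from the divisors of `N` to the divisors of `N ℓ`. -/
def inclL (N ℓ : ℕ) (d : Dv N) : Dv (N * ℓ) :=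
  ⟨ℓ * d.1, by rw [mul_comm N ℓ]; exact Nat.mul_dvd_mul_left ℓ d.2⟩

theorem coe_jFormal (N : ℕ) [NeZero N] (d : Dv N) :
    (jFormal N d : LaurentSeries KQ) = TD.Jd KQ d.1 := by
  haveI := d.neZero
  show coeffEmb KQ (qExpand ℚ d.1 jq) = _
  rw [← TD.Jd_rat, coeffEmb, TD.coeffMap_Jd]

theorem qExpand_aeval (N ℓ : ℕ) [NeZero N] [NeZero ℓ] (f : Dv N → LaurentSeries KQ)
    (P : MvPolynomial (Dv N) KQ) :
    qExpand KQ ℓ (MvPolynomial.aeval f P) = MvPolynomial.aeval (fun d => qExpand KQ ℓ (f d)) P := by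
  have h := congrArg (fun φ => φ P)
    (MvPolynomial.comp_aeval (R := KQ) f (qExpandAlgHomC KQ ℓ))
  simpa only [AlgHom.comp_apply, qExpandAlgHomC_apply] using h

theorem rot_aeval (N : ℕ) [NeZero N] (w : KQˣ) (f : Dv N → LaurentSeries KQ)
    (P : MvPolynomial (Dv N) KQ) :
    rot w (MvPolynomial.aeval f P) = MvPolynomial.aeval (fun d => rot w (f d)) P := by
  have h := congrArg (fun φ => φ P)
    (MvPolynomial.comp_aeval (R := KQ) f (rotAlgHom KQ w))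
  simpa only [AlgHom.comp_apply, rotAlgHom_apply] using h

theorem alpha_fm (N ℓ : ℕ) [NeZero N] [NeZero ℓ] (P : MvPolynomial (Dv N) KQ) :
    heckeAlphaBar KQ N ℓ (fm N P) = fm (N * ℓ) (MvPolynomial.rename (inclD N ℓ) P) := by
  apply Subtype.ext
  rw [coe_heckeAlphaBar, coe_fm, coe_fm, MvPolynomial.aeval_rename]
  congr 1

theorem beta_fm (N ℓ : ℕ) [NeZero N] [NeZero ℓ] (P : MvPolynomial (Dv N) KQ) :
    heckeBetaBar KQ N ℓ (fm N P) = fm (N * ℓ) (MvPolynomial.rename (inclL N ℓ) P) := by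
  apply Subtype.ext
  have hfun : (fun d : Dv N => qExpand KQ ℓ (jFormal N d : LaurentSeries KQ)) =
      (fun d' : Dv (N * ℓ) => (jFormal (N * ℓ) d' : LaurentSeries KQ)) ∘ inclL N ℓ := by
    funext d
    show qExpand KQ ℓ (jFormal N d : LaurentSeries KQ) =
      (jFormal (N * ℓ) (inclL N ℓ d) : LaurentSeries KQ)
    rw [coe_jFormal, coe_jFormal]
    exact TD.qExpand_Jd KQ ℓ d.1 d.neZero.ne
  rw [coe_heckeBetaBar, coe_fm, coe_fm, MvPolynomial.aeval_rename, qExpand_aeval, hfun]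

/-! ### The conjugate embeddings -/

/-- **CONG-D2.** For a prime `ℓ ∤ N` and `w ∈ ℚ̄` with `ι w = exp(2πi b/ℓ)`: a field embedding
`τ : F_{Nℓ} → ℚ̄((t))` with `τ (α x) = x(t^ℓ)` and `τ (β x) = x(w t)` for all `x ∈ F_N`. -/
theorem exists_conj_of_zetaU (N ℓ : ℕ) [NeZero N] [NeZero ℓ] (hℓ : ℓ.Prime) (hℓN : ¬ ℓ ∣ N)
    (b : ℕ) (w : KQˣ) (hw : Units.map (iotaK : KQ →* ℂ) w = zetaU ℓ b) :
    ∃ τ : modularFunctionFieldBar (N * ℓ) →+* LaurentSeries KQ,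
      (∀ x : modularFunctionFieldBar N,
        τ (heckeAlphaBar KQ N ℓ x) = qExpand KQ ℓ (x : LaurentSeries KQ)) ∧
      (∀ x : modularFunctionFieldBar N,
        τ (heckeBetaBar KQ N ℓ x) = rot w (x : LaurentSeries KQ)) := by
  have hcop : Nat.Coprime ℓ N := (Nat.Prime.coprime_iff_not_dvd hℓ).mpr hℓN
  obtain ⟨γ, γ', hγ, hγ', hrel⟩ := exists_gamma N ℓ hℓ.ne_zero hcop b
  obtain ⟨τ, hτ⟩ := exists_hom_of_series (N * ℓ) ℓ γ⁻¹ (fun d' => ser ℓ w d'.1)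
    (hasQExp_ser N ℓ hℓ b w hw hγ hγ' hrel)
  have keyα : ∀ P : MvPolynomial (Dv N) KQ, τ (heckeAlphaBar KQ N ℓ (fm N P)) =
      qExpand KQ ℓ ((fm N P : FN N) : LaurentSeries KQ) := by
    intro P
    have hfun : (fun d' : Dv (N * ℓ) => ser ℓ w d'.1) ∘ inclD N ℓ =
        fun d : Dv N => qExpand KQ ℓ (jFormal N d : LaurentSeries KQ) := by
      funext d
      show ser ℓ w d.1 = qExpand KQ ℓ (jFormal N d : LaurentSeries KQ)
      rw [ser, if_neg (fun hd => hℓN (hd.trans d.2)), coe_jFormal]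
    rw [alpha_fm, hτ, MvPolynomial.aeval_rename, coe_fm, qExpand_aeval, hfun]
  have keyβ : ∀ P : MvPolynomial (Dv N) KQ, τ (heckeBetaBar KQ N ℓ (fm N P)) =
      rot w ((fm N P : FN N) : LaurentSeries KQ) := by
    intro P
    have hfun : (fun d' : Dv (N * ℓ) => ser ℓ w d'.1) ∘ inclL N ℓ =
        fun d : Dv N => rot w (jFormal N d : LaurentSeries KQ) := by
      funext d
      show ser ℓ w (ℓ * d.1) = rot w (jFormal N d : LaurentSeries KQ)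
      rw [ser, if_pos (dvd_mul_right ℓ d.1), Nat.mul_div_cancel_left d.1 hℓ.pos, coe_jFormal]
    rw [beta_fm, hτ, MvPolynomial.aeval_rename, coe_fm, rot_aeval, hfun]
  refine ⟨τ, fun x => ?_, fun x => ?_⟩
  · obtain ⟨P, Q, hQ, hx⟩ := exists_isRep N x
    rw [hx, map_div₀, map_div₀, keyα, keyα, IntermediateField.coe_div, map_div₀]
  · obtain ⟨P, Q, hQ, hx⟩ := exists_isRep N x
    rw [hx, map_div₀, map_div₀, keyβ, keyβ, IntermediateField.coe_div, map_div₀]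

/-- Every `ℓ`-th root of unity of `ℚ̄` maps to some `exp(2πi b/ℓ)`. -/
theorem exists_zetaU_of_pow_eq_one (ℓ : ℕ) [NeZero ℓ] (w : KQˣ) (hw : w ^ ℓ = 1) :
    ∃ b : ℕ, Units.map (iotaK : KQ →* ℂ) w = zetaU ℓ b := by
  have hprim := Complex.isPrimitiveRoot_exp ℓ (NeZero.ne ℓ)
  have hpow : (iotaK (w : KQ)) ^ ℓ = 1 := by
    rw [← map_pow, ← Units.val_pow_eq_pow_val, hw, Units.val_one, map_one]
  obtain ⟨i, -, hi⟩ := hprim.eq_pow_of_pow_eq_one hpow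
  refine ⟨i, ?_⟩
  ext
  simp only [Units.coe_map, MonoidHom.coe_coe, zetaU, Units.val_mk0]
  rw [← hi, ← Complex.exp_nat_mul]
  congr 1
  push_cast
  ring

/-- **CONG-D2**, root-of-unity form: for every `ℓ`-th root of unity `w` of `ℚ̄`. -/
theorem exists_conj (N ℓ : ℕ) [NeZero N] [NeZero ℓ] (hℓ : ℓ.Prime) (hℓN : ¬ ℓ ∣ N)
    (w : KQˣ) (hw : w ^ ℓ = 1) :
    ∃ τ : modularFunctionFieldBar (N * ℓ) →+* LaurentSeries KQ,
      (∀ x : modularFunctionFieldBar N,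
        τ (heckeAlphaBar KQ N ℓ x) = qExpand KQ ℓ (x : LaurentSeries KQ)) ∧
      (∀ x : modularFunctionFieldBar N,
        τ (heckeBetaBar KQ N ℓ x) = rot w (x : LaurentSeries KQ)) := by
  obtain ⟨b, hb⟩ := exists_zetaU_of_pow_eq_one ℓ w hw
  exact exists_conj_of_zetaU N ℓ hℓ hℓN b w hb

end

end Fermat.Agent.ESJ.Cong.ConjAnalytic
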