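import Mathlib
import Fermat.Prelude.Def_ModularCurve_HeckeOperatorTotal
import Fermat.Prelude.Def_ModularCurve_ReductionModL
import Fermat.Agent.ESJ.Cong.Defs
import Fermat.Agent.ESJ.Cong.FrobFibre
import Fermat.Agent.ESJ.Cong.Rigidity

/-!
# ES-CONG, package CONG-F: the Eichler–Shimura congruence

`R (T_ℓ x) = Φ • R x + ℓ • Φ⁻¹ • R x` for the reduction `R = reductionModL A N` of divisor classes,
`Φ = coeffAut k N τ` the coefficientwise Frobenius of the special fibre.

Proof: the defect `δ D = r_* (T_ℓ D) - Φ • r_* D - ℓ • Φ⁻¹ • r_* D` on divisors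
* kills principal divisors (enough: divisors of `A`-integral functions `y`; there
  `T_ℓ (div y) = div (Nm (y(q ^ ℓ)))`, and the norm reduces to `ȳ(q ^ ℓ) * Φ ȳ` — CONG-D — whose
  divisor is `ℓ • Φ⁻¹ • div ȳ + Φ • div ȳ` — CONG-E);
* has bounded coefficients on single places;
hence vanishes in degree `0` by rigidity (CONG-B).

`ESCong.reductionModL_heckeOperator_of` takes the outputs of CONG-B and CONG-D as hypotheses.
-/

set_option autoImplicit false
set_option linter.style.haveILetI false

noncomputable section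

namespace Fermat.Agent.ESJ.Cong

open ModularCurve AlgebraicCurve

namespace ESCong

/-! ### Divisors of functions under pull-back, push-forward and correspondences -/

section Along

variable {K F F' : Type*} [Field K] [Field F] [Field F'] [Algebra K F] [Algebra K F']

theorem pullbackAlong_eq_ord [HasPrincipalDivisors K F'] (φ : F →ₐ[K] F')
    (hφ : φ.toRingHom.IsIntegral) {f : F} {D : Divisor K F}
    (hD : ∀ v : Place K F, D v = v.ord f) (w : Place K F') :
    Divisor.pullbackAlong φ hφ D w = w.ord (φ f) := by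
  letI := algebraAlong φ
  haveI := isScalarTower_along φ
  haveI := isIntegral_along φ hφ
  exact Divisor.pullback_apply_eq_ord hD w

theorem pushforwardAlong_eq_ord_norm (φ : F →ₐ[K] F') (hφ : φ.toRingHom.IsIntegral)
    (hfin : FiniteAlong K φ) (hN : NormFormulaAlong K φ hfin) {f : F'} (hf : f ≠ 0)
    {D : Divisor K F'} (hD : ∀ w : Place K F', D w = w.ord f) (v : Place K F) :
    Divisor.pushforwardAlong φ hφ D v
      = v.ord (letI := algebraAlong φ; Algebra.norm F f) := by
  letI := algebraAlong φ
  haveI := isScalarTower_along φ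
  haveI := isIntegral_along φ hφ
  haveI : Module.Finite F F' := hfin
  exact hN f hf D hD v

/-- The correspondence `ψ_* φ^*` sends `div f` to `div (Nm_ψ (φ f))`. -/
theorem correspondence_eq_ord_norm [HasPrincipalDivisors K F'] (φ ψ : F →ₐ[K] F')
    (hφ : φ.toRingHom.IsIntegral) (hψ : ψ.toRingHom.IsIntegral)
    (hfin : FiniteAlong K ψ) (hN : NormFormulaAlong K ψ hfin) {f : F} (hf : f ≠ 0)
    {D : Divisor K F} (hD : ∀ v : Place K F, D v = v.ord f) (v : Place K F) :
    Divisor.correspondence φ ψ hφ hψ D v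
      = v.ord (letI := algebraAlong ψ; Algebra.norm F (φ f)) :=
  pushforwardAlong_eq_ord_norm ψ hψ hfin hN ((map_ne_zero φ).mpr hf)
    (pullbackAlong_eq_ord φ hφ hD) v

/-- The image of a single place under a correspondence is effective of degree `[F' : φ F]`;
hence every coefficient of any push-forward of it lies in `[0, finrank]`. -/
theorem mapDomain_correspondence_single_bound [HasPrincipalDivisors K F'] (φ ψ : F →ₐ[K] F')
    (hφ : φ.toRingHom.IsIntegral) (hψ : ψ.toRingHom.IsIntegral)
    (hFI : FundamentalIdentityAlong K φ hφ) (hdeg : ∀ P : Place K F, P.deg = 1)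
    {X : Type*} (r : Place K F → X) (P : Place K F) (x : X) :
    0 ≤ Finsupp.mapDomain r (Divisor.correspondence φ ψ hφ hψ (Finsupp.single P 1)) x ∧
      Finsupp.mapDomain r (Divisor.correspondence φ ψ hφ hψ (Finsupp.single P 1)) x
        ≤ (finrankAlong K φ : ℤ) := by
  classical
  have hE : Divisor.correspondence φ ψ hφ hψ (Finsupp.single P 1)
      = ∑ W ∈ Place.fiberAlong φ hφ P, Finsupp.single (W.restrictAlong ψ hψ)
          ((W.ramificationIndexAlong φ : ℤ) * W.inertiaDegAlong ψ hψ) := by
    rw [Divisor.correspondence_apply, Divisor.pullbackAlong_single, map_sum]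
    refine Finset.sum_congr rfl fun W _ => ?_
    rw [Divisor.pushforwardAlong_single, one_mul]
  have hdegE : Divisor.degree (Divisor.correspondence φ ψ hφ hψ (Finsupp.single P 1))
      = (finrankAlong K φ : ℤ) := by
    rw [Divisor.degree_correspondence φ ψ hφ hψ hFI, Divisor.degree_single, hdeg]
    simp
  have hsum : ∑ W ∈ Place.fiberAlong φ hφ P,
      ((W.ramificationIndexAlong φ : ℤ) * W.inertiaDegAlong ψ hψ) = (finrankAlong K φ : ℤ) := by
    rw [← hdegE, hE, map_sum]
    refine Finset.sum_congr rfl fun W _ => ?_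
    rw [Divisor.degree_single, hdeg]
    simp
  rw [hE, Finsupp.mapDomain_finsetSum, Finsupp.finsetSum_apply]
  simp only [Finsupp.mapDomain_single, Finsupp.single_apply]
  constructor
  · exact Finset.sum_nonneg fun W _ => by split_ifs <;> positivity
  · rw [← hsum]
    exact Finset.sum_le_sum fun W _ => by split_ifs <;> first | exact le_rfl | positivity

end Along

/-! ### The norm input (shape of CONG-D) -/

section NormInput

variable {L : Type*} [Field L] [Algebra ℚ L] (A : ValuationSubring L)
variable {k : Type*} [Field k] (π : A →+* k) (N ℓ : ℕ) [NeZero N] [NeZero ℓ]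

/-- The shape of CONG-D: the norm (from level `N ℓ` to level `N`) of `y(q ^ ℓ)`, for an
`A`-integral `y` of level `N`, is `A`-integral and its reduction `ḡ` satisfies
`ḡ(q ^ ℓ) = ȳ(q ^ (ℓ ℓ)) * ȳ ^ ℓ`. -/
def NormBetaReductionAlong : Prop :=
  ∀ (y : LaurentSeries A)
    (hy : coeffMap A.subtype y ∈ laurentBaseChange L (modularFunctionFieldFull N)),
    ∃ (g : LaurentSeries A)
      (hg : coeffMap A.subtype g ∈ laurentBaseChange L (modularFunctionFieldFull N)),
      (letI := algebraAlong (heckeAlphaBar L N ℓ);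
        Algebra.norm (laurentBaseChange L (modularFunctionFieldFull N))
          (heckeBetaBar L N ℓ ⟨coeffMap A.subtype y, hy⟩)) = ⟨coeffMap A.subtype g, hg⟩ ∧
      qExpand k ℓ (coeffMap π g) = qExpand k (ℓ * ℓ) (coeffMap π y) * (coeffMap π y) ^ ℓ

end NormInput

/-! ### The congruence on divisors -/

section Core

variable {L : Type*} [Field L] [Algebra ℚ L] {A : ValuationSubring L}
variable {k : Type*} [Field k] {π : A →+* k} {N ℓ : ℕ} [NeZero N] [NeZero ℓ]
variable {r : Place L (laurentBaseChange L (modularFunctionFieldFull N)) →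
  Place k (modularFunctionFieldFullC k N)}

theorem coeffSL_eq_coeffAut (τ : k ≃+* k) : FrobFibre.coeffSL N τ = coeffAut k N τ := rfl

/-- In characteristic `ℓ`, the relation `ḡ(q ^ ℓ) = ȳ(q ^ (ℓ ℓ)) * ȳ ^ ℓ` means
`ḡ = ȳ(q ^ ℓ) * Frob ȳ`. -/
theorem eq_qExpand_mul_coeffMap [ExpChar k ℓ] (τ : k ≃+* k) (hτ : ∀ x, τ x = x ^ ℓ)
    {g y : LaurentSeries k}
    (h : qExpand k ℓ g = qExpand k (ℓ * ℓ) y * y ^ ℓ) :
    g = qExpand k ℓ y * coeffMap (τ : k →+* k) y := by
  apply qExpand_injective (R := k) ℓ
  rw [h, map_mul, qExpand_qExpand, FrobFibre.pow_char_eq_qExpand ℓ y]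
  congr 2
  exact coeffMap_congr (RingHom.ext fun x => by rw [frobenius_def]; exact (hτ x).symm) y

/-- **Step 1.** On the divisor of an `A`-integral function (with nonzero reduction in `F~`),
reduction intertwines the Hecke correspondence `T_ℓ` with `Φ + ℓ Φ⁻¹`. -/
theorem mapDomain_heckeDivBar_of_integral [ExpChar k ℓ]
    (hr : IsPlaceReductionAlong A π N r)
    (hα : HeckeAlphaBarIntegral L N ℓ) (hβ : HeckeBetaBarIntegral L N ℓ)
    [HasPrincipalDivisors L (laurentBaseChange L (modularFunctionFieldFull (N * ℓ)))]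
    (hfin : FiniteAlong L (heckeAlphaBar L N ℓ))
    (hN : NormFormulaAlong L (heckeAlphaBar L N ℓ) hfin)
    (hNorm : NormBetaReductionAlong A π N ℓ)
    (τ : k ≃+* k) (hτ : ∀ x, τ x = x ^ ℓ)
    {D : Divisor L (laurentBaseChange L (modularFunctionFieldFull N))}
    (hD : D ∈ integralPrincipalDivisors A π N) :
    Finsupp.mapDomain r (heckeDivBar hα hβ D)
      = coeffAut k N τ • Finsupp.mapDomain r D
        + (ℓ : ℤ) • ((coeffAut k N τ)⁻¹ • Finsupp.mapDomain r D) := by
  obtain ⟨y, hy, hyk, hne, hDy⟩ := hD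
  obtain ⟨g, hg, hnorm, hgq⟩ := hNorm y hy
  have hgbar := eq_qExpand_mul_coeffMap τ hτ hgq
  have hybar0 : (⟨coeffMap π y, hyk⟩ : modularFunctionFieldFullC k N) ≠ 0 :=
    fun h0 => hne (congrArg Subtype.val h0)
  have hf0 : (⟨coeffMap A.subtype y, hy⟩ :
      laurentBaseChange L (modularFunctionFieldFull N)) ≠ 0 := by
    intro h0
    apply hne
    have h1 : coeffMap A.subtype y = 0 := congrArg Subtype.val h0
    have h2 : y = 0 := by
      ext n
      have h3 := congrArg (fun z => z.coeff n) h1
      simpa using h3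
    rw [h2, map_zero]
  -- the divisor of the norm
  have hcorr : ∀ P, heckeDivBar hα hβ D P
      = P.ord (⟨coeffMap A.subtype g, hg⟩ :
          laurentBaseChange L (modularFunctionFieldFull N)) := by
    intro P
    rw [← hnorm]
    exact correspondence_eq_ord_norm (heckeBetaBar L N ℓ) (heckeAlphaBar L N ℓ) hβ hα hfin hN
      hf0 hDy P
  have hgk' : ((FrobFibre.qExpandFull N ℓ τ hτ ⟨coeffMap π y, hyk⟩
      * FrobFibre.coeffSL N τ • (⟨coeffMap π y, hyk⟩ : modularFunctionFieldFullC k N) :
        modularFunctionFieldFullC k N) : LaurentSeries k) = coeffMap π g := hgbar.symm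
  have hgk : coeffMap π g ∈ modularFunctionFieldFullC k N := hgk' ▸ Subtype.property _
  have hgne : coeffMap π g ≠ 0 := by
    rw [← hgk']
    intro h0
    have h1 : FrobFibre.qExpandFull N ℓ τ hτ ⟨coeffMap π y, hyk⟩
        * FrobFibre.coeffSL N τ • (⟨coeffMap π y, hyk⟩ : modularFunctionFieldFullC k N) = 0 :=
      Subtype.ext h0
    rcases mul_eq_zero.mp h1 with h2 | h2
    · exact FrobFibre.qExpandFull_ne_zero N ℓ τ hτ hybar0 h2
    · rw [SemilinearAut.smul_def] at h2
      exact hybar0 ((map_eq_zero _).mp h2)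
  have h1 := hr.2 y hy hyk hne D hDy
  have h2 := hr.2 g hg hgk hgne (heckeDivBar hα hβ D) hcorr
  ext Q
  rw [h2 Q, add_comm, ← coeffSL_eq_coeffAut,
    FrobFibre.divisor_qExpandFull_mul_smul N ℓ τ hτ hybar0 h1 Q]
  congr 1
  exact Subtype.ext hgk'.symm

/-- The defect of the congruence, as an additive map on divisors. -/
def defect (r : Place L (laurentBaseChange L (modularFunctionFieldFull N)) →
      Place k (modularFunctionFieldFullC k N))
    (T : Divisor L (laurentBaseChange L (modularFunctionFieldFull N)) →+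
      Divisor L (laurentBaseChange L (modularFunctionFieldFull N)))
    (Φ : SemilinearAut k (modularFunctionFieldFullC k N)) (ℓ : ℕ) :
    Divisor L (laurentBaseChange L (modularFunctionFieldFull N)) →+
      Divisor k (modularFunctionFieldFullC k N) :=
  (Finsupp.mapDomain.addMonoidHom r).comp T
    - (DistribSMul.toAddMonoidHom (Divisor k (modularFunctionFieldFullC k N)) Φ).comp
        (Finsupp.mapDomain.addMonoidHom r)
    - (ℓ : ℤ) • ((DistribSMul.toAddMonoidHom (Divisor k (modularFunctionFieldFullC k N)) Φ⁻¹).comp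
        (Finsupp.mapDomain.addMonoidHom r))

omit [NeZero N] in
theorem defect_apply
    (T : Divisor L (laurentBaseChange L (modularFunctionFieldFull N)) →+
      Divisor L (laurentBaseChange L (modularFunctionFieldFull N)))
    (Φ : SemilinearAut k (modularFunctionFieldFullC k N)) (ℓ : ℕ)
    (D : Divisor L (laurentBaseChange L (modularFunctionFieldFull N))) :
    defect r T Φ ℓ D = Finsupp.mapDomain r (T D) - Φ • Finsupp.mapDomain r D
      - (ℓ : ℤ) • (Φ⁻¹ • Finsupp.mapDomain r D) :=
  rfl

/-- **Step 2 + 3.** The congruence on all divisors of degree `0`, by rigidity. -/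
theorem mapDomain_heckeDivBar_of_degree_zero [ExpChar k ℓ]
    (hr : IsPlaceReductionAlong A π N r) (hgen : PrincipalGeneratedByIntegral A π N)
    (hα : HeckeAlphaBarIntegral L N ℓ) (hβ : HeckeBetaBarIntegral L N ℓ)
    [HasPrincipalDivisors L (laurentBaseChange L (modularFunctionFieldFull (N * ℓ)))]
    (hFI : FundamentalIdentityAlong L (heckeBetaBar L N ℓ) hβ)
    (hfin : FiniteAlong L (heckeAlphaBar L N ℓ))
    (hN : NormFormulaAlong L (heckeAlphaBar L N ℓ) hfin)
    (hNorm : NormBetaReductionAlong A π N ℓ)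
    (hdeg : ∀ P : Place L (laurentBaseChange L (modularFunctionFieldFull N)), P.deg = 1)
    (hRig : ∀ δ : Divisor L (laurentBaseChange L (modularFunctionFieldFull N)) →+
        (Place k (modularFunctionFieldFullC k N) →₀ ℤ),
      (∀ D ∈ Divisor.principal (K := L) (F := laurentBaseChange L (modularFunctionFieldFull N)),
        δ D = 0) →
      ∀ B : ℕ, (∀ P x, |δ (Finsupp.single P 1) x| ≤ B) →
        ∀ D, Divisor.degree D = 0 → δ D = 0)
    (τ : k ≃+* k) (hτ : ∀ x, τ x = x ^ ℓ)
    (D : Divisor L (laurentBaseChange L (modularFunctionFieldFull N)))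
    (hD : Divisor.degree D = 0) :
    Finsupp.mapDomain r (heckeDivBar hα hβ D)
      = coeffAut k N τ • Finsupp.mapDomain r D
        + (ℓ : ℤ) • ((coeffAut k N τ)⁻¹ • Finsupp.mapDomain r D) := by
  classical
  have hprin : ∀ E ∈ Divisor.principal (K := L)
      (F := laurentBaseChange L (modularFunctionFieldFull N)),
      defect r (heckeDivBar hα hβ) (coeffAut k N τ) ℓ E = 0 := by
    intro E hE
    have hE' := hgen hE
    clear hE
    induction hE' using AddSubgroup.closure_induction with
    | mem E hE =>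
        rw [defect_apply, mapDomain_heckeDivBar_of_integral hr hα hβ hfin hN hNorm τ hτ hE]
        abel
    | zero => exact map_zero _
    | add E E' _ _ hE hE' => rw [map_add, hE, hE', add_zero]
    | neg E _ hE => rw [map_neg, hE, neg_zero]
  have hB : ∀ P x, |defect r (heckeDivBar hα hβ) (coeffAut k N τ) ℓ (Finsupp.single P 1) x|
      ≤ ((finrankAlong L (heckeBetaBar L N ℓ) + 1 + ℓ : ℕ) : ℤ) := by
    intro P x
    obtain ⟨h0, h1⟩ := mapDomain_correspondence_single_bound (heckeBetaBar L N ℓ)
      (heckeAlphaBar L N ℓ) hβ hα hFI hdeg r P x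
    rw [defect_apply, Finsupp.mapDomain_single, SemilinearAut.smul_single,
      SemilinearAut.smul_single]
    simp only [Finsupp.sub_apply, Finsupp.smul_apply, Finsupp.single_apply, smul_eq_mul]
    unfold heckeDivBar
    generalize Finsupp.mapDomain r (Divisor.correspondence (heckeBetaBar L N ℓ)
      (heckeAlphaBar L N ℓ) hβ hα (Finsupp.single P 1)) x = a at h0 h1 ⊢
    have hℓ0 : (0 : ℤ) ≤ (ℓ : ℤ) := Int.natCast_nonneg ℓ
    push_cast
    rw [abs_le]
    constructor <;> split_ifs <;> simp <;> linarith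
  have h0 := hRig _ hprin _ hB D hD
  rw [defect_apply, sub_sub, sub_eq_zero] at h0
  exact h0

/-- The congruence for the class maps (general coefficient field). -/
theorem reductionPic0Along_heckePic0Bar [ExpChar k ℓ]
    (hr : IsPlaceReductionAlong A π N r) (hgen : PrincipalGeneratedByIntegral A π N)
    (hα : HeckeAlphaBarIntegral L N ℓ) (hβ : HeckeBetaBarIntegral L N ℓ)
    [HasPrincipalDivisors L (laurentBaseChange L (modularFunctionFieldFull (N * ℓ)))]
    (hFI : FundamentalIdentityAlong L (heckeBetaBar L N ℓ) hβ)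
    (hfin : FiniteAlong L (heckeAlphaBar L N ℓ))
    (hN : NormFormulaAlong L (heckeAlphaBar L N ℓ) hfin)
    (hNorm : NormBetaReductionAlong A π N ℓ)
    (hdeg : ∀ P : Place L (laurentBaseChange L (modularFunctionFieldFull N)), P.deg = 1)
    (hRig : ∀ δ : Divisor L (laurentBaseChange L (modularFunctionFieldFull N)) →+
        (Place k (modularFunctionFieldFullC k N) →₀ ℤ),
      (∀ D ∈ Divisor.principal (K := L) (F := laurentBaseChange L (modularFunctionFieldFull N)),
        δ D = 0) →
      ∀ B : ℕ, (∀ P x, |δ (Finsupp.single P 1) x| ≤ B) →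
        ∀ D, Divisor.degree D = 0 → δ D = 0)
    (τ : k ≃+* k) (hτ : ∀ x, τ x = x ^ ℓ)
    (x : Pic0 L (laurentBaseChange L (modularFunctionFieldFull N))) :
    reductionPic0Along r hr hgen (heckePic0Bar hα hβ hFI hfin hN x)
      = coeffAut k N τ • reductionPic0Along r hr hgen x
        + ℓ • ((coeffAut k N τ)⁻¹ • reductionPic0Along r hr hgen x) := by
  obtain ⟨D, rfl⟩ := Pic0.mk_surjective x
  have key := mapDomain_heckeDivBar_of_degree_zero hr hgen hα hβ hFI hfin hN hNorm hdeg hRig τ hτ
    (D : Divisor L (laurentBaseChange L (modularFunctionFieldFull N))) D.2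
  show reductionPic0Along r hr hgen
      (Pic0.mk (Pic0.degZeroCorrespondence (heckeBetaBar L N ℓ) (heckeAlphaBar L N ℓ) hβ hα hFI D))
    = _
  rw [reductionPic0Along_mk, reductionPic0Along_mk, SemilinearAut.pic0_smul_mk,
    SemilinearAut.pic0_smul_mk]
  rw [show ∀ E : Divisor.degZero (K := k) (F := modularFunctionFieldFullC k N),
      ℓ • Pic0.mk E = Pic0.mk (ℓ • E) from fun E => rfl, ← Pic0.mk_add]
  refine congrArg Pic0.mk (Subtype.ext ?_)
  simp only [AddSubgroup.coe_add, AddSubgroupClass.coe_nsmul, SemilinearAut.coe_degZeroSMulHom,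
    coe_reductionDegZeroAlong]
  rw [← natCast_zsmul]
  exact key

/-- Adapter: the norm input in the shape "the norm is `A`-integral with reduction
`ȳ(q ^ ℓ) * Frob ȳ`" (`φ` any ring endomorphism of `k` with `φ x = x ^ ℓ`). -/
theorem normBetaReductionAlong_of_frob [ExpChar k ℓ] (φ : k →+* k) (hφ : ∀ x, φ x = x ^ ℓ)
    (H : ∀ (y : LaurentSeries A)
      (hy : coeffMap A.subtype y ∈ laurentBaseChange L (modularFunctionFieldFull N)),
      ∃ z : LaurentSeries A,
        coeffMap A.subtype z =
          (((letI := algebraAlong (heckeAlphaBar L N ℓ);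
            Algebra.norm (laurentBaseChange L (modularFunctionFieldFull N))
              (heckeBetaBar L N ℓ ⟨coeffMap A.subtype y, hy⟩)) :
            laurentBaseChange L (modularFunctionFieldFull N)) : LaurentSeries L) ∧
        coeffMap π z = qExpand k ℓ (coeffMap π y) * coeffMap φ (coeffMap π y)) :
    NormBetaReductionAlong A π N ℓ := by
  intro y hy
  obtain ⟨z, hz1, hz2⟩ := H y hy
  refine ⟨z, hz1 ▸ Subtype.property _, Subtype.ext hz1.symm, ?_⟩
  rw [hz2, map_mul, qExpand_qExpand, FrobFibre.pow_char_eq_qExpand ℓ (coeffMap π y)]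
  congr 2
  exact coeffMap_congr (RingHom.ext fun x => by rw [frobenius_def]; exact hφ x) _

end Core

/-! ### The residue field of a valuation subring over `ℓ` -/

section Residue

variable {L : Type*} [Field L]

theorem charP_residueField (A : ValuationSubring L) {ℓ : ℕ} (hℓ : ℓ.Prime)
    (hA : A.LiesOverPrime ℓ) : CharP (IsLocalRing.ResidueField A) ℓ := by
  rw [CharP.charP_iff_prime_eq_zero hℓ]
  have h1 : ((ℓ : A) : L) ∈ A.nonunits := by
    have h2 : ((ℓ : A) : L) = (ℓ : L) := by push_cast; rfl
    rw [h2]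
    exact hA
  have h3 : (ℓ : A) ∈ IsLocalRing.maximalIdeal A := ValuationSubring.coe_mem_nonunits_iff.mp h1
  have h4 : IsLocalRing.residue A (ℓ : A) = 0 := (IsLocalRing.residue_eq_zero_iff _).mpr h3
  rwa [map_natCast] at h4

end Residue

/-! ### The Eichler–Shimura congruence for `reductionModL`, modulo the norm input and rigidity -/

section ModL

set_option synthInstance.maxHeartbeats 400000

set_option maxHeartbeats 2000000 in
/-- **Eichler–Shimura congruence** `R (T_ℓ x) = Φ • R x + ℓ • Φ⁻¹ • R x`, with the two external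
inputs (CONG-D: reduction of the norm; CONG-B: rigidity) as hypotheses. -/
theorem reductionModL_heckeOperator_of (N ℓ : ℕ) [NeZero N] [NeZero ℓ] (hℓ : ℓ.Prime)
    (A : ValuationSubring (AlgebraicClosure ℚ)) (hA : A.LiesOverPrime ℓ)
    (hdeg : ∀ P : Place (AlgebraicClosure ℚ) (modularFunctionFieldBar N), P.deg = 1)
    (hRig : ∀ δ : Divisor (AlgebraicClosure ℚ) (modularFunctionFieldBar N) →+
        (Place (IsLocalRing.ResidueField A)
          (modularFunctionFieldFullC (IsLocalRing.ResidueField A) N) →₀ ℤ),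
      (∀ D ∈ Divisor.principal (K := AlgebraicClosure ℚ) (F := modularFunctionFieldBar N),
        δ D = 0) →
      ∀ B : ℕ, (∀ P x, |δ (Finsupp.single P 1) x| ≤ B) →
        ∀ D, Divisor.degree D = 0 → δ D = 0)
    (hNorm : NormBetaReductionAlong A (IsLocalRing.residue A) N ℓ)
    (h : ReductionInputsModL A N) (hIn : HeckeInputsAlong (AlgebraicClosure ℚ) N ℓ)
    (τ : IsLocalRing.ResidueField A ≃+* IsLocalRing.ResidueField A) (hτ : ∀ x, τ x = x ^ ℓ)
    (x : JZero N) :
    reductionModL A N (heckeOperatorAlong (AlgebraicClosure ℚ) N ℓ x)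
      = coeffAut (IsLocalRing.ResidueField A) N τ • reductionModL A N x
        + ℓ • ((coeffAut (IsLocalRing.ResidueField A) N τ)⁻¹ • reductionModL A N x) := by
  haveI : CharP (IsLocalRing.ResidueField A) ℓ := charP_residueField A hℓ hA
  haveI : ExpChar (IsLocalRing.ResidueField A) ℓ := ExpChar.prime hℓ
  obtain ⟨hα, hβ, hP, hfin, hFI, hN⟩ := hIn
  haveI := hP
  have e1 : heckeOperatorAlong (AlgebraicClosure ℚ) N ℓ = heckePic0Bar hα hβ hFI hfin hN :=
    heckeOperatorAlong_eq hα hβ hFI hfin hN
  have e : reductionModL A N = reductionPic0Along h.choose h.choose_spec.1 h.choose_spec.2 :=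
    reductionAlong_eq h
  have key := reductionPic0Along_heckePic0Bar h.choose_spec.1 h.choose_spec.2 hα hβ hFI hfin hN
    hNorm hdeg hRig τ hτ x
  rw [← e, ← e1] at key
  exact key

end ModL

end ESCong

section Export

set_option synthInstance.maxHeartbeats 400000

/-- **Eichler–Shimura congruence** `R (T_ℓ x) = Φ • R x + ℓ • Φ⁻¹ • R x` for
`R = reductionModL A N`, given the norm input of CONG-D as a hypothesis (rigidity, CONG-B, is
plugged in). -/
theorem reductionModL_heckeOperator_of_norm (N ℓ : ℕ) [NeZero N] [NeZero ℓ] (hℓ : ℓ.Prime)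
    (A : ValuationSubring (AlgebraicClosure ℚ)) (hA : A.LiesOverPrime ℓ)
    [HasPrincipalDivisors (AlgebraicClosure ℚ) (modularFunctionFieldBar N)]
    (hdeg : ∀ P : Place (AlgebraicClosure ℚ) (modularFunctionFieldBar N), P.deg = 1)
    (hRR : RRLite (AlgebraicClosure ℚ) (modularFunctionFieldBar N))
    (hNorm : ESCong.NormBetaReductionAlong A (IsLocalRing.residue A) N ℓ)
    (h : ReductionInputsModL A N) (hIn : HeckeInputsAlong (AlgebraicClosure ℚ) N ℓ)
    (τ : IsLocalRing.ResidueField A ≃+* IsLocalRing.ResidueField A) (hτ : ∀ x, τ x = x ^ ℓ)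
    (x : JZero N) :
    reductionModL A N (heckeOperatorAlong (AlgebraicClosure ℚ) N ℓ x)
      = coeffAut (IsLocalRing.ResidueField A) N τ • reductionModL A N x
        + ℓ • ((coeffAut (IsLocalRing.ResidueField A) N τ)⁻¹ • reductionModL A N x) :=
  ESCong.reductionModL_heckeOperator_of N ℓ hℓ A hA hdeg
    (fun δ hprin B hB => rigidity hdeg hRR δ hprin B hB) hNorm h hIn τ hτ x

end Export

end Fermat.Agent.ESJ.Cong
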