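import Fermat.Agent.ESJ.Cong.TorsionESK

/-!
# ES-CONG / RED-K: descent of the Kummer root statement from level `N q` to level `N`

`kummerRoot_of_mul`: for a prime `q ∤ N` and `m` prime to `q + 1 = [F_{Nq} : F_N]`,
`KummerRoot (N * q) A m → KummerRoot N A m`.

This is the level change for the residue characteristics `ℓ ∈ {2, 3}`: the good-reduction
argument runs at the auxiliary level `N * 2` (for `ℓ = 3`, degree `3`) resp. `N * 3` (for
`ℓ = 2`, degree `4`), and the degree is a power of `ℓ`, hence prime to every `m` prime to `ℓ`.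

Proof: `y, z ∈ A((q)) ∩ F_N` are also in `F_{Nq}`, with the same reductions, and the orders of
`y / z` at the places of `F_{Nq}` are multiples of its orders at the places of `F_N`.  So
`y / z = g ^ m` with `g ∈ F_{Nq}`; taking norms, `(y / z) ^ (q + 1) = Nm(g) ^ m`, and Bézout
gives an `m`-th root of `y / z` in `F_N`.
-/

set_option autoImplicit false

noncomputable section

namespace Fermat.Agent.ESJ.Cong.TorsionESK

open ModularCurve AlgebraicCurve HahnSeries
open Fermat.Agent.ESJ.Cong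

/-- An element of a field whose `d`-th power is an `m`-th power, `d` prime to `m`, is an `m`-th
power. -/
theorem exists_pow_eq_of_coprime {F : Type*} [Field F] {d m : ℕ} (hcop : Nat.Coprime d m)
    {h n : F} (hh : h ≠ 0) (hpow : h ^ d = n ^ m) : ∃ g : F, h = g ^ m := by
  have hbez : (d : ℤ) * Nat.gcdA d m + (m : ℤ) * Nat.gcdB d m = 1 := by
    have := Nat.gcd_eq_gcd_ab d m
    rw [hcop] at this
    exact_mod_cast this.symm
  refine ⟨n ^ (Nat.gcdA d m) * h ^ (Nat.gcdB d m), ?_⟩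
  have h1 : h = h ^ ((d : ℤ) * Nat.gcdA d m + (m : ℤ) * Nat.gcdB d m) := by
    rw [hbez, zpow_one]
  rw [mul_pow, ← zpow_natCast (n ^ Nat.gcdA d m) m, ← zpow_natCast (h ^ Nat.gcdB d m) m,
    ← zpow_mul, ← zpow_mul]
  conv_lhs => rw [h1]
  rw [zpow_add₀ hh, zpow_mul, zpow_natCast, hpow, ← zpow_natCast n m, ← zpow_mul, mul_comm
    (m : ℤ) (Nat.gcdA d m), mul_comm (m : ℤ) (Nat.gcdB d m)]

set_option synthInstance.maxHeartbeats 400000 in
set_option maxHeartbeats 1000000 in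
/-- **Descent of the Kummer root statement** along `F_N ⊆ F_{Nq}`, for `m` prime to the degree
`q + 1`. -/
theorem kummerRoot_of_mul (N q : ℕ) [NeZero N] [NeZero q] (hq : q.Prime) (hqN : ¬ q ∣ N)
    (A : ValuationSubring (AlgebraicClosure ℚ)) (m : ℕ) (hcop : Nat.Coprime (q + 1) m)
    (hK : KummerRoot (N * q) A m) : KummerRoot N A m := by
  intro y z hy hz hzbar hyz hdvd
  have hα := Fermat.Agent.ESJ.HeckeInputs.heckeAlphaBarIntegral N q
  -- the two series at level `N q`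
  have hy' : coeffMap A.subtype y ∈ modularFunctionFieldBar (N * q) := by
    have h1 := (heckeAlphaBar (AlgebraicClosure ℚ) N q ⟨_, hy⟩).2
    rwa [coe_heckeAlphaBar] at h1
  have hz' : coeffMap A.subtype z ∈ modularFunctionFieldBar (N * q) := by
    have h1 := (heckeAlphaBar (AlgebraicClosure ℚ) N q ⟨_, hz⟩).2
    rwa [coe_heckeAlphaBar] at h1
  have hαy : heckeAlphaBar (AlgebraicClosure ℚ) N q ⟨_, hy⟩ = ⟨_, hy'⟩ :=
    Subtype.ext (coe_heckeAlphaBar _ _ _)
  have hαz : heckeAlphaBar (AlgebraicClosure ℚ) N q ⟨_, hz⟩ = ⟨_, hz'⟩ :=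
    Subtype.ext (coe_heckeAlphaBar _ _ _)
  obtain ⟨g, hg⟩ := hK y z hy' hz' hzbar hyz (fun w => by
    rw [← hαy, ← hαz, Place.ord_restrictAlong _ hα, Place.ord_restrictAlong _ hα, ← mul_sub]
    exact Dvd.dvd.mul_left (hdvd _) _)
  have hz0 : (⟨_, hz⟩ : modularFunctionFieldBar N) ≠ 0 := incl_ne_zero hz hzbar
  have hy0 : (⟨_, hy⟩ : modularFunctionFieldBar N) ≠ 0 := incl_ne_zero hy (by rw [hyz]; exact hzbar)
  -- norms
  letI := algebraAlong (heckeAlphaBar (AlgebraicClosure ℚ) N q)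
  have hfr : Module.finrank (modularFunctionFieldBar N) (modularFunctionFieldBar (N * q)) =
      q + 1 := ConjAnalytic.finrank_alpha N q hq hqN
  have hnorm : ∀ x : modularFunctionFieldBar N,
      Algebra.norm (modularFunctionFieldBar N)
        (heckeAlphaBar (AlgebraicClosure ℚ) N q x) = x ^ (q + 1) := by
    intro x
    have h1 := Algebra.norm_algebraMap (S := modularFunctionFieldBar (N * q)) x
    rw [hfr] at h1
    exact h1
  have h2 : (⟨_, hy⟩ : modularFunctionFieldBar N) ^ (q + 1) =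
      (⟨_, hz⟩ : modularFunctionFieldBar N) ^ (q + 1) *
        (Algebra.norm (modularFunctionFieldBar N) g) ^ m := by
    rw [← hnorm, ← hnorm, hαy, hαz, hg, map_mul, map_pow]
  obtain ⟨g', hg'⟩ := exists_pow_eq_of_coprime hcop (h := (⟨_, hy⟩ : modularFunctionFieldBar N) *
      (⟨_, hz⟩ : modularFunctionFieldBar N)⁻¹) (n := Algebra.norm (modularFunctionFieldBar N) g)
    (mul_ne_zero hy0 (inv_ne_zero hz0)) (by
      rw [mul_pow, h2, inv_pow]
      field_simp)
  refine ⟨g', ?_⟩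
  rw [← hg', mul_comm, mul_assoc, inv_mul_cancel₀ hz0, mul_one]

/-- Residue characteristic `3`: descent from the auxiliary level `N * 2` (degree `3`). -/
theorem kummerRoot_of_mul_two (N : ℕ) [NeZero N] (h2N : ¬ 2 ∣ N)
    (A : ValuationSubring (AlgebraicClosure ℚ)) (m : ℕ) (hm : ¬ 3 ∣ m)
    (hK : KummerRoot (N * 2) A m) : KummerRoot N A m :=
  kummerRoot_of_mul N 2 Nat.prime_two h2N A m
    ((Nat.Prime.coprime_iff_not_dvd Nat.prime_three).mpr hm) hK

/-- Residue characteristic `2`: descent from the auxiliary level `N * 3` (degree `4`). -/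
theorem kummerRoot_of_mul_three (N : ℕ) [NeZero N] (h3N : ¬ 3 ∣ N)
    (A : ValuationSubring (AlgebraicClosure ℚ)) (m : ℕ) (hm : ¬ 2 ∣ m)
    (hK : KummerRoot (N * 3) A m) : KummerRoot N A m :=
  kummerRoot_of_mul N 3 Nat.prime_three h3N A m
    (Nat.Coprime.pow_left 2 ((Nat.Prime.coprime_iff_not_dvd Nat.prime_two).mpr hm)) hK

/-- **The Kummer root statement at all levels and all residue characteristics from the "good"
cases**: `ℓ ≥ 5`, or `ℓ = 3` and `2 ∣ M`, or `ℓ = 2` and `3 ∣ M` (the cases where the level has a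
base function with tame good reduction). -/
theorem kummerRoot_of_good
    (hgood : ∀ (M : ℕ) [NeZero M] (ℓ : ℕ), ℓ.Prime → ¬ ℓ ∣ M →
      (5 ≤ ℓ ∨ (ℓ = 3 ∧ 2 ∣ M) ∨ (ℓ = 2 ∧ 3 ∣ M)) →
      ∀ A : ValuationSubring (AlgebraicClosure ℚ), A.LiesOverPrime ℓ →
        ∀ m : ℕ, m ≠ 0 → ¬ ℓ ∣ m → KummerRoot M A m)
    (N : ℕ) [NeZero N] (ℓ : ℕ) (hℓ : ℓ.Prime) (hℓN : ¬ ℓ ∣ N)
    (A : ValuationSubring (AlgebraicClosure ℚ)) (hA : A.LiesOverPrime ℓ) (m : ℕ) (hm0 : m ≠ 0)
    (hm : ¬ ℓ ∣ m) : KummerRoot N A m := by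
  by_cases h5 : 5 ≤ ℓ
  · exact hgood N ℓ hℓ hℓN (Or.inl h5) A hA m hm0 hm
  · have hℓ23 : ℓ = 2 ∨ ℓ = 3 := by
      have hlt : ℓ < 5 := not_le.mp h5
      have h2le := hℓ.two_le
      interval_cases ℓ
      · exact Or.inl rfl
      · exact Or.inr rfl
      · exact absurd hℓ (by decide)
    rcases hℓ23 with rfl | rfl
    · by_cases h3N : 3 ∣ N
      · exact hgood N 2 hℓ hℓN (Or.inr (Or.inr ⟨rfl, h3N⟩)) A hA m hm0 hm
      · refine kummerRoot_of_mul_three N h3N A m hm ?_
        refine hgood (N * 3) 2 hℓ ?_ (Or.inr (Or.inr ⟨rfl, dvd_mul_left 3 N⟩)) A hA m hm0 hm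
        intro hdvd
        rcases (Nat.Prime.dvd_mul Nat.prime_two).mp hdvd with h' | h'
        · exact hℓN h'
        · exact absurd h' (by decide)
    · by_cases h2N : 2 ∣ N
      · exact hgood N 3 hℓ hℓN (Or.inr (Or.inl ⟨rfl, h2N⟩)) A hA m hm0 hm
      · refine kummerRoot_of_mul_two N h2N A m hm ?_
        refine hgood (N * 2) 3 hℓ ?_ (Or.inr (Or.inl ⟨rfl, dvd_mul_left 2 N⟩)) A hA m hm0 hm
        intro hdvd
        rcases (Nat.Prime.dvd_mul Nat.prime_three).mp hdvd with h' | h'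
        · exact hℓN h'
        · exact absurd h' (by decide)

end Fermat.Agent.ESJ.Cong.TorsionESK
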