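/-
helper91 — ES-CONG / PADIC (P-23): the level pull-back `J₀(N) → J₀(N r)` has no kernel coming
from roots.

KEY LEMMA (`exists_alpha_eq_of_pow`): for a prime `r ∤ N`, with `α : F_N → F_{N r}` the
inclusion: if `f' ∈ F_{N r}` and `f' ^ m ∈ α (F_N)` for some `m ≠ 0`, then `f' ∈ α (F_N)`.

Proof: the `r + 1` conjugate embeddings `F_{N r} → ℚ̄((t))` over `x ↦ x(t^r)`
(`ConjAnalytic.exists_conj`) are `τ_∞ = (f ↦ f(t^r))` and `τ_b = rot ζ^b ∘ τ_0`; from
`(τ_0 f')^m = (τ_∞ f')^m` we get `τ_0 f' = c · τ_∞ f'` with a constant `c`, `c^m = 1`, hence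
`τ_b f' = c · τ_∞ f'` for all `b` (a series in `t^r` is fixed by the rotations), and the trace
formula gives `Tr(f')(t^r) = (1 + r c) · f'(t^r)` with `1 + r c ≠ 0`.
-/
import Mathlib
import Fermat.Agent.ESJ.Cong.ConjNormAnalytic

set_option autoImplicit false
set_option linter.unusedSectionVars false
set_option linter.style.haveILetI false

open scoped IntermediateField

namespace Fermat.Agent.ESJ.Cong.PullInj

open ModularCurve Fermat.Agent.S24 Fermat.Agent.S28.Chain Fermat.Agent.S28 AlgebraicCurve
open Fermat.Agent.ESJ.Cong.ConjAnalytic Module Polynomial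

noncomputable section

/-- The trace as a sum over a complete family of embeddings (the target field need not be
algebraically closed). -/
theorem algebraMap_trace_eq_sum {k F L : Type*} [Field k] [Field F] [Field L] [Algebra k F]
    [Algebra k L] [CharZero k] [FiniteDimensional k F] {X : Type*} [Fintype X]
    (σ : X → (F →ₐ[k] L)) (hinj : Function.Injective σ)
    (hcard : finrank k F = Fintype.card X) (f : F) :
    algebraMap k L (Algebra.trace k F f) = ∑ q, σ q f := by
  classical
  let E := AlgebraicClosure L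
  let τ : X → (F →ₐ[k] E) := fun q => (IsScalarTower.toAlgHom k L E).comp (σ q)
  have hτinj : Function.Injective τ := by
    intro q q' h
    apply hinj
    ext y
    have h' := congrArg (fun φ : F →ₐ[k] E => φ y) h
    exact (algebraMap L E).injective h'
  have hcardE : Fintype.card (F →ₐ[k] E) = Fintype.card X := by
    rw [AlgHom.card, hcard]
  have hτbij : Function.Bijective τ :=
    (Fintype.bijective_iff_injective_and_card τ).mpr ⟨hτinj, hcardE.symm⟩
  have h1 := trace_eq_sum_embeddings (K := k) (L := F) E (x := f)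
  have h2 : ∑ φ : F →ₐ[k] E, φ f = ∑ q, τ q f :=
    (Fintype.sum_bijective τ hτbij _ _ (fun _ => rfl)).symm
  apply (algebraMap L E).injective
  rw [map_sum, ← IsScalarTower.algebraMap_apply k L E, h1, h2]
  rfl

/-- Trace formula along `α : A →ₐ[k] B`: a family of `[B : A]` distinct ring homs
`σ q : B → L` with `σ q ∘ α = ι` computes `ι (Tr f) = ∑ σ q f`. -/
theorem trace_eq_sum_along {k A B L : Type*} [Field k] [Field A] [Field B] [Field L] [CharZero A]
    [Algebra k A] [Algebra k B] (α : A →ₐ[k] B) (ι : A →+* L) {X : Type*} [Fintype X]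
    (σ : X → (B →+* L)) (hσ : ∀ q x, σ q (α x) = ι x) (hinj : Function.Injective σ)
    (hfin : letI := algebraAlong α; Module.Finite A B)
    (hcard : letI := algebraAlong α; Module.finrank A B = Fintype.card X) (f : B) :
    letI := algebraAlong α
    ι (Algebra.trace A B f) = ∑ q, σ q f := by
  letI := algebraAlong α
  letI : Algebra A L := ι.toAlgebra
  haveI : FiniteDimensional A B := hfin
  let σ' : X → (B →ₐ[A] L) := fun q => { σ q with commutes' := fun x => hσ q x }
  have hinj' : Function.Injective σ' := by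
    intro q q' h
    apply hinj
    ext y
    exact congrArg (fun φ : B →ₐ[A] L => φ y) h
  exact algebraMap_trace_eq_sum σ' hinj' hcard f

/-- Constants of the field of Laurent series, as values of `algebraMap`. -/
theorem C_eq_algebraMap_laurent {K : Type*} [Field K] (c : K) :
    (HahnSeries.C c : LaurentSeries K) = algebraMap K (LaurentSeries K) c := by
  rw [algebraMap_laurentSeries_eq_single, HahnSeries.C_apply]

/-- A root of unity of the field of Laurent series over an algebraically closed field is a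
constant. -/
theorem exists_C_eq_of_pow_eq_one {K : Type*} [Field K] [IsAlgClosed K] (ξ : LaurentSeries K)
    (m : ℕ) (hm : m ≠ 0) (hξ : ξ ^ m = 1) : ∃ c : K, c ^ m = 1 ∧ HahnSeries.C c = ξ := by
  have hint : IsIntegral K ξ := by
    refine ⟨X ^ m - C 1, monic_X_pow_sub_C (1 : K) hm, ?_⟩
    rw [eval₂_sub, eval₂_X_pow, eval₂_C, hξ, map_one, sub_self]
  obtain ⟨c, hc⟩ := minpoly.mem_range_of_degree_eq_one K ξ
    (IsAlgClosed.degree_eq_one_of_irreducible K (minpoly.irreducible hint))
  refine ⟨c, ?_, ?_⟩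
  · apply (algebraMap K (LaurentSeries K)).injective
    rw [map_pow, hc, hξ, map_one]
  · rw [← hc, C_eq_algebraMap_laurent]

set_option maxHeartbeats 1000000 in
/-- **KEY LEMMA.** For a prime `r ∤ N`: an element of `F_{N r}` a power of which lies in
`α (F_N)` lies in `α (F_N)`. -/
theorem exists_alpha_eq_of_pow (N r : ℕ) [NeZero N] [NeZero r] (hr : r.Prime) (hrN : ¬ r ∣ N)
    (m : ℕ) (hm : m ≠ 0) (f' : modularFunctionFieldBar (N * r)) (h : modularFunctionFieldBar N)
    (hf : f' ^ m = heckeAlphaBar KQ N r h) :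
    ∃ a : modularFunctionFieldBar N, heckeAlphaBar KQ N r a = f' := by
  by_cases hf0 : f' = 0
  · exact ⟨0, by rw [map_zero, hf0]⟩
  -- a primitive `r`-th root of unity
  obtain ⟨ζ0, hζ0⟩ := HasEnoughRootsOfUnity.exists_primitiveRoot KQ r
  obtain ⟨ζ, rfl⟩ := hζ0.isUnit (NeZero.ne r)
  have hζ : IsPrimitiveRoot ζ r := IsPrimitiveRoot.coe_units_iff.mp hζ0
  have hζpow : ∀ b : ℕ, (ζ ^ b) ^ r = 1 := fun b => by
    rw [← pow_mul, mul_comm, pow_mul, hζ.pow_eq_one, one_pow]
  -- the embeddings
  obtain ⟨τ0, hτ0α, hτ0β⟩ := exists_conj N r hr hrN 1 (one_pow r)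
  let ι : modularFunctionFieldBar N →+* LaurentSeries KQ :=
    (qExpand KQ r).comp (modularFunctionFieldBar N).val.toRingHom
  let τinf : modularFunctionFieldBar (N * r) →+* LaurentSeries KQ :=
    (qExpand KQ r).comp (modularFunctionFieldBar (N * r)).val.toRingHom
  let τ : Fin r → (modularFunctionFieldBar (N * r) →+* LaurentSeries KQ) :=
    fun b => (rot (ζ ^ b.1)).comp τ0
  let σ : Option (Fin r) → (modularFunctionFieldBar (N * r) →+* LaurentSeries KQ) :=
    fun o => o.elim τinf τ
  have hι : ∀ x : modularFunctionFieldBar N, ι x = qExpand KQ r (x : LaurentSeries KQ) :=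
    fun x => rfl
  have hτinf : ∀ y : modularFunctionFieldBar (N * r),
      τinf y = qExpand KQ r (y : LaurentSeries KQ) := fun y => rfl
  have hτα : ∀ (b : Fin r) (x : modularFunctionFieldBar N),
      τ b (heckeAlphaBar KQ N r x) = qExpand KQ r (x : LaurentSeries KQ) := by
    intro b x
    show rot (ζ ^ b.1) (τ0 (heckeAlphaBar KQ N r x)) = _
    rw [hτ0α, rot_qExpand_of_pow_eq_one (hζpow b.1)]
  have hτβ : ∀ (b : Fin r) (x : modularFunctionFieldBar N),
      τ b (heckeBetaBar KQ N r x) = rot (ζ ^ b.1) (x : LaurentSeries KQ) := by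
    intro b x
    show rot (ζ ^ b.1) (τ0 (heckeBetaBar KQ N r x)) = _
    rw [hτ0β, rot_rot, mul_one]
  have hσ : ∀ o x, σ o (heckeAlphaBar KQ N r x) = ι x := by
    intro o x
    cases o with
    | none =>
      show qExpand KQ r ((heckeAlphaBar KQ N r x : modularFunctionFieldBar (N * r)) :
        LaurentSeries KQ) = qExpand KQ r (x : LaurentSeries KQ)
      rw [coe_heckeAlphaBar]
    | some b => exact hτα b x
  have hr2 : ¬ ((r : ℤ) ∣ -1) := by
    intro h
    have h1 : (r : ℤ) ∣ 1 := (dvd_neg.mp h)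
    have h2 : r ∣ 1 := Int.natCast_dvd_natCast.mp (by exact_mod_cast h1)
    exact hr.one_lt.ne' (Nat.dvd_one.mp h2)
  have hnone : (σ none (heckeBetaBar KQ N r (jBar N))).coeff (-1) = 0 := by
    show (qExpand KQ r ((heckeBetaBar KQ N r (jBar N) : modularFunctionFieldBar (N * r)) :
        LaurentSeries KQ)).coeff (-1) = 0
    exact qExpand_coeff_of_not_dvd (R := KQ) (N := r) _ hr2
  have hsome : ∀ b : Fin r, (σ (some b) (heckeBetaBar KQ N r (jBar N))).coeff (-1) =
      (((ζ ^ b.1)⁻¹ : KQˣ) : KQ) := by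
    intro b
    show (τ b (heckeBetaBar KQ N r (jBar N))).coeff (-1) = _
    rw [hτβ b, coe_jBar, rot_jqModC_coeff_neg_one]
  have hinj : Function.Injective σ := by
    intro o o' h
    have hc := congrArg (fun φ : modularFunctionFieldBar (N * r) →+* LaurentSeries KQ =>
      (φ (heckeBetaBar KQ N r (jBar N))).coeff (-1)) h
    cases o with
    | none =>
      cases o' with
      | none => rfl
      | some b' =>
        rw [hnone, hsome] at hc
        exact absurd hc.symm (Units.ne_zero _)
    | some b =>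
      cases o' with
      | none =>
        rw [hnone, hsome] at hc
        exact absurd hc (Units.ne_zero _)
      | some b' =>
        rw [hsome, hsome] at hc
        have h1 : (ζ ^ b.1)⁻¹ = (ζ ^ b'.1)⁻¹ := Units.ext hc
        have h2 : ζ ^ b.1 = ζ ^ b'.1 := inv_injective h1
        have h3 : b.1 = b'.1 := hζ.pow_inj b.2 b'.2 h2
        rw [Fin.ext h3]
  have hfr := finite_and_finrank_alpha N r hr hrN
  have hcard : Fintype.card (Option (Fin r)) = r + 1 := by
    rw [Fintype.card_option, Fintype.card_fin]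
  have key := trace_eq_sum_along (heckeAlphaBar KQ N r) ι σ hσ hinj hfr.1
    (hfr.2.trans hcard.symm) f'
  -- the conjugates of `f'`
  set g₀ : LaurentSeries KQ := qExpand KQ r (f' : LaurentSeries KQ) with hg₀def
  have hg₀ : g₀ ≠ 0 := by
    intro h0
    have h1 : (f' : LaurentSeries KQ) = 0 :=
      qExpand_injective (R := KQ) r (h0.trans (map_zero _).symm)
    exact hf0 (Subtype.ext h1)
  have hpow0 : (τ0 f') ^ m = g₀ ^ m := by
    rw [← map_pow, hf, hτ0α, hg₀def, ← map_pow]
    congr 1
    have h1 := congrArg (fun y : modularFunctionFieldBar (N * r) => (y : LaurentSeries KQ)) hf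
    simp only [coe_heckeAlphaBar] at h1
    rw [← h1]
    rfl
  have hξ : (τ0 f' / g₀) ^ m = 1 := by
    rw [div_pow, hpow0, div_self (pow_ne_zero m hg₀)]
  obtain ⟨c, hcm, hc⟩ := exists_C_eq_of_pow_eq_one (τ0 f' / g₀) m hm hξ
  have hτ0 : τ0 f' = HahnSeries.C c * g₀ := by
    rw [hc, div_mul_cancel₀ _ hg₀]
  have hτb : ∀ b : Fin r, τ b f' = HahnSeries.C c * g₀ := by
    intro b
    show rot (ζ ^ b.1) (τ0 f') = _
    rw [hτ0, map_mul, rot_C, hg₀def, rot_qExpand_of_pow_eq_one (hζpow b.1)]
  have key' : ι ((letI := algebraAlong (heckeAlphaBar KQ N r);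
      Algebra.trace (modularFunctionFieldBar N) (modularFunctionFieldBar (N * r)) f')) =
      HahnSeries.C (1 + (r : KQ) * c) * g₀ := by
    rw [key, Fintype.sum_option]
    have h1 : σ none f' = g₀ := rfl
    have h2 : ∀ b : Fin r, σ (some b) f' = HahnSeries.C c * g₀ := hτb
    rw [h1, Finset.sum_congr rfl (fun b _ => h2 b), Finset.sum_const, Finset.card_univ,
      Fintype.card_fin, map_add, map_one, map_mul, map_natCast, nsmul_eq_mul]
    ring
  have hne : (1 + (r : KQ) * c) ≠ 0 := by
    intro h0
    have h1 : (r : KQ) * c = -1 := by linear_combination h0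
    have h2 : (r : KQ) ^ m = (-1) ^ m := by
      have h3 := congrArg (fun z : KQ => z ^ m) h1
      simp only [mul_pow, hcm, mul_one] at h3
      exact h3
    have h4 : ((r : ℤ) ^ m : ℤ) = (-1) ^ m := by
      have h5 : (((r : ℤ) ^ m : ℤ) : KQ) = (((-1) ^ m : ℤ) : KQ) := by
        push_cast
        exact h2
      exact Int.cast_injective h5
    have h6 := congrArg Int.natAbs h4
    rw [Int.natAbs_pow, Int.natAbs_pow, Int.natAbs_natCast, Int.natAbs_neg, Int.natAbs_one,
      one_pow] at h6
    have h7 : r = 1 := by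
      by_contra hne1
      have h8 : 1 < r ^ m := Nat.one_lt_pow hm hr.one_lt
      omega
    exact hr.one_lt.ne' h7
  refine ⟨(1 + (r : KQ) * c)⁻¹ • (letI := algebraAlong (heckeAlphaBar KQ N r);
      Algebra.trace (modularFunctionFieldBar N) (modularFunctionFieldBar (N * r)) f'), ?_⟩
  apply Subtype.ext
  rw [coe_heckeAlphaBar]
  apply qExpand_injective (R := KQ) r
  rw [← hg₀def, IntermediateField.coe_smul, Algebra.smul_def, ← C_eq_algebraMap_laurent,
    map_mul, qExpand_C, ← hι, key', ← mul_assoc, ← map_mul, inv_mul_cancel₀ hne, map_one,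
    one_mul]

end

end Fermat.Agent.ESJ.Cong.PullInj
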