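/-
helper91 — ES-CONG / PADIC (P-23, variant A): the level pull-back `J₀(N) → J₀(N r)` is
INJECTIVE, for every prime `r ∤ N`.

* `pic0Pull_injective_of_root` (abstract): the pull-back of divisor classes along `φ : F → F'`
  of degree `n` is injective as soon as functions of `F'` with trivial divisor are constants
  and `f' ^ n ∈ φ F` implies `f' ∈ φ F`.
* `pic0Pull_alpha_injective`, `exists_injective_levelPullback` : the modular instance
  (`PullInj.exists_alpha_eq_of_pow`).
-/
import Mathlib
import Fermat.Agent.ESJ.Cong.PullInj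
import Fermat.Agent.ESJ.Cong.LevelPull

set_option autoImplicit false
set_option linter.style.haveILetI false

noncomputable section

namespace Fermat.Agent.ESJ.Cong.PullInj

open AlgebraicCurve ModularCurve IntermediateField
open Fermat.Agent.S24 Fermat.Agent.ESJ.HeckeInputs Fermat.Agent.ESJ.LevelDesc

section Abstract

variable {K F F' : Type*} [Field K] [Field F] [Field F'] [Algebra K F] [Algebra K F']
  [HasPrincipalDivisors K F] [HasPrincipalDivisors K F']
  (φ : F →ₐ[K] F') (hφ : φ.toRingHom.IsIntegral)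

/-- **Injectivity of the pull-back of divisor classes** along an extension of degree `n` in
which an element whose `n`-th power comes from below comes from below. -/
theorem pic0Pull_injective_of_root (hFI : FundamentalIdentityAlong K φ hφ)
    (hfin : FiniteAlong K φ) (hN : NormFormulaAlong K φ hfin) (hS : SumRamInertiaAlong φ hφ)
    (hn : finrankAlong K φ ≠ 0)
    (hconst : ∀ u : F', (∀ w : Place K F', 0 ≤ w.ord u) → ∃ c : K, u = algebraMap K F' c)
    (hroot : ∀ (f' : F') (h : F), f' ^ finrankAlong K φ = φ h → ∃ a : F, φ a = f') :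
    Function.Injective (pic0Pull φ hφ hFI) := by
  rw [injective_iff_map_eq_zero]
  intro x hx
  have hnx := nsmul_eq_zero_of_pic0Pull_eq_zero φ hφ hFI hfin hN hS x hx
  obtain ⟨D, rfl⟩ := Pic0.mk_surjective x
  rw [pic0Pull_mk, pic0_mk_eq_zero_iff, coe_pullDegZero] at hx
  have h2 : finrankAlong K φ • Pic0.mk D = Pic0.mk (finrankAlong K φ • D) := rfl
  rw [h2, pic0_mk_eq_zero_iff] at hnx
  have h3 : ((finrankAlong K φ • D : Divisor.degZero (K := K) (F := F)) : Divisor K F)
      = (finrankAlong K φ : ℤ) • (D : Divisor K F) := by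
    rw [AddSubgroup.coe_nsmul, natCast_zsmul]
  rw [h3] at hnx
  obtain ⟨f', hf'0, hf'⟩ := hx
  obtain ⟨h, hh0, hh⟩ := hnx
  -- pull-back of a divisor of a function
  have hpull : ∀ (E : Divisor K F) (g : F), (∀ v : Place K F, E v = v.ord g) →
      ∀ w : Place K F', Divisor.pullbackAlong φ hφ E w = w.ord (φ g) := by
    intro E g hE w
    letI := algebraAlong φ
    haveI := isScalarTower_along φ
    haveI := isIntegral_along φ hφ
    exact Divisor.pullback_apply_eq_ord hE w
  have hφh0 : φ h ≠ 0 := (map_ne_zero φ).mpr hh0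
  -- `f' ^ n / φ h` has trivial divisor
  have hord : ∀ w : Place K F', w.ord (f' ^ finrankAlong K φ * (φ h)⁻¹) = 0 := by
    intro w
    have e1 : w.ord (f' ^ finrankAlong K φ) = (finrankAlong K φ : ℤ) * w.ord f' := by
      rw [← zpow_natCast, w.ord_zpow]
    have e2 := hpull _ h hh w
    rw [map_zsmul, Finsupp.smul_apply, smul_eq_mul, hf' w] at e2
    rw [w.ord_mul (pow_ne_zero _ hf'0) (inv_ne_zero hφh0), w.ord_inv, e1, e2]
    ring
  obtain ⟨c, hc⟩ := hconst _ (fun w => (hord w).ge)
  have hpow : f' ^ finrankAlong K φ = φ (algebraMap K F c * h) := by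
    rw [map_mul, AlgHom.commutes, ← hc, mul_assoc, inv_mul_cancel₀ hφh0, mul_one]
  obtain ⟨a, ha⟩ := hroot f' _ hpow
  have ha0 : a ≠ 0 := by
    rintro rfl
    rw [map_zero] at ha
    exact hf'0 ha.symm
  obtain ⟨Da, hDa, -⟩ := HasPrincipalDivisors.exists_divisor (K := K) a ha0
  have hpulleq : Divisor.pullbackAlong φ hφ Da = Divisor.pullbackAlong φ hφ (D : Divisor K F) := by
    refine Finsupp.ext fun w => ?_
    rw [hpull Da a hDa w, ha, hf' w]
  have hpush := congrArg (Divisor.pushforwardAlong φ hφ) hpulleq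
  rw [pushforwardAlong_pullbackAlong φ hφ hS, pushforwardAlong_pullbackAlong φ hφ hS] at hpush
  have hDeq : Da = (D : Divisor K F) := by
    have hn' : (finrankAlong K φ : ℤ) ≠ 0 := Int.natCast_ne_zero.mpr hn
    exact smul_right_injective (Divisor K F) hn' hpush
  rw [pic0_mk_eq_zero_iff, ← hDeq]
  exact ⟨a, ha0, hDa⟩

end Abstract

local notation "Qb" => AlgebraicClosure ℚ

set_option synthInstance.maxHeartbeats 400000 in
set_option maxHeartbeats 1000000 in
/-- **The level pull-back `J₀(N) → J₀(N r)` is injective** (`r` a prime not dividing `N`). -/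
theorem pic0Pull_alpha_injective (N r : ℕ) [NeZero N] [NeZero r] [NeZero (N * r)]
    (hr : r.Prime) (hrN : ¬ r ∣ N)
    (hFIa : haveI := hasPrincipalDivisors_bar (N * r);
      FundamentalIdentityAlong Qb (heckeAlphaBar Qb N r) (heckeAlphaBarIntegral N r)) :
    haveI := hasPrincipalDivisors_bar (N * r)
    Function.Injective (pic0Pull (heckeAlphaBar Qb N r) (heckeAlphaBarIntegral N r) hFIa) := by
  haveI hPr := hasPrincipalDivisors_bar (N * r)
  haveI hP := hasPrincipalDivisors_bar N
  have hS : SumRamInertiaAlong (heckeAlphaBar Qb N r) (heckeAlphaBarIntegral N r) := by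
    letI := algebraAlong (heckeAlphaBar Qb N r)
    haveI := isScalarTower_along (heckeAlphaBar Qb N r)
    haveI := isIntegral_along (heckeAlphaBar Qb N r) (heckeAlphaBarIntegral N r)
    haveI : FiniteDimensional (FN N) (FN (N * r)) := finiteAlong_heckeAlphaBar N r
    haveI := isAlgebraic_bar N
    haveI := isAlgebraic_bar (N * r)
    exact Fermat.Agent.Lib.FF.ExtNorm.sumRamificationInertia (jBar N) (jBar (N * r))
  have hN : NormFormulaAlong Qb (heckeAlphaBar Qb N r) (finiteAlong_heckeAlphaBar N r) := by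
    haveI := isAlgebraic_bar N
    haveI := isAlgebraic_bar (N * r)
    exact normFormulaAlong _ _ (jBar N) (jBar (N * r))
  have hdeg : finrankAlong Qb (heckeAlphaBar Qb N r) = r + 1 :=
    ConjAnalytic.finrank_alpha N r hr hrN
  refine pic0Pull_injective_of_root (heckeAlphaBar Qb N r) (heckeAlphaBarIntegral N r) hFIa
    (finiteAlong_heckeAlphaBar N r) hN hS (by rw [hdeg]; exact Nat.succ_ne_zero r) ?_ ?_
  · haveI := finiteDimensional_jBar (N * r)
    have hFF := Fermat.Agent.Lib.FF.isFF1_of_charZero (jBar (N * r)) (transcendental_jBar (N * r))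
    exact hFF.const_of_ord_nonneg
  · intro f' h hf
    rw [hdeg] at hf
    exact exists_alpha_eq_of_pow N r hr hrN (r + 1) (Nat.succ_ne_zero r) f' h hf

set_option synthInstance.maxHeartbeats 400000 in
set_option maxHeartbeats 1000000 in
/-- **PADIC P-23, variant A.** For a prime `r ∤ N` there is an injective, Galois-equivariant
additive map `J₀(N) → J₀(N r)` (pull-back of divisor classes). -/
theorem exists_injective_levelPullback (N r : ℕ) [NeZero N] (hr : r.Prime) (hrN : ¬ r ∣ N) :
    haveI : NeZero (N * r) := ⟨Nat.mul_ne_zero (NeZero.ne N) hr.ne_zero⟩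
    ∃ π : JZero N →+ JZero (N * r),
      (∀ (σ : GQ) (x : JZero N), π (σ • x) = σ • π x) ∧ Function.Injective π := by
  haveI : NeZero r := ⟨hr.ne_zero⟩
  haveI : NeZero (N * r) := ⟨Nat.mul_ne_zero (NeZero.ne N) hr.ne_zero⟩
  haveI hPr := hasPrincipalDivisors_bar (N * r)
  have hFIa : FundamentalIdentityAlong Qb (heckeAlphaBar Qb N r) (heckeAlphaBarIntegral N r) :=
    fundamentalIdentityAlong_heckeAlphaBar N r
  refine ⟨pic0Pull (heckeAlphaBar Qb N r) (heckeAlphaBarIntegral N r) hFIa, ?_,
    pic0Pull_alpha_injective N r hr hrN hFIa⟩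
  intro σ x
  rw [galois_smul_pic0_def, galois_smul_pic0_def]
  exact pic0Pull_smul (heckeAlphaBar Qb N r) (heckeAlphaBarIntegral N r) hFIa
    (comm_intertwines_alpha N r σ) x

end Fermat.Agent.ESJ.Cong.PullInj
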