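import Mathlib
import Fermat.Agent.ESJ.Cong.Defs
import Fermat.Agent.ESJ.Cong.Assembly
import Fermat.Agent.Lib.FrobeniusExists

/-!
# ES-CONG, package G (core): `SpecializationExists` for `JZero N` from the layer outputs

`specializationExists_of` derives the conclusion of S37 from

* `hInj`  : injectivity of `reductionModL` on prime-to-`ℓ` torsion (S18),
* `hGal`  : Galois equivariance of `reductionModL` for the decomposition group (CONG-C),
* `hES`   : the Eichler–Shimura congruence `R ∘ T_ℓ = Φ R + ℓ Φ⁻¹ R` (CONG-F).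
-/

set_option autoImplicit false

noncomputable section

namespace Fermat.Agent.ESJ.Cong

open ModularCurve AlgebraicCurve

local notation "Qb" => AlgebraicClosure ℚ

theorem specializationExists_of (N p : ℕ) [NeZero N] (hcomm : HeckeOperatorsCommuteBar N)
    (hInj : ∀ ℓ : ℕ, ℓ.Prime → ¬ ℓ ∣ N → ∀ A : ValuationSubring Qb, A.LiesOverPrime ℓ →
      ∀ m : ℕ, ¬ ℓ ∣ m → ∀ z : JZero N, m • z = 0 → reductionModL A N z = 0 → z = 0)
    (hGal : ∀ ℓ : ℕ, ℓ.Prime → ¬ ℓ ∣ N → ∀ A : ValuationSubring Qb, A.LiesOverPrime ℓ →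
      ∀ (σ : Qb ≃ₐ[ℚ] Qb) (hσ : σ ∈ A.decompositionSubgroup ℚ) (x : JZero N),
        reductionModL A N (σ • x)
          = coeffAut (IsLocalRing.ResidueField A) N (resAut A ⟨σ, hσ⟩) • reductionModL A N x)
    (hES : ∀ ℓ : ℕ, (hℓ : ℓ.Prime) → ¬ ℓ ∣ N → ∀ A : ValuationSubring Qb, A.LiesOverPrime ℓ →
      ∀ (τ : IsLocalRing.ResidueField A ≃+* IsLocalRing.ResidueField A),
        (∀ x, τ x = x ^ ℓ) → ∀ x : JZero N,
        reductionModL A N (heckeOperatorBar N ⟨ℓ, hℓ⟩ x)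
          = coeffAut (IsLocalRing.ResidueField A) N τ • reductionModL A N x
            + ℓ • ((coeffAut (IsLocalRing.ResidueField A) N τ)⁻¹ • reductionModL A N x)) :
    letI := heckeModuleBar N
    ∀ (_ : SMulCommClass (Qb ≃ₐ[ℚ] Qb) HeckeAlg (JZero N)),
      SpecializationExists (K := ℚ) (L := Qb) N p (JZero N) := by
  letI := heckeModuleBar N
  intro hsmul ℓ hℓ hℓNp A hA
  have hℓN : ¬ ℓ ∣ N := fun h => hℓNp (Dvd.dvd.mul_right h p)
  have hℓp : ¬ ℓ ∣ p := fun h => hℓNp (Dvd.dvd.mul_left h N)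
  obtain ⟨σ0, hσ0⟩ :=
    Fermat.Agent.Lib.FrobeniusExists.exists_isFrobeniusAt_of_liesOverPrime hℓ A hA
  set k := IsLocalRing.ResidueField A
  set R : JZero N →+ JZeroC k N := reductionModL A N with hR
  set τ : k ≃+* k := resAut A ⟨σ0, hσ0.mem_decompositionSubgroup⟩ with hτdef
  have hτ : ∀ x, τ x = x ^ ℓ := fun x => resAut_apply_of_isFrobeniusAt A hσ0 x
  set Φ := coeffAut k N τ with hΦ
  have hRσ0 : ∀ x : JZero N, R (σ0 • x) = Φ • R x :=
    fun x => hGal ℓ hℓ hℓN A hA σ0 hσ0.mem_decompositionSubgroup x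
  refine exists_specialization_of_kernel (K := ℚ) (L := Qb) p A ℓ hℓ R.ker σ0 ?_ ?_ ?_ ?_ ?_
  · -- inertia
    intro τ' hτ' x
    obtain ⟨hd, h1⟩ := resAut_eq_one_of_mem_inertia A hτ'
    rw [AddMonoidHom.mem_ker, map_sub, hGal ℓ hℓ hℓN A hA τ' hd x, h1, map_one, one_smul,
      sub_self]
  · -- all Frobenius elements agree
    intro σ hσ x
    have e : resAut A ⟨σ, hσ.mem_decompositionSubgroup⟩ = τ := by
      refine RingEquiv.ext fun y => ?_
      rw [resAut_apply_of_isFrobeniusAt A hσ y, hτ y]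
    rw [AddMonoidHom.mem_ker, map_sub, hGal ℓ hℓ hℓN A hA σ hσ.mem_decompositionSubgroup x, e,
      hRσ0 x, sub_self]
  · -- σ0 preserves the kernel
    intro x hx
    rw [AddMonoidHom.mem_ker] at hx ⊢
    rw [hRσ0 x, hx, smul_zero]
  · -- no p-power torsion in the kernel
    rintro x ⟨n, hn⟩ hx
    exact hInj ℓ hℓ hℓN A hA (p ^ n) (fun h => hℓp (hℓ.dvd_of_dvd_pow h)) x hn hx
  · -- Eichler–Shimura
    intro x
    rw [AddMonoidHom.mem_ker, map_add, map_sub, map_nsmul,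
      heckeModuleBar_heckeGen_smul hcomm, hES ℓ hℓ hℓN A hA τ hτ (σ0 • x), hRσ0, hRσ0,
      inv_smul_smul]
    abel

end Fermat.Agent.ESJ.Cong

end
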